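/-
S36lib / J / ClassDescent  (helper4)  --  brick (D3), abstract part

CLASS DESCENT WITHOUT COCYCLES (argument of helper2).  `F / L` the function field of a curve
(`IsCurveOfGenus L F g`), `S` a set of semilinear automorphisms of `F / L` (Prelude's
`SemilinearAut L F`, acting on places, divisors and `Pic⁰`), `P` an `S`-fixed place.

* `exists_stable_divisor` **(D3-a)** : a class `x ∈ Pic⁰` fixed by `S` is the class of an
  `S`-stable divisor of degree `0`.  [`m` minimal with `L(E₀ + m P) ≠ 0`; then `ℓ = 1`, and the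
  unique effective divisor linearly equivalent to `E₀ + m P` is `S`-stable.]
* `exists_fixed_generator` **(D3-b)** : an `S`-stable principal divisor has an `S`-fixed
  generator, given a normalisation `ld : F → L` (multiplicative, `S`-equivariant, identity on
  constants; = leading coefficient of the expansion at `P`).
* `exists_fixed_kummer` : an `S`-fixed class killed by `n` has an `S`-stable representative `E`
  and an `S`-fixed function `u` with `div u = n • E`.
-/
import Fermat.Agent.S18lib.Cech.CurveBasics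
import Fermat.Agent.LSc.Core.Degeneracy

set_option autoImplicit false

noncomputable section

namespace Fermat.Agent.S36lib.J

open AlgebraicCurve Module
open Fermat.Agent.S18lib Fermat.Agent.S18lib.Cech

variable {L F : Type*} [Field L] [Field F] [Algebra L F]

/-! ### generalities on the action -/

theorem smul_divisor_nonneg (γ : SemilinearAut L F) {D : Divisor L F} (hD : ∀ v, 0 ≤ D v) :
    ∀ v, 0 ≤ (γ • D) v := by
  intro v
  rw [SemilinearAut.divisor_smul_apply]
  exact hD _

/-- `div (γ • f) = γ • div f` -/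
theorem smul_divisor_of_ord (γ : SemilinearAut L F) {D : Divisor L F} {f : F}
    (hD : ∀ v : Place L F, D v = v.ord f) : ∀ v : Place L F, (γ • D) v = v.ord (γ • f) := by
  intro v
  rw [SemilinearAut.divisor_smul_apply, hD]
  have h := SemilinearAut.ord_smul γ (γ⁻¹ • v) f
  rw [smul_inv_smul] at h
  exact h.symm

theorem semilinearAut_smul_ne_zero (γ : SemilinearAut L F) {f : F} (hf : f ≠ 0) : γ • f ≠ 0 := by
  intro h
  apply hf
  have := congrArg (fun y => γ⁻¹ • y) h
  simpa using this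

section Curve

variable {g : ℕ} (hF : IsCurveOfGenus L F g)
include hF

/-- two functions with the same divisor differ by a constant -/
theorem exists_const_mul_of_ord_eq {f f' : F} (hf : f ≠ 0) (hf' : f' ≠ 0)
    (h : ∀ v : Place L F, v.ord f' = v.ord f) : ∃ c : L, c ≠ 0 ∧ f' = algebraMap L F c * f := by
  obtain ⟨c, hc, e⟩ := Fermat.Agent.LSc.exists_const_of_ord_eq_zero hF
    (mul_ne_zero hf' (inv_ne_zero hf)) (fun v => by
      rw [v.ord_mul hf' (inv_ne_zero hf), v.ord_inv, h v, add_neg_cancel])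
  refine ⟨c, hc, ?_⟩
  rw [← e, mul_assoc, inv_mul_cancel₀ hf, mul_one]

/-- **minimal twist**: for a divisor `E₀` of degree `0` there is `m` such that
`L(E₀ + m P)` is a line. -/
theorem exists_line (E₀ : Divisor L F) (hE₀ : Divisor.degree E₀ = 0) (P : Place L F) :
    ∃ (m : ℕ) (f : F), f ≠ 0 ∧ f ∈ riemannRochSpace (E₀ + m • Finsupp.single P (1 : ℤ)) ∧
      ∀ f' ∈ riemannRochSpace (E₀ + m • Finsupp.single P (1 : ℤ)), ∃ c : L, f' = c • f := by
  classical
  have hP : P.deg = 1 := hF.deg_eq_one P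
  have hdeg : ∀ m : ℕ, Divisor.degree (E₀ + m • Finsupp.single P (1 : ℤ)) = m := by
    intro m
    rw [map_add, map_nsmul, Divisor.degree_single, hE₀, hP]
    simp
  -- the set of `m` with a nonzero section is nonempty
  have hex : ∃ m : ℕ, ∃ f : F, f ≠ 0 ∧ f ∈ riemannRochSpace (E₀ + m • Finsupp.single P (1 : ℤ)) := by
    refine ⟨g, ?_⟩
    have h1 := hF.riemann_le (E₀ + g • Finsupp.single P (1 : ℤ))
    rw [hdeg] at h1
    have h2 : 0 < finrank L (riemannRochSpace (E₀ + g • Finsupp.single P (1 : ℤ))) := by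
      have : (0 : ℤ) < (finrank L (riemannRochSpace (E₀ + g • Finsupp.single P (1 : ℤ))) : ℤ) := by
        linarith
      exact_mod_cast this
    have := hF.finiteDimensional (E₀ + g • Finsupp.single P (1 : ℤ))
    obtain ⟨x, hx⟩ := Module.finrank_pos_iff_exists_ne_zero.1 h2
    exact ⟨x.1, fun h => hx (Subtype.ext h), x.2⟩
  obtain ⟨f, hf0, hf⟩ := Nat.find_spec hex
  set m := Nat.find hex with hm
  -- `L(E₀ + m P - P) = 0`
  have hbot : ∀ y ∈ riemannRochSpace (E₀ + m • Finsupp.single P (1 : ℤ) - Finsupp.single P 1),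
      y = 0 := by
    intro y hy
    rcases Nat.eq_zero_or_pos m with h0 | hpos
    · refine eq_zero_of_mem_rr_of_degree_neg hF ?_ hy
      rw [map_sub, hdeg, Divisor.degree_single, hP, h0]
      norm_num
    · by_contra hy0
      have e : E₀ + m • Finsupp.single P (1 : ℤ) - Finsupp.single P 1 =
          E₀ + (m - 1) • Finsupp.single P (1 : ℤ) := by
        obtain ⟨r, hr⟩ : ∃ r, m = r + 1 := ⟨m - 1, by omega⟩
        rw [hr, Nat.add_sub_cancel, succ_nsmul]
        abel
      rw [e] at hy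
      exact Nat.find_min hex (Nat.sub_lt hpos Nat.one_pos) ⟨y, hy0, hy⟩
  refine ⟨m, f, hf0, hf, fun f' hf' => ?_⟩
  have e : E₀ + m • Finsupp.single P (1 : ℤ) =
      (E₀ + m • Finsupp.single P (1 : ℤ) - Finsupp.single P 1) + Finsupp.single P 1 := by abel
  have hfnot : f ∉ riemannRochSpace (E₀ + m • Finsupp.single P (1 : ℤ) - Finsupp.single P 1) :=
    fun h => hf0 (hbot f h)
  rw [e] at hf hf'
  obtain ⟨c, hc⟩ := exists_sub_smul_mem_rr hF _ P hf' hf hfnot
  exact ⟨c, sub_eq_zero.1 (hbot _ hc)⟩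

variable (S : Set (SemilinearAut L F))

/-- **(D3-a)** a class fixed by `S` is represented by an `S`-stable divisor. -/
theorem exists_stable_divisor (P : Place L F) (hP : ∀ γ ∈ S, γ • P = P) (x : Pic0 L F)
    (hx : ∀ γ ∈ S, γ • x = x) :
    ∃ E : Divisor.degZero (K := L) (F := F), Pic0.mk E = x ∧
      ∀ γ ∈ S, γ • (E : Divisor L F) = (E : Divisor L F) := by
  classical
  obtain ⟨E₀, rfl⟩ := Pic0.mk_surjective x
  have hE₀ : Divisor.degree (E₀ : Divisor L F) = 0 := E₀.2
  obtain ⟨m, f, hf0, hf, hline⟩ := exists_line hF (E₀ : Divisor L F) hE₀ P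
  obtain ⟨Df, hDf, hDfdeg⟩ := hF.hasPrincipalDivisors.exists_divisor f hf0
  set D₀ : Divisor L F := (E₀ : Divisor L F) + m • Finsupp.single P (1 : ℤ) with hD₀
  -- the representative
  have hEdeg : Divisor.degree ((E₀ : Divisor L F) + Df) = 0 := by
    rw [map_add, hE₀, hDfdeg, add_zero]
  refine ⟨⟨(E₀ : Divisor L F) + Df, hEdeg⟩, ?_, ?_⟩
  · -- same class
    symm
    refine (QuotientAddGroup.eq).2 ?_
    rw [AddSubgroup.mem_addSubgroupOf]
    have : ((-E₀ + ⟨(E₀ : Divisor L F) + Df, hEdeg⟩ : Divisor.degZero (K := L) (F := F)) :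
        Divisor L F) = Df := by
      simp
    rw [this]
    exact ⟨f, hf0, hDf⟩
  · intro γ hγ
    -- `γ • E₀ - E₀` is principal
    have hfix := hx γ hγ
    rw [SemilinearAut.pic0_smul_mk] at hfix
    have hprin := (QuotientAddGroup.eq).1 hfix.symm
    rw [AddSubgroup.mem_addSubgroupOf] at hprin
    obtain ⟨h, hh0, hh⟩ := hprin
    have hh' : ∀ v : Place L F, (γ • (E₀ : Divisor L F)) v = (E₀ : Divisor L F) v + v.ord h := by
      intro v
      have := hh v
      simp only [AddSubgroup.coe_add, NegMemClass.coe_neg, SemilinearAut.coe_degZeroSMulHom,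
        Finsupp.add_apply, Finsupp.neg_apply] at this
      linarith
    -- `D = D₀ + div f` is effective
    have hD : ∀ v, 0 ≤ (D₀ + Df) v := by
      intro v
      have := (mem_rr_of_ne hf0).1 hf v
      rw [Finsupp.add_apply, hDf]
      linarith
    -- `γ • D = D₀ + div (h * γ • f)` is effective
    have hγD := smul_divisor_nonneg γ hD
    have hγf0 : γ • f ≠ 0 := semilinearAut_smul_ne_zero γ hf0
    have hγDf := smul_divisor_of_ord γ hDf
    have hγP : γ • (m • Finsupp.single P (1 : ℤ) : Divisor L F) = m • Finsupp.single P (1 : ℤ) := by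
      have e := map_nsmul (DistribSMul.toAddMonoidHom (Divisor L F) γ) m
        (Finsupp.single P (1 : ℤ))
      have e' : γ • (m • Finsupp.single P (1 : ℤ) : Divisor L F) =
          m • (γ • (Finsupp.single P (1 : ℤ) : Divisor L F)) := e
      rw [e', SemilinearAut.smul_single, hP γ hγ]
    have hmem : h * γ • f ∈ riemannRochSpace D₀ := by
      rw [mem_rr_of_ne (mul_ne_zero hh0 hγf0)]
      intro v
      have h1 := hγD v
      rw [smul_add, hD₀, smul_add, hγP, Finsupp.add_apply, Finsupp.add_apply, hh' v, hγDf v]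
        at h1
      rw [v.ord_mul hh0 hγf0, hD₀, Finsupp.add_apply]
      linarith
    obtain ⟨c, hc⟩ := hline _ hmem
    have hc0 : c ≠ 0 := by
      rintro rfl
      rw [zero_smul] at hc
      exact mul_ne_zero hh0 hγf0 hc
    -- hence `ord (h * γ • f) = ord f`
    have hord : ∀ v : Place L F, v.ord h + v.ord (γ • f) = v.ord f := by
      intro v
      rw [← v.ord_mul hh0 hγf0, hc, Algebra.smul_def,
        v.ord_mul ((map_ne_zero _).2 hc0) hf0, ord_const, zero_add]
    ext v
    show (γ • ((E₀ : Divisor L F) + Df)) v = ((E₀ : Divisor L F) + Df) v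
    rw [smul_add, Finsupp.add_apply, Finsupp.add_apply, hh' v, hγDf v, hDf v]
    linarith [hord v]

/-- **(D3-b)** an `S`-stable principal divisor has an `S`-fixed generator. -/
theorem exists_fixed_generator (ld : F → L) (ld_mul : ∀ f f' : F, ld (f * f') = ld f * ld f')
    (ld_const : ∀ c : L, ld (algebraMap L F c) = c) (ld_ne_zero : ∀ f : F, f ≠ 0 → ld f ≠ 0)
    (ld_smul : ∀ γ ∈ S, ∀ f : F, ld (γ • f) = SemilinearAut.baseAut γ (ld f))
    (E : Divisor L F) (hE : ∀ γ ∈ S, γ • E = E) (hprin : E.IsPrincipal) :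
    ∃ u : F, u ≠ 0 ∧ (∀ v : Place L F, E v = v.ord u) ∧ ∀ γ ∈ S, γ • u = u := by
  obtain ⟨h₀, h₀0, hh₀⟩ := hprin
  have hl0 : ld h₀ ≠ 0 := ld_ne_zero h₀ h₀0
  set u : F := algebraMap L F (ld h₀)⁻¹ * h₀ with hu
  have hc0 : algebraMap L F (ld h₀)⁻¹ ≠ 0 := (map_ne_zero _).2 (inv_ne_zero hl0)
  have hu0 : u ≠ 0 := mul_ne_zero hc0 h₀0
  have hldu : ld u = 1 := by
    rw [hu, ld_mul, ld_const, inv_mul_cancel₀ hl0]
  have hordu : ∀ v : Place L F, E v = v.ord u := by
    intro v
    rw [hu, v.ord_mul hc0 h₀0, ord_const, zero_add, hh₀]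
  refine ⟨u, hu0, hordu, fun γ hγ => ?_⟩
  have hγu0 : γ • u ≠ 0 := semilinearAut_smul_ne_zero γ hu0
  have h1 : ∀ v : Place L F, v.ord (γ • u) = v.ord u := by
    intro v
    rw [← smul_divisor_of_ord γ hordu v, hE γ hγ, hordu]
  obtain ⟨c, hc0', hc⟩ := exists_const_mul_of_ord_eq hF hu0 hγu0 h1
  have h2 : ld (γ • u) = c := by
    rw [hc, ld_mul, ld_const, hldu, mul_one]
  rw [ld_smul γ hγ, hldu, map_one] at h2
  rw [hc, ← h2, map_one, one_mul]

/-- **class descent for torsion classes**: an `S`-fixed class killed by `n` has an `S`-stable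
representative `E` and an `S`-fixed Kummer function `u`, `div u = n • E`. -/
theorem exists_fixed_kummer (P : Place L F) (hP : ∀ γ ∈ S, γ • P = P)
    (ld : F → L) (ld_mul : ∀ f f' : F, ld (f * f') = ld f * ld f')
    (ld_const : ∀ c : L, ld (algebraMap L F c) = c) (ld_ne_zero : ∀ f : F, f ≠ 0 → ld f ≠ 0)
    (ld_smul : ∀ γ ∈ S, ∀ f : F, ld (γ • f) = SemilinearAut.baseAut γ (ld f))
    (n : ℕ) (x : Pic0 L F) (hn : (n : ℤ) • x = 0) (hx : ∀ γ ∈ S, γ • x = x) :
    ∃ (E : Divisor.degZero (K := L) (F := F)) (u : F), Pic0.mk E = x ∧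
      (∀ γ ∈ S, γ • (E : Divisor L F) = (E : Divisor L F)) ∧ u ≠ 0 ∧
      (∀ v : Place L F, (n : ℤ) * (E : Divisor L F) v = v.ord u) ∧ ∀ γ ∈ S, γ • u = u := by
  obtain ⟨E, hEx, hE⟩ := exists_stable_divisor hF S P hP x hx
  have hstab : ∀ γ ∈ S, γ • ((n : ℤ) • (E : Divisor L F)) = (n : ℤ) • (E : Divisor L F) := by
    intro γ hγ
    have e := map_zsmul (DistribSMul.toAddMonoidHom (Divisor L F) γ) (n : ℤ) (E : Divisor L F)
    have e' : γ • ((n : ℤ) • (E : Divisor L F)) = (n : ℤ) • (γ • (E : Divisor L F)) := e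
    rw [e', hE γ hγ]
  have hprin : ((n : ℤ) • (E : Divisor L F)).IsPrincipal := by
    have h0 : Pic0.mk ((n : ℤ) • E) = 0 := by
      have : Pic0.mk ((n : ℤ) • E) = (n : ℤ) • Pic0.mk E := rfl
      rw [this, hEx, hn]
    have h1 := (QuotientAddGroup.eq_zero_iff _).1 h0
    rw [AddSubgroup.mem_addSubgroupOf] at h1
    exact h1
  obtain ⟨u, hu0, hu, hfix⟩ := exists_fixed_generator hF S ld ld_mul ld_const ld_ne_zero ld_smul
    _ hstab hprin
  refine ⟨E, u, hEx, hE, hu0, fun v => ?_, hfix⟩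
  rw [← hu v, Finsupp.smul_apply, smul_eq_mul]

end Curve

end Fermat.Agent.S36lib.J
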