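/-
S36lib / J / ClassDescentBar  (helper4)  --  brick (D3), the instance for `FBar N = ℚ̄(X₀(N))`

`H ≤ G_ℚ` ANY subgroup, acting coefficientwise on `FBar N ⊆ ℚ̄((q))` (`galAutBar N σ`).

* generic: for an intermediate field `E` of `L((q)) / L` containing a series with a pole, the place
  at infinity `placeI E` (valuation ring: the series of `E` without pole) and the leading
  coefficient `lcI E : E →*₀ L`;
* `pinfBar N : Place ℚ̄ (FBar N)`, fixed by every `galAutBar N σ`; `lcBar N`, equivariant;
* **(D3-a)** `hasStableReps N H` : an `H`-fixed class of `J₀(N)` is the class of an `H`-stable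
  divisor of degree `0`;
* **(D3-b)** `hasFixedGenerators N H` : an `H`-stable principal divisor has a generator in the fixed
  field `fixF N H`;
* `exists_fixed_kummer_bar` : an `H`-fixed class killed by `n` has an `H`-stable representative `E`
  and `u ∈ fixF N H` with `div u = n E`.
(the statements are those of helper3's `Fin/ClassLevel`: `HasStableReps`, `HasFixedGenerators`.)
-/
import Fermat.Agent.S36lib.J.ClassDescent
import Fermat.Agent.S36lib.Desc2.SpeiserBar
import Fermat.Agent.S18lib.Gin0.Genus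
import Fermat.Agent.S29lib.D.InfPlace
import Fermat.Prelude.Thm_ModularCurve_coeff_jqModC_neg_one

set_option autoImplicit false
set_option linter.unusedSectionVars false

noncomputable section

namespace Fermat.Agent.S36lib.J

open AlgebraicCurve ModularCurve
open Fermat.Agent.S29lib.GH Fermat.Agent.S36lib.Desc2
open Fermat.Agent.S37lib.HeckeInst (FB)

/-! ### the place at infinity of a field of Laurent series -/

section Generic

variable {L : Type*} [Field L] (E : IntermediateField L (LaurentSeries L))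

/-- the order of the expansion -/
def ordI (h : E) : ℤ := (h : LaurentSeries L).order

lemma coeI_ne_zero {h : E} (hh : h ≠ 0) : (h : LaurentSeries L) ≠ 0 :=
  fun h0 => hh (Subtype.ext h0)

lemma ordI_mul {h₁ h₂ : E} (h1 : h₁ ≠ 0) (h2 : h₂ ≠ 0) :
    ordI E (h₁ * h₂) = ordI E h₁ + ordI E h₂ := by
  unfold ordI
  rw [IntermediateField.coe_mul, HahnSeries.order_mul (coeI_ne_zero E h1) (coeI_ne_zero E h2)]

lemma ordI_one : ordI E 1 = 0 := by
  unfold ordI
  rw [IntermediateField.coe_one, HahnSeries.order_one]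

lemma ordI_zero : ordI E 0 = 0 := by
  unfold ordI
  rw [IntermediateField.coe_zero, HahnSeries.order_zero]

lemma ordI_inv {h : E} (hh : h ≠ 0) : ordI E h⁻¹ = -ordI E h := by
  have := ordI_mul E hh (inv_ne_zero hh)
  rw [mul_inv_cancel₀ hh, ordI_one] at this
  omega

lemma ordI_div {h₁ h₂ : E} (h1 : h₁ ≠ 0) (h2 : h₂ ≠ 0) :
    ordI E (h₁ / h₂) = ordI E h₁ - ordI E h₂ := by
  rw [div_eq_mul_inv, ordI_mul E h1 (inv_ne_zero h2), ordI_inv E h2]
  ring

lemma ordI_algebraMap (c : L) : ordI E (algebraMap L E c) = 0 := by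
  unfold ordI
  show (algebraMap L (LaurentSeries L) c).order = 0
  rw [algebraMap_laurentSeries_eq_single]
  exact HahnSeries.order_C

/-- the valuation ring at infinity: the series without pole -/
def vsI : ValuationSubring E where
  carrier := {h | 0 ≤ ordI E h}
  mul_mem' := by
    intro a b ha hb
    by_cases ha0 : a = 0
    · simp [ha0, ordI_zero]
    by_cases hb0 : b = 0
    · simp [hb0, ordI_zero]
    show 0 ≤ ordI E (a * b)
    rw [ordI_mul E ha0 hb0]
    exact add_nonneg ha hb
  one_mem' := by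
    show 0 ≤ ordI E 1
    rw [ordI_one]
  add_mem' := by
    intro a b ha hb
    show 0 ≤ ordI E (a + b)
    by_cases hab : a + b = 0
    · simp [hab, ordI_zero]
    unfold ordI
    rw [IntermediateField.coe_add]
    have hab' : (a : LaurentSeries L) + (b : LaurentSeries L) ≠ 0 := by
      rw [← IntermediateField.coe_add]; exact coeI_ne_zero E hab
    exact le_trans (le_min ha hb) (HahnSeries.min_order_le_order_add hab')
  zero_mem' := by
    show 0 ≤ ordI E 0
    rw [ordI_zero]
  neg_mem' := by
    intro a ha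
    show 0 ≤ ordI E (-a)
    unfold ordI
    rw [IntermediateField.coe_neg, HahnSeries.order_neg]
    exact ha
  mem_or_inv_mem' := by
    intro a
    by_cases ha0 : a = 0
    · left
      show 0 ≤ ordI E a
      rw [ha0, ordI_zero]
    rcases le_total 0 (ordI E a) with h | h
    · exact Or.inl h
    · right
      show 0 ≤ ordI E a⁻¹
      rw [ordI_inv E ha0]
      omega

lemma mem_vsI {h : E} : h ∈ vsI E ↔ 0 ≤ ordI E h := Iff.rfl

/-- **the place at infinity** of `E ⊆ L((q))`, given a series of `E` with a pole -/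
def placeI (hj : ∃ j : E, ordI E j < 0) : Place L E where
  toValuationSubring := vsI E
  algebraMap_mem' := fun c => by
    rw [mem_vsI, ordI_algebraMap]
  ne_top' := by
    intro htop
    obtain ⟨j, hj⟩ := hj
    have : j ∈ vsI E := htop ▸ ValuationSubring.mem_top _
    rw [mem_vsI] at this
    omega
  isPrincipalIdealRing' :=
    Fermat.Agent.S29lib.D.isPrincipalIdealRing_of_ord (vsI E) (ordI E) (fun _ _ => Iff.rfl)
      (fun _ _ h1 h2 => ordI_div E h1 h2)

@[simp] lemma placeI_toValuationSubring (hj : ∃ j : E, ordI E j < 0) :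
    (placeI E hj).toValuationSubring = vsI E := rfl

/-- **the leading coefficient** of the expansion -/
def lcI : E →*₀ L where
  toFun h := (h : LaurentSeries L).leadingCoeff
  map_zero' := by rw [IntermediateField.coe_zero, HahnSeries.leadingCoeff_zero]
  map_one' := by rw [IntermediateField.coe_one, HahnSeries.leadingCoeff_one]
  map_mul' a b := by rw [IntermediateField.coe_mul, HahnSeries.leadingCoeff_mul]

lemma lcI_apply (h : E) : lcI E h = (h : LaurentSeries L).leadingCoeff := rfl

lemma lcI_algebraMap (c : L) : lcI E (algebraMap L E c) = c := by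
  rw [lcI_apply]
  show (algebraMap L (LaurentSeries L) c).leadingCoeff = c
  rw [algebraMap_laurentSeries_eq_single, HahnSeries.leadingCoeff_of_single]

lemma lcI_ne_zero {h : E} (hh : h ≠ 0) : lcI E h ≠ 0 := by
  rw [lcI_apply]
  exact HahnSeries.leadingCoeff_ne_zero.2 (coeI_ne_zero E hh)

/-- the order of a series is invariant under an injective coefficient map -/
lemma order_coeffMap {L' : Type*} [Field L'] (φ : L →+* L') (x : LaurentSeries L) :
    (coeffMap φ x).order = x.order := by
  by_cases hh : x = 0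
  · rw [hh, map_zero, HahnSeries.order_zero, HahnSeries.order_zero]
  have hsupp : (coeffMap φ x).support = x.support := by
    ext k
    simp only [HahnSeries.mem_support, coeffMap_coeff, ne_eq]
    rw [map_eq_zero_iff φ φ.injective]
  have hne : coeffMap φ x ≠ 0 := by
    intro h0
    apply hh
    ext k
    have := congrArg (fun z => z.coeff k) h0
    simp only [coeffMap_coeff, HahnSeries.coeff_zero] at this
    rw [map_eq_zero_iff φ φ.injective] at this
    simpa using this
  rw [HahnSeries.order_of_ne hne, HahnSeries.order_of_ne hh]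
  congr 1

lemma leadingCoeff_coeffMap {L' : Type*} [Field L'] (φ : L →+* L') (x : LaurentSeries L) :
    (coeffMap φ x).leadingCoeff = φ x.leadingCoeff := by
  rw [HahnSeries.leadingCoeff_eq, HahnSeries.leadingCoeff_eq, order_coeffMap, coeffMap_coeff]

end Generic

/-! ### the modular function fields over `ℚ̄` -/

local notation "Qb" => AlgebraicClosure ℚ
local notation "GQ" => (AlgebraicClosure ℚ ≃ₐ[ℚ] AlgebraicClosure ℚ)

section Bar

variable (N : ℕ) [NeZero N]

lemma exists_pole_FB : ∃ j : FB N, ordI (modularFunctionFieldBar N) j < 0 := by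
  refine ⟨Fermat.Agent.S18lib.Gin0.jF N, ?_⟩
  unfold ordI
  rw [Fermat.Agent.S18lib.Gin0.coe_jF]
  have h1 : (jqModC Qb).coeff (-1 : ℤ) ≠ 0 := by
    rw [coeff_jqModC_neg_one]; exact one_ne_zero
  have := HahnSeries.order_le_of_coeff_ne_zero h1
  omega

/-- **the cusp `∞`** of `X₀(N)` over `ℚ̄`, as a place of `FBar N` -/
def pinfBar : Place Qb (FB N) := placeI (modularFunctionFieldBar N) (exists_pole_FB N)

/-- the leading coefficient of the `q`-expansion -/
def lcBar : FB N →*₀ Qb := lcI (modularFunctionFieldBar N)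

lemma ordI_galAutBar (σ : GQ) (h : FB N) :
    ordI (modularFunctionFieldBar N) (galAutBar N σ • h) = ordI (modularFunctionFieldBar N) h := by
  unfold ordI
  rw [coe_arithmeticGalois_smul, order_coeffMap]

/-- the cusp `∞` is fixed by `G_ℚ` -/
theorem galAutBar_smul_pinfBar (σ : GQ) : galAutBar N σ • pinfBar N = pinfBar N := by
  apply Place.ext
  ext h
  rw [SemilinearAut.smul_toValuationSubring,
    ValuationSubring.mem_pointwise_smul_iff_inv_smul_mem]
  show 0 ≤ ordI (modularFunctionFieldBar N) ((galAutBar N σ)⁻¹ • h) ↔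
    0 ≤ ordI (modularFunctionFieldBar N) h
  have h1 : (galAutBar N σ)⁻¹ = galAutBar N σ⁻¹ :=
    (map_inv (arithmeticGalois (modularFunctionFieldFull N)) σ).symm
  rw [h1, ordI_galAutBar]

lemma lcBar_galAutBar (σ : GQ) (h : FB N) :
    lcBar N (galAutBar N σ • h) = SemilinearAut.baseAut (galAutBar N σ) (lcBar N h) := by
  show (((galAutBar N σ • h : FB N)) : LaurentSeries Qb).leadingCoeff = σ _
  rw [coe_arithmeticGalois_smul, leadingCoeff_coeffMap]
  rfl

variable (H : Subgroup GQ)

/-- **(D3-a)** an `H`-fixed class of `J₀(N)` is the class of an `H`-stable divisor. -/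
theorem hasStableReps (x : JZero N) (hx : ∀ σ ∈ H, σ • x = x) :
    ∃ E : Divisor.degZero (K := Qb) (F := FB N), Pic0.mk E = x ∧
      ∀ σ ∈ H, galAutBar N σ • (E : Divisor Qb (FB N)) = (E : Divisor Qb (FB N)) := by
  obtain ⟨g, hF, -⟩ := Fermat.Agent.S18lib.Gin0.exists_isCurveOfGenus_FBar N
  obtain ⟨E, hE, hst⟩ := exists_stable_divisor hF ((fun σ => galAutBar N σ) '' (H : Set GQ))
    (pinfBar N) (by
      rintro _ ⟨σ, -, rfl⟩
      exact galAutBar_smul_pinfBar N σ) x (by
      rintro _ ⟨σ, hσ, rfl⟩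
      exact hx σ hσ)
  exact ⟨E, hE, fun σ hσ => hst _ ⟨σ, hσ, rfl⟩⟩

/-- **(D3-b)** an `H`-stable principal divisor has a generator in the fixed field. -/
theorem hasFixedGenerators (E : Divisor Qb (FB N)) (hE : ∀ σ ∈ H, galAutBar N σ • E = E)
    (hprin : E.IsPrincipal) :
    ∃ u : FB N, u ∈ fixF N H ∧ u ≠ 0 ∧ ∀ v : Place Qb (FB N), E v = v.ord u := by
  obtain ⟨g, hF, -⟩ := Fermat.Agent.S18lib.Gin0.exists_isCurveOfGenus_FBar N
  obtain ⟨u, hu0, hu, hfix⟩ := exists_fixed_generator hF
    ((fun σ => galAutBar N σ) '' (H : Set GQ)) (lcBar N) (map_mul (lcBar N))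
    (lcI_algebraMap (modularFunctionFieldBar N)) (fun f hf => lcI_ne_zero _ hf) (by
      rintro _ ⟨σ, -, rfl⟩ f
      exact lcBar_galAutBar N σ f) E (by
      rintro _ ⟨σ, hσ, rfl⟩
      exact hE σ hσ) hprin
  exact ⟨u, mem_fixF.2 fun σ hσ => hfix _ ⟨σ, hσ, rfl⟩, hu0, hu⟩

/-- **class descent for torsion classes of `J₀(N)`**: an `H`-fixed class killed by `n` has an
`H`-stable representative `E` and a Kummer function `u` in the fixed field, `div u = n E`. -/
theorem exists_fixed_kummer_bar (n : ℕ) (x : JZero N) (hn : (n : ℤ) • x = 0)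
    (hx : ∀ σ ∈ H, σ • x = x) :
    ∃ (E : Divisor.degZero (K := Qb) (F := FB N)) (u : FB N), Pic0.mk E = x ∧
      (∀ σ ∈ H, galAutBar N σ • (E : Divisor Qb (FB N)) = (E : Divisor Qb (FB N))) ∧
      u ∈ fixF N H ∧ u ≠ 0 ∧
      ∀ v : Place Qb (FB N), (n : ℤ) * (E : Divisor Qb (FB N)) v = v.ord u := by
  obtain ⟨g, hF, -⟩ := Fermat.Agent.S18lib.Gin0.exists_isCurveOfGenus_FBar N
  obtain ⟨E, u, hEx, hE, hu0, hu, hfix⟩ := exists_fixed_kummer hF
    ((fun σ => galAutBar N σ) '' (H : Set GQ)) (pinfBar N) (by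
      rintro _ ⟨σ, -, rfl⟩
      exact galAutBar_smul_pinfBar N σ) (lcBar N) (map_mul (lcBar N))
    (lcI_algebraMap (modularFunctionFieldBar N)) (fun f hf => lcI_ne_zero _ hf) (by
      rintro _ ⟨σ, -, rfl⟩ f
      exact lcBar_galAutBar N σ f) n x hn (by
      rintro _ ⟨σ, hσ, rfl⟩
      exact hx σ hσ)
  exact ⟨E, u, hEx, fun σ hσ => hE _ ⟨σ, hσ, rfl⟩, mem_fixF.2 fun σ hσ => hfix _ ⟨σ, hσ, rfl⟩,
    hu0, hu⟩

end Bar

end Fermat.Agent.S36lib.J
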