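/-
S36lib / J / BaseIso  (helper4)

CHANGE OF THE CONSTANT FIELD ALONG AN ISOMORPHISM.  `F` a field which is an algebra over two
fields `k`, `k'` compatibly with a bijective ring homomorphism `e : k →+* k'`
(`algebraMap k F c = algebraMap k' F (e c)`; e.g. `k = ResidueField (Wfix A)`,
`k' = ResidueField A`, `e = resMap A`).  Then places, orders, degrees, values, divisors,
Riemann–Roch spaces and `IsCurveOfGenus` agree:

* `ConstIso.place : Place k' F ≃ Place k F` (same valuation subring), `ord_place`, `deg_place`;
* `hasValueAt_place : HasValueAt (I.place Q) z c ↔ HasValueAt Q z (I.e c)`;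
* `ConstIso.divisor : Divisor k' F ≃+ Divisor k F`, `degree_divisor`, `divisor_lin2`,
  `divisor_nonneg`, `mem_support_divisor`, `disjoint_support_divisor`;
* `mem_riemannRochSpace_divisor`, `finrank_riemannRochSpace_divisor`;
* `ConstIso.isCurveOfGenus : IsCurveOfGenus k' F g → IsCurveOfGenus k F g`.
-/
import Fermat.Agent.S18lib.Setup.CurveRR
import Fermat.Agent.LSb.Core.Value
import Fermat.Agent.LSb.Core.CechChart

set_option autoImplicit false

noncomputable section

namespace Fermat.Agent.S36lib.J

open AlgebraicCurve Module
open Fermat.Agent.S18lib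
open Fermat.Agent.LSb (HasValueAt)
open Fermat.Agent.LSb.Core (lin2)

/-- `F` is an algebra over `k` and over `k'`, compatibly with a bijection `e : k →+* k'`. -/
structure ConstIso (k k' F : Type*) [Field k] [Field k'] [Field F] [Algebra k F]
    [Algebra k' F] where
  /-- the isomorphism of the constant fields -/
  e : k →+* k'
  bijective : Function.Bijective e
  comp : ∀ c : k, algebraMap k F c = algebraMap k' F (e c)

namespace ConstIso

variable {k k' F : Type*} [Field k] [Field k'] [Field F] [Algebra k F] [Algebra k' F]
variable (I : ConstIso k k' F)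

/-- the inverse of `e` -/
def inv (c' : k') : k := (I.bijective.2 c').choose

@[simp] theorem e_inv (c' : k') : I.e (I.inv c') = c' := (I.bijective.2 c').choose_spec

@[simp] theorem inv_e (c : k) : I.inv (I.e c) = c := I.bijective.1 (I.e_inv (I.e c))

theorem comp' (c' : k') : algebraMap k' F c' = algebraMap k F (I.inv c') := by
  rw [I.comp, I.e_inv]

theorem smul_eq (c : k) (f : F) : c • f = I.e c • f := by
  rw [Algebra.smul_def, Algebra.smul_def, I.comp]

/-! ### places -/

/-- a place over `k'` as a place over `k` -/
def place (Q : Place k' F) : Place k F where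
  toValuationSubring := Q.toValuationSubring
  algebraMap_mem' a := by rw [I.comp]; exact Q.algebraMap_mem' _
  ne_top' := Q.ne_top'
  isPrincipalIdealRing' := Q.isPrincipalIdealRing'

/-- a place over `k` as a place over `k'` -/
def placeInv (Q : Place k F) : Place k' F where
  toValuationSubring := Q.toValuationSubring
  algebraMap_mem' a := by rw [I.comp']; exact Q.algebraMap_mem' _
  ne_top' := Q.ne_top'
  isPrincipalIdealRing' := Q.isPrincipalIdealRing'

@[simp] theorem place_toValuationSubring (Q : Place k' F) :
    (I.place Q).toValuationSubring = Q.toValuationSubring := rfl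

@[simp] theorem placeInv_toValuationSubring (Q : Place k F) :
    (I.placeInv Q).toValuationSubring = Q.toValuationSubring := rfl

/-- the bijection between the places -/
def placeEquiv : Place k' F ≃ Place k F where
  toFun := I.place
  invFun := I.placeInv
  left_inv _ := Place.ext rfl
  right_inv _ := Place.ext rfl

@[simp] theorem placeEquiv_apply (Q : Place k' F) : I.placeEquiv Q = I.place Q := rfl

@[simp] theorem placeEquiv_symm_apply (Q : Place k F) : I.placeEquiv.symm Q = I.placeInv Q := rfl

@[simp] theorem place_placeInv (Q : Place k F) : I.place (I.placeInv Q) = Q := Place.ext rfl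

@[simp] theorem placeInv_place (Q : Place k' F) : I.placeInv (I.place Q) = Q := Place.ext rfl

theorem adicValuation_place (Q : Place k' F) (f : F) :
    (I.place Q).adicValuation f = Q.adicValuation f := rfl

theorem ord_place (Q : Place k' F) (f : F) : (I.place Q).ord f = Q.ord f := rfl

theorem ord_placeInv (Q : Place k F) (f : F) : (I.placeInv Q).ord f = Q.ord f := rfl

/-- values -/
theorem hasValueAt_place (Q : Place k' F) (z : F) (c : k) :
    HasValueAt (I.place Q) z c ↔ HasValueAt Q z (I.e c) := by
  unfold HasValueAt
  rw [I.comp, I.adicValuation_place]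

theorem hasValueAt_place' (Q : Place k' F) (z : F) (c' : k') :
    HasValueAt (I.place Q) z (I.inv c') ↔ HasValueAt Q z c' := by
  rw [I.hasValueAt_place, I.e_inv]

/-- degrees -/
theorem deg_place (Q : Place k' F) : (I.place Q).deg = Q.deg := by
  let j : (I.place Q).ResidueField ≃+* Q.ResidueField := RingEquiv.refl Q.ResidueField
  refine Algebra.finrank_eq_of_equiv_equiv (RingEquiv.ofBijective I.e I.bijective) j ?_
  ext r
  have e1 : algebraMap k (I.place Q).ResidueField r =
      IsLocalRing.residue Q.toValuationSubring ⟨algebraMap k F r, (I.place Q).algebraMap_mem' r⟩ :=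
    rfl
  have e2 : algebraMap k' Q.ResidueField (I.e r) =
      IsLocalRing.residue Q.toValuationSubring
        ⟨algebraMap k' F (I.e r), Q.algebraMap_mem' (I.e r)⟩ := rfl
  show algebraMap k' Q.ResidueField (I.e r) = algebraMap k (I.place Q).ResidueField r
  rw [e1, e2]
  congr 1
  exact Subtype.ext (I.comp r).symm

/-! ### divisors -/

/-- the isomorphism of the divisor groups -/
def divisor : Divisor k' F ≃+ Divisor k F := Finsupp.domCongr I.placeEquiv

theorem divisor_apply (E : Divisor k' F) (Q : Place k F) :
    I.divisor E Q = E (I.placeInv Q) := by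
  rw [divisor, Finsupp.domCongr_apply, Finsupp.equivMapDomain_apply]
  rfl

@[simp] theorem divisor_apply_place (E : Divisor k' F) (Q : Place k' F) :
    I.divisor E (I.place Q) = E Q := by
  rw [I.divisor_apply, I.placeInv_place]

theorem divisor_symm_apply (E : Divisor k F) (Q : Place k' F) :
    I.divisor.symm E Q = E (I.place Q) := by
  have := I.divisor_apply_place (I.divisor.symm E) Q
  rw [AddEquiv.apply_symm_apply] at this
  exact this.symm

theorem divisor_single (Q : Place k' F) (n : ℤ) :
    I.divisor (Finsupp.single Q n) = Finsupp.single (I.place Q) n := by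
  rw [divisor, Finsupp.domCongr_apply, Finsupp.equivMapDomain_single]
  rfl

theorem degree_divisor (E : Divisor k' F) : Divisor.degree (I.divisor E) = Divisor.degree E := by
  induction E using Finsupp.induction_linear with
  | zero => simp
  | add E E' h h' => rw [map_add, map_add, map_add, h, h']
  | single Q n => rw [I.divisor_single, Divisor.degree_single, Divisor.degree_single, I.deg_place]

theorem divisor_lin2 (X Y : Divisor k' F) (a b : ℤ) :
    I.divisor (lin2 X Y a b) = lin2 (I.divisor X) (I.divisor Y) a b := by
  unfold lin2
  rw [map_add, map_zsmul, map_zsmul]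

theorem divisor_le_iff (E E' : Divisor k' F) : I.divisor E ≤ I.divisor E' ↔ E ≤ E' := by
  constructor
  · intro h Q
    have := h (I.place Q)
    rwa [I.divisor_apply_place, I.divisor_apply_place] at this
  · intro h Q
    rw [I.divisor_apply, I.divisor_apply]
    exact h _

theorem divisor_nonneg {E : Divisor k' F} (h : 0 ≤ E) : 0 ≤ I.divisor E := by
  have := (I.divisor_le_iff 0 E).2 h
  rwa [map_zero] at this

theorem mem_support_divisor (E : Divisor k' F) (Q : Place k' F) :
    I.place Q ∈ (I.divisor E).support ↔ Q ∈ E.support := by
  rw [Finsupp.mem_support_iff, Finsupp.mem_support_iff, I.divisor_apply_place]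

theorem disjoint_support_divisor {E E' : Divisor k' F} (h : Disjoint E.support E'.support) :
    Disjoint (I.divisor E).support (I.divisor E').support := by
  rw [Finset.disjoint_left] at h ⊢
  intro Q h1 h2
  have e : Q = I.place (I.placeInv Q) := (I.place_placeInv Q).symm
  rw [e] at h1 h2
  exact h ((I.mem_support_divisor _ _).1 h1) ((I.mem_support_divisor _ _).1 h2)

/-! ### Riemann–Roch spaces -/

theorem mem_riemannRochSpace_divisor (E : Divisor k' F) (f : F) :
    f ∈ riemannRochSpace (I.divisor E) ↔ f ∈ riemannRochSpace E := by
  rw [mem_riemannRochSpace_iff, mem_riemannRochSpace_iff]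
  constructor
  · intro h Q
    have := h (I.place Q)
    rwa [I.divisor_apply_place, I.ord_place] at this
  · intro h Q
    have := h (I.placeInv Q)
    rwa [← I.divisor_apply, I.ord_placeInv] at this

/-- the additive identification of the two Riemann–Roch spaces -/
def rrEquiv (E : Divisor k' F) :
    riemannRochSpace (I.divisor E) ≃+ riemannRochSpace E where
  toFun x := ⟨x.1, (I.mem_riemannRochSpace_divisor E x.1).1 x.2⟩
  invFun x := ⟨x.1, (I.mem_riemannRochSpace_divisor E x.1).2 x.2⟩
  left_inv _ := rfl
  right_inv _ := rfl
  map_add' _ _ := rfl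

theorem rank_riemannRochSpace_divisor (E : Divisor k' F) :
    Module.rank k (riemannRochSpace (I.divisor E)) = Module.rank k' (riemannRochSpace E) :=
  rank_eq_of_equiv_equiv I.e (I.rrEquiv E) I.bijective (fun r m => by
    apply Subtype.ext
    show r • (m : F) = I.e r • (m : F)
    exact I.smul_eq r _)

theorem finrank_riemannRochSpace_divisor (E : Divisor k' F) :
    finrank k (riemannRochSpace (I.divisor E)) = finrank k' (riemannRochSpace E) := by
  unfold Module.finrank
  rw [I.rank_riemannRochSpace_divisor]

theorem finiteDimensional_riemannRochSpace_divisor (E : Divisor k' F)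
    [FiniteDimensional k' (riemannRochSpace E)] :
    FiniteDimensional k (riemannRochSpace (I.divisor E)) := by
  rw [FiniteDimensional, ← Module.rank_lt_aleph0_iff, I.rank_riemannRochSpace_divisor]
  exact Module.rank_lt_aleph0 k' _

/-! ### curves -/

include I in
theorem hasPrincipalDivisors (h : HasPrincipalDivisors k' F) : HasPrincipalDivisors k F := by
  refine ⟨fun f hf => ?_⟩
  obtain ⟨E, hE, hdeg⟩ := h.exists_divisor f hf
  refine ⟨I.divisor E, fun v => ?_, by rw [I.degree_divisor, hdeg]⟩
  rw [I.divisor_apply, hE, I.ord_placeInv]

include I in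
/-- **transport of `IsCurveOfGenus`** -/
theorem isCurveOfGenus {g : ℕ} (h : IsCurveOfGenus k' F g) : IsCurveOfGenus k F g where
  hasPrincipalDivisors := I.hasPrincipalDivisors h.hasPrincipalDivisors
  deg_eq_one P := by
    rw [← I.place_placeInv P, I.deg_place]
    exact h.deg_eq_one _
  infinite_places := by
    have := h.infinite_places
    exact Infinite.of_injective I.placeEquiv I.placeEquiv.injective
  riemannRochSpace_zero := by
    ext f
    have e0 : (0 : Divisor k F) = I.divisor 0 := (map_zero _).symm
    rw [e0, I.mem_riemannRochSpace_divisor, h.riemannRochSpace_zero, Subalgebra.mem_toSubmodule,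
      Subalgebra.mem_toSubmodule, Algebra.mem_bot, Algebra.mem_bot]
    constructor
    · rintro ⟨c', rfl⟩
      exact ⟨I.inv c', (I.comp' c').symm⟩
    · rintro ⟨c, rfl⟩
      exact ⟨I.e c, (I.comp c).symm⟩
  finiteDimensional E := by
    have := h.finiteDimensional (I.divisor.symm E)
    have := I.finiteDimensional_riemannRochSpace_divisor (I.divisor.symm E)
    rwa [AddEquiv.apply_symm_apply] at this
  riemann_le E := by
    have := h.riemann_le (I.divisor.symm E)
    rw [← I.degree_divisor, ← I.finrank_riemannRochSpace_divisor,
      AddEquiv.apply_symm_apply] at this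
    exact this
  riemann_eq E hE := by
    have hE' : 2 * (g : ℤ) - 2 < Divisor.degree (I.divisor.symm E) := by
      rw [← I.degree_divisor, AddEquiv.apply_symm_apply]
      exact hE
    have := h.riemann_eq (I.divisor.symm E) hE'
    rw [← I.degree_divisor, ← I.finrank_riemannRochSpace_divisor,
      AddEquiv.apply_symm_apply] at this
    exact this

end ConstIso

end Fermat.Agent.S36lib.J
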