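/-
S36lib / J / FrobSq  (helper4)  --  the nodes are `𝔽_{q²}`-rational

Level `M q`, `q ∤ M`, `A | q`.  The nodes of LSb's modular datum are the places `modX₂ D1 c` of
`κ = FRes A M` (supersingular points), and `modX₁ hA D1 c = Fr (modX₂ D1 c)` their Frobenius images.

* `mod_glue_regAway` : LSb's (GLUE) for functions regular off the cusps (`regAway j`);
* `exists_sep` : functions regular off the poles of `y` separate the places off the poles of `y`;
* **`frobP_frobP_modX₂` : `Fr (Fr P) = P` for every node `P`**  (apply (GLUE) to `β^* g`,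
  `g` of level `M`: `red₁ = V_q ḡ` at `Fr P`, `red₂ = ḡ` at `P`);
* `nodePerm`  : the permutation `cα` of the nodes induced by `Fr`:
  `modX₂ (cα c) = modX₁ c`, `modX₁ (cα c) = modX₂ c`.
-/
import Fermat.Agent.LSb.Unit.Ctx
import Fermat.Agent.S36lib.Count.FrobNodes

set_option autoImplicit false
set_option linter.unusedSectionVars false
set_option linter.unusedVariables false

noncomputable section

namespace Fermat.Agent.S36lib.J

open AlgebraicCurve ModularCurve Module
open Fermat.Agent.S18lib Fermat.Agent.ProgramR Fermat.Agent.LSb Fermat.Agent.LSb.Unit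

local notation "Qb" => AlgebraicClosure ℚ

/-! ### separation of places -/

section Sep

variable {K F : Type*} [Field K] [Field F] [Algebra K F] {g : ℕ}

/-- functions regular off the poles of `y` separate two places off the poles of `y` -/
theorem exists_sep (hF : IsCurveOfGenus K F g) [HasPrincipalDivisors K F] (y : F)
    (hdeg : 0 < Divisor.degree (polesOf (K := K) y)) {P Q : Place K F} (hPQ : P ≠ Q)
    (hP : y ∈ P.toValuationSubring) (hQ : y ∈ Q.toValuationSubring) :
    ∃ z ∈ regAway K y, P.adicValuation z < 1 ∧ ¬ Q.adicValuation z < 1 := by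
  classical
  have hdP : P.deg = 1 := hF.deg_eq_one P
  have hdQ : Q.deg = 1 := hF.deg_eq_one Q
  have hEP : polesOf (K := K) y P = 0 := by
    rw [polesOf_apply]
    exact max_eq_right (by have := FF.ord_nonneg_of_mem P hP; omega)
  have hEQ : polesOf (K := K) y Q = 0 := by
    rw [polesOf_apply]
    exact max_eq_right (by have := FF.ord_nonneg_of_mem Q hQ; omega)
  set m : ℕ := 2 * g + 1 with hm
  set E : Divisor K F := m • polesOf (K := K) y with hE
  have hEdeg : (2 * (g : ℤ) + 1) ≤ Divisor.degree E := by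
    rw [hE, map_nsmul, nsmul_eq_mul]
    have h1 : (1 : ℤ) ≤ Divisor.degree (polesOf (K := K) y) := hdeg
    have h2 : ((m : ℕ) : ℤ) * 1 ≤ (m : ℤ) * Divisor.degree (polesOf (K := K) y) :=
      mul_le_mul_of_nonneg_left h1 (Nat.cast_nonneg m)
    have h3 : ((m : ℕ) : ℤ) = 2 * g + 1 := by rw [hm]; push_cast; ring
    linarith
  set D₁ : Divisor K F := E - Finsupp.single P 1 with hD₁
  set D₂ : Divisor K F := E - Finsupp.single P 1 - Finsupp.single Q 1 with hD₂
  have hdeg₁ : Divisor.degree D₁ = Divisor.degree E - 1 := by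
    rw [hD₁, map_sub, Divisor.degree_single, hdP]; simp
  have hdeg₂ : Divisor.degree D₂ = Divisor.degree E - 2 := by
    rw [hD₂, map_sub, map_sub, Divisor.degree_single, Divisor.degree_single, hdP, hdQ]
    simp; ring
  have hr₁ := hF.riemann_eq D₁ (by rw [hdeg₁]; linarith)
  have hr₂ := hF.riemann_eq D₂ (by rw [hdeg₂]; linarith)
  have hle : riemannRochSpace D₂ ≤ riemannRochSpace D₁ := by
    apply Cech.rr_mono
    intro v
    rw [hD₂, hD₁]
    simp only [Finsupp.sub_apply, Finsupp.single_apply]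
    split_ifs <;> omega
  have hlt : riemannRochSpace D₂ < riemannRochSpace D₁ := by
    refine lt_of_le_of_ne hle fun heq => ?_
    rw [heq] at hr₂
    rw [hr₁, hdeg₁, hdeg₂] at hr₂
    omega
  obtain ⟨z, hz₁, hz₂⟩ := SetLike.exists_of_lt hlt
  have hz0 : z ≠ 0 := fun h0 => hz₂ (h0 ▸ Submodule.zero_mem _)
  have hz₁' := (Cech.mem_rr_of_ne hz0).1 hz₁
  have hEv : ∀ v : Place K F, E v = m * polesOf (K := K) y v := fun v => by
    rw [hE, Finsupp.smul_apply, nsmul_eq_mul]
  refine ⟨z, fun v hv => ?_, ?_, ?_⟩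
  · -- regular off the poles of `y`
    have hv0 : polesOf (K := K) y v = 0 := by
      rw [polesOf_apply]
      exact max_eq_right (by have := FF.ord_nonneg_of_mem v hv; omega)
    have h1 := hz₁' v
    rw [hD₁, Finsupp.sub_apply, hEv, hv0, Finsupp.single_apply] at h1
    apply FF.mem_of_ord_nonneg
    split_ifs at h1 <;> omega
  · rw [LSb.adicValuation_lt_one_iff]
    right
    have h1 := hz₁' P
    rw [hD₁, Finsupp.sub_apply, hEv, hEP, Finsupp.single_apply, if_pos rfl] at h1
    omega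
  · rw [LSb.adicValuation_lt_one_iff, not_or, not_lt]
    refine ⟨hz0, ?_⟩
    by_contra hcon
    rw [not_le] at hcon
    apply hz₂
    rw [Cech.mem_rr_of_ne hz0]
    intro v
    by_cases hvQ : v = Q
    · subst hvQ
      rw [hD₂, Finsupp.sub_apply, Finsupp.sub_apply, hEv, hEQ, Finsupp.single_apply,
        Finsupp.single_apply, if_neg hPQ, if_pos rfl]
      omega
    · have h1 := hz₁' v
      rw [hD₂, Finsupp.sub_apply, Finsupp.single_apply, if_neg (Ne.symm hvQ)]
      rw [hD₁] at h1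
      omega

end Sep

/-! ### the modular nodes -/

variable {M q : ℕ} [NeZero M] [NeZero q] [hq : Fact q.Prime]
variable {A : ValuationSubring (AlgebraicClosure ℚ)}

local notation "kA" => IsLocalRing.ResidueField A

/-- the Frobenius image of a place of `FRes A M` (total) -/
def frobP (hA : A.LiesOverPrime q) (P : Place kA (FRes A M)) : Place kA (FRes A M) :=
  frobPlace (VqR hA) (VqR_algebraMap hA) P
    (comap_ne_top_of_pow (VqR hA) hq.out.pos (VqR_pow hA) P)

theorem modX₁_eq_frobP (hA : A.LiesOverPrime q) (D1 : GaussDatum A (FBar (M * q)) (FRes A M))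
    (c : Fin (modS D1)) : modX₁ hA D1 c = frobP hA (modX₂ D1 c) := rfl

theorem hasValueAt_frobP_iff (hA : A.LiesOverPrime q) (P : Place kA (FRes A M)) (z : FRes A M)
    (c : kA) : HasValueAt (frobP hA P) z c ↔ HasValueAt P (VqR hA z) c :=
  hasValueAt_frobPlace_iff (VqR hA) (VqR_algebraMap hA) P _ z c

theorem frobP_injective (hA : A.LiesOverPrime q) :
    Function.Injective (frobP (M := M) hA) := fun _ _ h =>
  frobPlace_injective_of_pow (VqR hA) (VqR_algebraMap hA) hq.out.pos (VqR_pow hA) h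

theorem frobP_mem_modNodes (hA : A.LiesOverPrime q)
    {D1 : GaussDatum A (FBar (M * q)) (FRes A M)} (h1 : Old.IsGaussOne D1)
    {P : Place kA (FRes A M)} (hP : P ∈ modNodes D1) : frobP hA P ∈ modNodes D1 :=
  Count.frobPlace_mem_modNodes hA h1 hP _

section WithDivisors

variable [HasPrincipalDivisors (AlgebraicClosure ℚ) (FBar M)]
variable [HasPrincipalDivisors (AlgebraicClosure ℚ) (FBar (M * q))]
variable [HasPrincipalDivisors (IsLocalRing.ResidueField A) (FRes A M)]

variable (hqM : ¬ q ∣ M) (hA : A.LiesOverPrime q)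
variable {D1 D2 : GaussDatum A (FBar (M * q)) (FRes A M)}
variable (h1 : Old.IsGaussOne D1) (h2 : Old.IsGaussTwo D1 D2 (wqR M q hqM))

include hqM h1 h2 in
/-- **(GLUE) at level `M q` for functions regular off the cusps** -/
theorem mod_glue_regAway {gM : ℕ} (hFk : IsCurveOfGenus kA (FRes A M) gM)
    {f : FBar (M * q)} (hf : f ∈ regAway Qb (Gin0.jF (M * q)))
    (hf1 : f ∈ D1.O) (hf2 : f ∈ D2.O) (c : Fin (modS D1)) :
    ∃ α : kA, HasValueAt (modX₁ hA D1 c) (D1.redF f) α ∧ HasValueAt (modX₂ D1 c) (D2.redF f) α := by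
  have hwq : ∀ x, wqR M q hqM (wqR M q hqM x) = x := fun x => Val.wq_wq M q hq.out hqM x
  obtain ⟨θ, hfr⟩ := Frame.modular_exists_isFrameFamilyS hqM hA h1 h2 hwq
  have hx := modX₂_mem (D1 := D1) c
  have hJ1 := redF_jF₁ hqM hA h1
  have hJ2 := redF_jF₂ hqM hA h1 h2
  have hVJ : VqR hA (Gink.jK A M) ∈ regAway kA (Gink.jK A M) := by
    intro Q hQ
    rw [VqR_jK]
    exact Q.toValuationSubring.pow_mem hQ q
  have hchart1 : ∀ f ∈ regAway Qb (Gin0.jF (M * q)), f ∈ D1.O → f ∈ D2.O →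
      D1.redF f ∈ regAway kA (Gink.jK A M) := by
    intro f hf hf1 hf2
    have := (red_mem_regAway hfr hf hf1 hf2).1
    rwa [hJ1] at this
  have hchart2 : ∀ f ∈ regAway Qb (Gin0.jF (M * q)), f ∈ D1.O → f ∈ D2.O →
      D2.redF f ∈ regAway kA (Gink.jK A M) := by
    intro f hf hf1 hf2 Q hQ
    have := (red_mem_regAway hfr hf hf1 hf2).2
    rw [hJ2] at this
    exact this Q (hVJ Q hQ)
  have hlift : ∀ z : FRes A M, z ∈ regAway kA (Gink.jK A M) →
      ∃ f ∈ regAway Qb (Gin0.jF (M * q)), f ∈ D1.O ∧ f ∈ D2.O ∧ D1.redF f = z ∧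
        D2.redF f = VqR hA z := fun z hz => Old.exists_lift hqM hA h1 h2 z hz
  have hY2 : D2.redF (Yw M q hqM) ≠ 0 := by
    rw [redF₂_Yw hqM h2]; exact H₂_ne_zero h1
  have hx'H : (modX₂ D1 c).adicValuation (D2.redF (Yw M q hqM)) < 1 := by
    rw [redF₂_Yw hqM h2]; exact hx.2
  exact glue_regAway D1 D2 (rankOne_of_liesOverPrime A hA) (Gin0.jF (M * q)) (Gink.jK A M)
    (VqR hA) (VqR_algebraMap hA) hFk.deg_eq_one hchart1 hchart2 hVJ hlift (Yw_mem_regAway hqM)
    (Yw_inv_mem_regAway hqM) hY2 (modX₂ D1 c) hx.1 hx'H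
    (comap_ne_top_of_pow (VqR hA) hq.out.pos (VqR_pow hA) _) hf hf1 hf2

include hqM h1 h2 in
/-- (GLUE) for the swapped pair of nodes `(P, Fr P)` (apply (GLUE) to `w_q f`) -/
theorem mod_glue_regAway_swap {gM : ℕ} (hFk : IsCurveOfGenus kA (FRes A M) gM)
    {f : FBar (M * q)} (hf : f ∈ regAway Qb (Gin0.jF (M * q)))
    (hf1 : f ∈ D1.O) (hf2 : f ∈ D2.O) (c : Fin (modS D1)) :
    ∃ α : kA, HasValueAt (modX₂ D1 c) (D1.redF f) α ∧ HasValueAt (modX₁ hA D1 c) (D2.redF f) α := by
  have hwq : ∀ x, wqR M q hqM (wqR M q hqM x) = x := fun x => Val.wq_wq M q hq.out hqM x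
  have hg : wqR M q hqM f ∈ regAway Qb (Gin0.jF (M * q)) := wq_mem_regAway hqM hf
  have hg1 : wqR M q hqM f ∈ D1.O := (h2.mem_iff f).1 hf2
  have hg2 : wqR M q hqM f ∈ D2.O := by
    rw [h2.mem_iff, hwq]
    exact hf1
  obtain ⟨α, hα1, hα2⟩ := mod_glue_regAway hqM hA h1 h2 hFk hg hg1 hg2 c
  refine ⟨α, ?_, ?_⟩
  · rw [h2.redF, hwq] at hα2
    exact hα2
  · rw [h2.redF]
    exact hα1

include hqM h1 h2 in
/-- **the nodes are fixed by the square of Frobenius** -/
theorem frobP_frobP_modX₂ {gM : ℕ} (hFk : IsCurveOfGenus kA (FRes A M) gM)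
    (c : Fin (modS D1)) : frobP hA (frobP hA (modX₂ D1 c)) = modX₂ D1 c := by
  by_contra hne
  set P := modX₂ D1 c with hP
  set Q := frobP hA (frobP hA P) with hQ
  have hPn : P ∈ modNodes D1 := modX₂_mem c
  have hQn : Q ∈ modNodes D1 := frobP_mem_modNodes hA h1 (frobP_mem_modNodes hA h1 hPn)
  have hdeg : 0 < Divisor.degree (polesOf (K := kA) (Gink.jK A M)) := by
    have := Old.degree_polesOf_redF₁_pos (D1 := D1) hqM hA h1
    rwa [redF_jF₁ hqM hA h1] at this
  obtain ⟨z, hzreg, hzP, hzQ⟩ := exists_sep hFk (Gink.jK A M) hdeg (Ne.symm hne)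
    ((mem_nodeSet.1 hPn).1) ((mem_nodeSet.1 hQn).1)
  -- lift `z` to level `M` and push it along `β`
  obtain ⟨g, hgO, hgreg, hgred⟩ := Old.exists_lift_level hqM hA z
    (fun R hR => FF.ord_nonneg_of_mem R (hzreg R (FF.mem_of_ord_nonneg R hR)))
  have hwq : ∀ x, wqR M q hqM (wqR M q hqM x) = x := fun x => Val.wq_wq M q hq.out hqM x
  set f : FBar (M * q) := Old.beta M q g with hf
  have hfwq : f = wqR M q hqM (Old.alpha M q g) := (h2.wq_alpha g).symm
  have hwqf : wqR M q hqM f = Old.alpha M q g := by rw [hfwq, hwq]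
  have hareg : Old.alpha M q g ∈ regAway Qb (Gin0.jF (M * q)) := fun R hR =>
    FF.mem_of_ord_nonneg R (Old.alpha_regular hgreg R (FF.ord_nonneg_of_mem R hR))
  have hfreg : f ∈ regAway Qb (Gin0.jF (M * q)) := by
    rw [hfwq]
    exact wq_mem_regAway hqM hareg
  have hf1 : f ∈ D1.O := (Old.beta_mem_iff hqM hA h1 g).2 hgO
  have hf2 : f ∈ D2.O := by
    rw [h2.mem_iff, hwqf]
    exact (Old.alpha_mem_iff hqM hA h1 g).2 hgO
  have hr1 : D1.redF f = VqR hA z := by rw [hf, Old.redF_beta hqM hA h1, hgred]; rfl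
  have hr2 : D2.redF f = z := by rw [h2.redF, hwqf, Old.redF_alpha hqM hA h1, hgred]
  obtain ⟨α, hα1, hα2⟩ := mod_glue_regAway hqM hA h1 h2 hFk hfreg hf1 hf2 c
  rw [hr1, modX₁_eq_frobP] at hα1
  rw [hr2] at hα2
  -- the value at `P` is `0`
  have hz0 : HasValueAt P z 0 := by
    unfold HasValueAt
    rwa [map_zero, sub_zero]
  have hα0 : α = 0 := hα2.unique hz0
  rw [hα0, ← hasValueAt_frobP_iff] at hα1
  apply hzQ
  have := hα1
  unfold HasValueAt at this
  rwa [map_zero, sub_zero] at this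

/-! ### the permutation of the nodes induced by Frobenius -/

include h1 in
theorem exists_modX₂_eq_modX₁ (c : Fin (modS D1)) : ∃ c' : Fin (modS D1),
    modX₂ D1 c' = modX₁ hA D1 c :=
  nodeEnum_surjective (K := kA) (Gink.jK A M) (H₂_ne_zero h1) (Count.modX₁_mem hA h1 c)

/-- **the node `cα c`** with `modX₂ (cα c) = modX₁ c = Fr (modX₂ c)` -/
def nodeAlpha (c : Fin (modS D1)) : Fin (modS D1) :=
  Classical.choose (exists_modX₂_eq_modX₁ hA h1 c)

theorem modX₂_nodeAlpha (c : Fin (modS D1)) :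
    modX₂ D1 (nodeAlpha hA h1 c) = modX₁ hA D1 c :=
  Classical.choose_spec (exists_modX₂_eq_modX₁ hA h1 c)

include hqM h2 in
theorem modX₁_nodeAlpha {gM : ℕ} (hFk : IsCurveOfGenus kA (FRes A M) gM) (c : Fin (modS D1)) :
    modX₁ hA D1 (nodeAlpha hA h1 c) = modX₂ D1 c := by
  rw [modX₁_eq_frobP, modX₂_nodeAlpha, modX₁_eq_frobP]
  exact frobP_frobP_modX₂ hqM hA h1 h2 hFk c

theorem nodeAlpha_injective : Function.Injective (nodeAlpha hA h1 (D1 := D1)) := by
  intro c d hcd
  have h := congrArg (modX₂ D1) hcd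
  rw [modX₂_nodeAlpha, modX₂_nodeAlpha] at h
  exact modX₁_injective hA h

theorem nodeAlpha_bijective : Function.Bijective (nodeAlpha hA h1 (D1 := D1)) :=
  Finite.injective_iff_bijective.1 (nodeAlpha_injective hA h1)

end WithDivisors

end Fermat.Agent.S36lib.J
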