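/-
S36lib / J / Arith  (helper4)

Elementary arithmetic used by the `J`-level chain of (C36) (brick B8):

* `fibre_congr` : the two norm congruences on the orders `(w₁, w₂, w₃)` of a function along the
  three components `Z₁ + e Z₂ + Z₃` (`e = q - 1`) force `(q+1)·w ≡ m·(1, e, 1)  (mod n)`;
* `exists_fibre_decomp` : the same with explicit quotients;
* `twist_const` : from `μ^q = A λ`, `μ = B λ^q` one gets `λ^(q²-1)`, `μ^(q²-1)` in terms of `A, B`.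
-/
import Mathlib

set_option autoImplicit false

namespace Fermat.Agent.S36lib.J

/-- The norm congruences along `α` (`w₁ + w₂ ≡ q w₃`) and `β` (`q w₁ ≡ w₂ + w₃`) modulo `n` imply
that `(q+1)(w₁, w₂, w₃) ≡ (q+1) w₃ · (1, q-1, 1)` modulo `n`. -/
theorem fibre_congr {n q w₁ w₂ w₃ : ℤ} (hα : w₁ + w₂ ≡ q * w₃ [ZMOD n])
    (hβ : q * w₁ ≡ w₂ + w₃ [ZMOD n]) :
    (q + 1) * w₁ ≡ (q + 1) * w₃ [ZMOD n] ∧
      (q + 1) * w₂ ≡ ((q + 1) * w₃) * (q - 1) [ZMOD n] := by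
  have h1 : (q + 1) * w₁ ≡ (q + 1) * w₃ [ZMOD n] := by
    have e1 : (q + 1) * w₁ = q * w₁ + w₁ := by ring
    have e2 : (q + 1) * w₃ = q * w₃ + w₃ := by ring
    rw [e1, e2]
    calc q * w₁ + w₁ ≡ (w₂ + w₃) + w₁ [ZMOD n] := hβ.add_right w₁
      _ = (w₁ + w₂) + w₃ := by ring
      _ ≡ q * w₃ + w₃ [ZMOD n] := hα.add_right w₃
  refine ⟨h1, ?_⟩
  -- `w₂ ≡ q w₃ - w₁`
  have h2 : w₂ ≡ q * w₃ - w₁ [ZMOD n] := by
    have := hα.sub_right w₁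
    simpa using this
  calc (q + 1) * w₂ ≡ (q + 1) * (q * w₃ - w₁) [ZMOD n] := h2.mul_left (q + 1)
    _ = (q + 1) * q * w₃ - (q + 1) * w₁ := by ring
    _ ≡ (q + 1) * q * w₃ - (q + 1) * w₃ [ZMOD n] := Int.ModEq.sub_left _ h1
    _ = ((q + 1) * w₃) * (q - 1) := by ring

/-- explicit form: `(q+1) wᵢ = m φᵢ + n wᵢ'` with `φ = (1, q-1, 1)`. -/
theorem exists_fibre_decomp {n q w₁ w₂ w₃ : ℤ} (hα : w₁ + w₂ ≡ q * w₃ [ZMOD n])
    (hβ : q * w₁ ≡ w₂ + w₃ [ZMOD n]) :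
    ∃ m w₁' w₂' w₃' : ℤ, (q + 1) * w₁ = m + n * w₁' ∧ (q + 1) * w₂ = m * (q - 1) + n * w₂' ∧
      (q + 1) * w₃ = m + n * w₃' := by
  obtain ⟨h1, h2⟩ := fibre_congr hα hβ
  obtain ⟨a, ha⟩ := h1.symm.dvd
  obtain ⟨b, hb⟩ := h2.symm.dvd
  exact ⟨(q + 1) * w₃, a, b, 0, by linarith, by linarith, by ring⟩

/-- from `μ^q = A λ` and `μ = B λ^q`: `λ^(q²-1) = A / B^q`. -/
theorem twist_const {k : Type*} [Field k] {q : ℕ} (hq : 0 < q) {lam mu A B : k} (hlam : lam ≠ 0)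
    (hB : B ≠ 0) (h1 : mu ^ q = A * lam) (h2 : mu = B * lam ^ q) :
    lam ^ (q ^ 2 - 1) = A / B ^ q := by
  have hq2 : 1 ≤ q ^ 2 := Nat.one_le_pow _ _ hq
  have h3 : B ^ q * lam ^ (q ^ 2) = A * lam := by
    rw [← h1, h2, mul_pow, ← pow_mul, sq]
  have h4 : lam ^ (q ^ 2) = lam ^ (q ^ 2 - 1) * lam := by
    rw [← pow_succ, Nat.sub_add_cancel hq2]
  rw [h4, ← mul_assoc] at h3
  have h5 := mul_right_cancel₀ hlam h3
  rw [eq_div_iff (pow_ne_zero q hB), mul_comm]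
  exact h5

end Fermat.Agent.S36lib.J
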