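/-
S36lib / J / Val  (helper4)

Valuation bookkeeping over a DISCRETELY valued base `(K, R, π)` for the `J`-level chain (B8):

* `BaseDVR R π` : `R` is a discrete valuation ring of `K` with uniformizer `π`, in the elementary
  form used by `Thick.ThickCtx`;
* for a Gauss datum `W : GaussDatum R G Gk` (unramified over `R`): the valuation of a constant
  and of every `f ≠ 0` is an integral power of `v(π)`, `v(π) < 1`, powers of `v(π)` are
  distinct;
* for a ramified datum `V : Thick.RamGaussDatum R F Fk`: the same with the uniformizer `ϖ`.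
-/
import Fermat.Agent.S36lib.Thick.Datum
import Fermat.Agent.S36lib.Norm.Place

set_option autoImplicit false

noncomputable section

namespace Fermat.Agent.S36lib.J

open Fermat.Agent.S18lib Fermat.Agent.S36lib.Thick Fermat.Agent.S36lib.Norm

variable {K : Type*} [Field K] {R : ValuationSubring K}

/-- `R` is a discrete valuation ring of `K` with uniformizer `π` (elementary form). -/
structure BaseDVR (R : ValuationSubring K) (π : K) : Prop where
  π_mem : π ∈ R
  π_not_unit : π⁻¹ ∉ R
  exists_zpow_mul_unit : ∀ c : K, c ≠ 0 → ∃ m : ℤ, c * π ^ (-m) ∈ R ∧ (c * π ^ (-m))⁻¹ ∈ R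

theorem BaseDVR.π_ne_zero {π : K} (B : BaseDVR R π) : π ≠ 0 := by
  rintro rfl
  exact B.π_not_unit (by rw [inv_zero]; exact R.zero_mem)

/-! ### valuation subrings in general -/

section General

variable {F : Type*} [Field F] (O : ValuationSubring F)

theorem valuation_eq_one_of_mem_of_inv_mem {x : F} (hx0 : x ≠ 0) (hx : x ∈ O) (hxi : x⁻¹ ∈ O) :
    O.valuation x = 1 := by
  have h1 : O.valuation x ≤ 1 := (O.valuation_le_one_iff x).2 hx
  have h2 : O.valuation x⁻¹ ≤ 1 := (O.valuation_le_one_iff _).2 hxi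
  rw [map_inv₀] at h2
  have hpos : 0 < O.valuation x := by
    rw [zero_lt_iff]
    exact (map_ne_zero _).2 hx0
  have h3 : 1 ≤ O.valuation x := by
    rwa [inv_le_one₀ hpos] at h2
  exact le_antisymm h1 h3

theorem valuation_unit (u : Oˣ) : O.valuation ((u : O) : F) = 1 := by
  have h0 : ((u : O) : F) ≠ 0 := by
    intro h
    have : (u : O) = 0 := Subtype.ext h
    exact u.ne_zero this
  have hinv : (((u⁻¹ : Oˣ) : O) : F) = ((u : O) : F)⁻¹ := by
    have h3 : (u : O) * ((u⁻¹ : Oˣ) : O) = 1 := u.mul_inv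
    have h4 : ((u : O) : F) * (((u⁻¹ : Oˣ) : O) : F) = 1 := congrArg Subtype.val h3
    exact eq_inv_of_mul_eq_one_right h4
  exact valuation_eq_one_of_mem_of_inv_mem O h0 (u : O).2 (hinv ▸ ((u⁻¹ : Oˣ) : O).2)

theorem mem_and_inv_mem_of_valuation_eq_one {x : F} (h : O.valuation x = 1) :
    x ∈ O ∧ x⁻¹ ∈ O := by
  refine ⟨(O.valuation_le_one_iff x).1 h.le, (O.valuation_le_one_iff _).1 ?_⟩
  rw [map_inv₀, h, inv_one]

/-- powers of an element of valuation in `(0,1)` have pairwise distinct valuations -/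
theorem zpow_valuation_injective {ϖ : F} (h0 : ϖ ≠ 0) (h1 : O.valuation ϖ < 1) {a b : ℤ}
    (h : O.valuation ϖ ^ a = O.valuation ϖ ^ b) : a = b := by
  have hpos : 0 < O.valuation ϖ := by
    rw [zero_lt_iff]
    exact (map_ne_zero _).2 h0
  exact zpow_right_injective₀ hpos h1.ne h

end General

/-! ### constants: a valuation subring `O` of `G` with `O ∩ K = R` -/

section Const

variable {π : K} (B : BaseDVR R π)
variable {G : Type*} [Field G] [Algebra K G] (O : ValuationSubring G)

/-- the order of a nonzero constant at the uniformizer `π` -/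
def BaseDVR.ord (B : BaseDVR R π) (c : K) : ℤ :=
  letI := Classical.propDecidable
  if h : c ≠ 0 then (B.exists_zpow_mul_unit c h).choose else 0

theorem BaseDVR.ord_spec {c : K} (hc : c ≠ 0) :
    c * π ^ (-(B.ord c)) ∈ R ∧ (c * π ^ (-(B.ord c)))⁻¹ ∈ R := by
  classical
  rw [BaseDVR.ord, dif_pos hc]
  exact (B.exists_zpow_mul_unit c hc).choose_spec

include B in
theorem valuation_algebraMap_pi_lt_one (hO : ∀ c : K, algebraMap K G c ∈ O ↔ c ∈ R) :
    O.valuation (algebraMap K G π) < 1 := by
  have h1 : O.valuation (algebraMap K G π) ≤ 1 :=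
    (O.valuation_le_one_iff _).2 ((hO π).2 B.π_mem)
  refine lt_of_le_of_ne h1 fun h => ?_
  have h2 := (mem_and_inv_mem_of_valuation_eq_one O h).2
  rw [← map_inv₀] at h2
  exact B.π_not_unit ((hO _).1 h2)

include B in
theorem algebraMap_pi_ne_zero : algebraMap K G π ≠ 0 := (map_ne_zero _).2 B.π_ne_zero

theorem valuation_algebraMap (hO : ∀ c : K, algebraMap K G c ∈ O ↔ c ∈ R) {c : K} (hc : c ≠ 0) :
    O.valuation (algebraMap K G c) = O.valuation (algebraMap K G π) ^ (B.ord c) := by
  obtain ⟨h1, h2⟩ := B.ord_spec hc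
  set d : K := c * π ^ (-(B.ord c)) with hd
  have hd0 : d ≠ 0 := mul_ne_zero hc (zpow_ne_zero _ B.π_ne_zero)
  have hdv : O.valuation (algebraMap K G d) = 1 := by
    refine valuation_eq_one_of_mem_of_inv_mem O ((map_ne_zero _).2 hd0) ((hO d).2 h1) ?_
    rw [← map_inv₀]
    exact (hO _).2 h2
  have hc' : c = d * π ^ (B.ord c) := by
    rw [hd, mul_assoc, ← zpow_add₀ B.π_ne_zero, neg_add_cancel, zpow_zero, mul_one]
  have e : algebraMap K G c = algebraMap K G d * algebraMap K G π ^ (B.ord c) := by
    conv_lhs => rw [hc']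
    rw [map_mul, map_zpow₀]
  rw [e, map_mul, hdv, one_mul, map_zpow₀]

end Const

/-! ### Gauss data (unramified over `R`) -/

section Gauss

variable {π : K} (B : BaseDVR R π)
variable {G : Type*} [Field G] [Algebra K G]
variable {Gk : Type*} [Field Gk] [Algebra (IsLocalRing.ResidueField R) Gk]
variable (W : GaussDatum R G Gk)

/-- the bare place of a Gauss datum -/
def gaussPlace : Place G Gk := ⟨W.O, W.red, W.red_surjective⟩

@[simp] theorem gaussPlace_O : (gaussPlace W).O = W.O := rfl

theorem gaussPlace_redF (y : G) : (gaussPlace W).redF y = W.redF y := rfl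

include B in
/-- every `f ≠ 0` has valuation an integral power of `v(π)` -/
theorem gauss_exists_zpow {f : G} (hf : f ≠ 0) :
    ∃ m : ℤ, W.O.valuation f = W.O.valuation (algebraMap K G π) ^ m := by
  obtain ⟨c, hc, u, hu⟩ := W.exists_const_mul_isUnit f hf
  have h1 : W.O.valuation (algebraMap K G c) * W.O.valuation f = 1 := by
    rw [← map_mul, hu, valuation_unit]
  rw [valuation_algebraMap B W.O W.algebraMap_mem_iff hc] at h1
  refine ⟨-(B.ord c), ?_⟩
  rw [zpow_neg]
  exact eq_inv_of_mul_eq_one_right h1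

end Gauss

/-! ### ramified data -/

section Ram

variable {π : K} (B : BaseDVR R π)
variable {F : Type*} [Field F] [Algebra K F]
variable {Fk : Type*} [Field Fk] [Algebra (IsLocalRing.ResidueField R) Fk]
variable (V : RamGaussDatum R F Fk)

/-- the bare place of a ramified Gauss datum -/
def ramPlace : Place F Fk := ⟨V.O, V.red, V.red_surjective⟩

@[simp] theorem ramPlace_O : (ramPlace V).O = V.O := rfl

theorem valuation_unif_lt_one : V.O.valuation V.unif < 1 := by
  have h : (ramPlace V).redF V.unif = 0 := by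
    rw [(ramPlace V).redF_of_mem (show V.unif ∈ (ramPlace V).O from V.unif_mem)]
    exact V.red_unif
  exact ((ramPlace V).redF_eq_zero_iff (show V.unif ∈ (ramPlace V).O from V.unif_mem)).1 h

/-- every `f ≠ 0` has valuation an integral power of `v(ϖ)` -/
theorem ram_exists_zpow {f : F} (hf : f ≠ 0) :
    ∃ j : ℤ, V.O.valuation f = V.O.valuation V.unif ^ j := by
  obtain ⟨j, u, hu⟩ := V.exists_zpow_mul_isUnit f hf
  refine ⟨j, ?_⟩
  rw [hu, map_mul, valuation_unit, mul_one, map_zpow₀]

end Ram

end Fermat.Agent.S36lib.J
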