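/-
S36lib / J / ConstPow  (helper4)

* `IsConstPow K n y` : `y = c · hⁿ` with `c ∈ Kˣ` (the trivial Kummer functions over `K`), closure
  properties;
* more closure properties of `LSc.IsConstMulPow` (`y ∈ kˣ · (Fkˣ)ⁿ`): products, powers, images
  under ring homomorphisms preserving the constants, and extraction of a `q`-th root for `q`
  prime to `n`;
* `isConstMulPow_redF_of_isConstPow` : over a discretely valued base, a unit `y = c · hⁿ` of a
  Gauss datum reduces into `kˣ · (Fkˣ)ⁿ`.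
-/
import Fermat.Agent.S36lib.J.Val
import Fermat.Agent.LSc.Core.Degeneracy

set_option autoImplicit false

noncomputable section

namespace Fermat.Agent.S36lib.J

open Fermat.Agent.S18lib Fermat.Agent.LSc

/-! ### trivial Kummer functions -/

section ConstPow

variable (K : Type*) [Field K] {F : Type*} [Field F] [Algebra K F]

/-- `y = c · hⁿ` with `c ∈ Kˣ`, `h ≠ 0` -/
def IsConstPow (n : ℕ) (y : F) : Prop :=
  ∃ (c : K) (h : F), c ≠ 0 ∧ h ≠ 0 ∧ y = algebraMap K F c * h ^ n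

variable {K} {n : ℕ}

theorem IsConstPow.ne_zero {y : F} (h : IsConstPow K n y) : y ≠ 0 := by
  obtain ⟨c, w, hc, hw, rfl⟩ := h
  exact mul_ne_zero ((map_ne_zero _).2 hc) (pow_ne_zero n hw)

theorem IsConstPow.mul {y z : F} (hy : IsConstPow K n y) (hz : IsConstPow K n z) :
    IsConstPow K n (y * z) := by
  obtain ⟨c, w, hc, hw, rfl⟩ := hy
  obtain ⟨c', w', hc', hw', rfl⟩ := hz
  exact ⟨c * c', w * w', mul_ne_zero hc hc', mul_ne_zero hw hw', by rw [map_mul, mul_pow]; ring⟩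

theorem IsConstPow.inv {y : F} (hy : IsConstPow K n y) : IsConstPow K n y⁻¹ := by
  obtain ⟨c, w, hc, hw, rfl⟩ := hy
  exact ⟨c⁻¹, w⁻¹, inv_ne_zero hc, inv_ne_zero hw, by rw [map_inv₀, inv_pow, mul_inv]⟩

theorem IsConstPow.pow {y : F} (hy : IsConstPow K n y) (m : ℕ) : IsConstPow K n (y ^ m) := by
  obtain ⟨c, w, hc, hw, rfl⟩ := hy
  exact ⟨c ^ m, w ^ m, pow_ne_zero m hc, pow_ne_zero m hw, by
    rw [map_pow, mul_pow, ← pow_mul, ← pow_mul, mul_comm n m]⟩

theorem IsConstPow.zpow {y : F} (hy : IsConstPow K n y) (m : ℤ) : IsConstPow K n (y ^ m) := by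
  obtain ⟨c, w, hc, hw, rfl⟩ := hy
  refine ⟨c ^ m, w ^ m, zpow_ne_zero m hc, zpow_ne_zero m hw, ?_⟩
  have e : (w ^ n) ^ m = (w ^ m) ^ n := by
    rw [← zpow_natCast w n, ← zpow_natCast (w ^ m) n, ← zpow_mul, ← zpow_mul, mul_comm]
  rw [map_zpow₀, mul_zpow, e]

theorem isConstPow_const {c : K} (hc : c ≠ 0) : IsConstPow K n (algebraMap K F c) :=
  ⟨c, 1, hc, one_ne_zero, by rw [one_pow, mul_one]⟩

theorem isConstPow_npow {w : F} (hw : w ≠ 0) : IsConstPow K n (w ^ n) :=
  ⟨1, w, one_ne_zero, hw, by rw [map_one, one_mul]⟩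

/-- a monoid homomorphism mapping constants to constants preserves `IsConstPow` -/
theorem IsConstPow.map {G : Type*} [Field G] [Algebra K G] (N : F →* G)
    (hN : ∀ c : K, ∃ c' : K, N (algebraMap K F c) = algebraMap K G c') {y : F}
    (hy : IsConstPow K n y) : IsConstPow K n (N y) := by
  obtain ⟨c, w, hc, hw, rfl⟩ := hy
  obtain ⟨c', hc'⟩ := hN c
  have hne : ∀ x : F, x ≠ 0 → N x ≠ 0 := by
    intro x hx h0
    have h1 : N x * N x⁻¹ = 1 := by rw [← map_mul, mul_inv_cancel₀ hx, map_one]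
    rw [h0, zero_mul] at h1
    exact zero_ne_one h1
  have hc'0 : c' ≠ 0 := by
    rintro rfl
    rw [map_zero] at hc'
    exact hne _ ((map_ne_zero _).2 hc) hc'
  exact ⟨c', N w, hc'0, hne w hw, by rw [map_mul, map_pow, hc']⟩

end ConstPow

/-! ### more on `IsConstMulPow` -/

section ConstMulPow

variable {K : Type*} [Field K] {R : ValuationSubring K}
variable {Fk : Type*} [Field Fk] [Algebra (IsLocalRing.ResidueField R) Fk] {n : ℕ}

local notation "k" => IsLocalRing.ResidueField R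

theorem isConstMulPow_one : IsConstMulPow (A := R) n (1 : Fk) :=
  ⟨1, 1, one_ne_zero, one_ne_zero, by rw [map_one, one_pow, mul_one]⟩

theorem isConstMulPow_const {c : k} (hc : c ≠ 0) :
    IsConstMulPow (A := R) n (algebraMap k Fk c) :=
  ⟨c, 1, hc, one_ne_zero, by rw [one_pow, mul_one]⟩

theorem isConstMulPow_mul {y z : Fk} (hy : IsConstMulPow (A := R) n y)
    (hz : IsConstMulPow (A := R) n z) : IsConstMulPow (A := R) n (y * z) := by
  obtain ⟨c, w, hc, hw, rfl⟩ := hy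
  obtain ⟨c', w', hc', hw', rfl⟩ := hz
  exact ⟨c * c', w * w', mul_ne_zero hc hc', mul_ne_zero hw hw', by rw [map_mul, mul_pow]; ring⟩

theorem isConstMulPow_zpow {y : Fk} (hy : IsConstMulPow (A := R) n y) (m : ℤ) :
    IsConstMulPow (A := R) n (y ^ m) := by
  obtain ⟨c, w, hc, hw, rfl⟩ := hy
  refine ⟨c ^ m, w ^ m, zpow_ne_zero m hc, zpow_ne_zero m hw, ?_⟩
  have e : (w ^ n) ^ m = (w ^ m) ^ n := by
    rw [← zpow_natCast w n, ← zpow_natCast (w ^ m) n, ← zpow_mul, ← zpow_mul, mul_comm]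
  rw [map_zpow₀, mul_zpow, e]

theorem isConstMulPow_pow {y : Fk} (hy : IsConstMulPow (A := R) n y) (m : ℕ) :
    IsConstMulPow (A := R) n (y ^ m) := by
  have := isConstMulPow_zpow hy (m : ℤ)
  rwa [zpow_natCast] at this

/-- an `n`-th power is in `kˣ (Fkˣ)ⁿ` -/
theorem isConstMulPow_npow {w : Fk} (hw : w ≠ 0) : IsConstMulPow (A := R) n (w ^ n) :=
  ⟨1, w, one_ne_zero, hw, by rw [map_one, one_mul]⟩

/-- a monoid homomorphism between fields maps nonzero elements to nonzero elements -/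
theorem monoidHom_ne_zero {A B : Type*} [Field A] [Field B] (S : A →* B) {x : A} (hx : x ≠ 0) :
    S x ≠ 0 := by
  intro h0
  have h1 : S x * S x⁻¹ = 1 := by rw [← map_mul, mul_inv_cancel₀ hx, map_one]
  rw [h0, zero_mul] at h1
  exact zero_ne_one h1

theorem monoidHom_inv {A B : Type*} [Field A] [Field B] (S : A →* B) {x : A} (hx : x ≠ 0) :
    S x⁻¹ = (S x)⁻¹ := by
  have h1 : S x * S x⁻¹ = 1 := by rw [← map_mul, mul_inv_cancel₀ hx, map_one]
  exact eq_inv_of_mul_eq_one_right h1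

/-- image under a monoid homomorphism preserving the constants -/
theorem isConstMulPow_map {Fk' : Type*} [Field Fk']
    [Algebra (IsLocalRing.ResidueField R) Fk'] (S : Fk →* Fk')
    (hS : ∀ c : k, c ≠ 0 → ∃ c' : k, c' ≠ 0 ∧ S (algebraMap k Fk c) = algebraMap k Fk' c')
    {y : Fk} (hy : IsConstMulPow (A := R) n y) : IsConstMulPow (A := R) n (S y) := by
  obtain ⟨c, w, hc, hw, rfl⟩ := hy
  obtain ⟨c', hc', hcc'⟩ := hS c hc
  exact ⟨c', S w, hc', monoidHom_ne_zero S hw, by rw [map_mul, map_pow, hcc']⟩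

/-- extraction of a `q`-th root, `q` prime to `n` -/
theorem isConstMulPow_of_pow {q : ℕ} (hqn : Nat.Coprime q n) {y : Fk} (hy0 : y ≠ 0)
    (hy : IsConstMulPow (A := R) n (y ^ q)) : IsConstMulPow (A := R) n y := by
  -- `a q + b n = 1`
  have hg : Int.gcd (q : ℤ) (n : ℤ) = 1 := by
    rw [Int.gcd_natCast_natCast]
    exact hqn
  have hbez := Int.gcd_eq_gcd_ab (q : ℤ) (n : ℤ)
  rw [hg] at hbez
  set a := Int.gcdA (q : ℤ) (n : ℤ)
  set b := Int.gcdB (q : ℤ) (n : ℤ)
  have e : y = (y ^ q) ^ a * (y ^ b) ^ n := by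
    rw [← zpow_natCast y q, ← zpow_mul, ← zpow_natCast (y ^ b) n, ← zpow_mul, ← zpow_add₀ hy0]
    have : (q : ℤ) * a + b * (n : ℤ) = 1 := by
      have := hbez
      push_cast at this
      linarith
    rw [this, zpow_one]
  rw [e]
  exact isConstMulPow_mul (isConstMulPow_zpow hy a) (isConstMulPow_npow (zpow_ne_zero b hy0))

end ConstMulPow

/-! ### reduction of a trivial Kummer function which is a unit -/

section Red

variable {K : Type*} [Field K] {R : ValuationSubring K} {π : K} (B : BaseDVR R π)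
variable {G : Type*} [Field G] [Algebra K G]
variable {Gk : Type*} [Field Gk] [Algebra (IsLocalRing.ResidueField R) Gk]
variable (W : GaussDatum R G Gk)

include B in
/-- over a discretely valued base, a unit `y = c · hⁿ` of a Gauss datum reduces into
`kˣ · (Gkˣ)ⁿ`. -/
theorem isConstMulPow_redF_of_isConstPow {n : ℕ} {y : G} (hy : IsConstPow K n y)
    (hyr : W.redF y ≠ 0) : IsConstMulPow (A := R) n (W.redF y) := by
  obtain ⟨c, h, hc, hh, rfl⟩ := hy
  set v := W.O.valuation with hv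
  set πG : G := algebraMap K G π with hπG
  have hπ0 : πG ≠ 0 := algebraMap_pi_ne_zero B
  have hπlt : v πG < 1 := valuation_algebraMap_pi_lt_one B W.O W.algebraMap_mem_iff
  obtain ⟨m, hm⟩ := gauss_exists_zpow B W hh
  -- `v y = 1`
  have hy1 : v (algebraMap K G c * h ^ n) = 1 := by
    obtain ⟨u, hu⟩ := W.redF_ne_zero_iff.1 hyr
    rw [← hu]
    exact valuation_unit W.O u
  rw [map_mul, map_pow, valuation_algebraMap B W.O W.algebraMap_mem_iff hc, hm, ← zpow_natCast,
    ← zpow_mul, ← zpow_add₀ ((map_ne_zero _).2 hπ0)] at hy1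
  have hexp : B.ord c + m * (n : ℤ) = 0 :=
    zpow_valuation_injective W.O hπ0 hπlt (hy1.trans (zpow_zero _).symm)
  -- renormalise
  set h' : G := h * πG ^ (-m) with hh'
  set c' : K := c * π ^ (m * (n : ℤ)) with hc'
  have hc'0 : c' ≠ 0 := mul_ne_zero hc (zpow_ne_zero _ B.π_ne_zero)
  have hh'0 : h' ≠ 0 := mul_ne_zero hh (zpow_ne_zero _ hπ0)
  have hh'v : v h' = 1 := by
    rw [hh', map_mul, map_zpow₀, hm, ← zpow_add₀ ((map_ne_zero _).2 hπ0), add_neg_cancel,
      zpow_zero]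
  have hc'v : v (algebraMap K G c') = 1 := by
    rw [hc', map_mul, map_zpow₀, map_mul, map_zpow₀,
      valuation_algebraMap B W.O W.algebraMap_mem_iff hc,
      ← zpow_add₀ ((map_ne_zero _).2 hπ0), hexp, zpow_zero]
  have heq : algebraMap K G c * h ^ n = algebraMap K G c' * h' ^ n := by
    rw [hc', hh', map_mul, map_zpow₀, mul_pow, ← zpow_natCast (πG ^ (-m)) n, ← zpow_mul]
    have e : πG ^ (m * (n : ℤ)) * πG ^ (-m * (n : ℤ)) = 1 := by
      rw [← zpow_add₀ hπ0]
      have : m * (n : ℤ) + -m * (n : ℤ) = 0 := by ring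
      rw [this, zpow_zero]
    calc algebraMap K G c * h ^ n = algebraMap K G c * h ^ n * 1 := (mul_one _).symm
      _ = algebraMap K G c * h ^ n * (πG ^ (m * (n : ℤ)) * πG ^ (-m * (n : ℤ))) := by rw [e]
      _ = _ := by ring
  obtain ⟨hh'O, hh'iO⟩ := mem_and_inv_mem_of_valuation_eq_one W.O hh'v
  obtain ⟨hc'O, hc'iO⟩ := mem_and_inv_mem_of_valuation_eq_one W.O hc'v
  have hh'r : W.redF h' ≠ 0 := by
    intro h0
    have h1 := W.redF_mul hh'O hh'iO
    rw [mul_inv_cancel₀ hh'0, W.redF_one, h0, zero_mul] at h1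
    exact one_ne_zero h1
  have hc'r : W.redF (algebraMap K G c') ≠ 0 := by
    intro h0
    have h1 := W.redF_mul hc'O hc'iO
    rw [mul_inv_cancel₀ ((map_ne_zero _).2 hc'0), W.redF_one, h0, zero_mul] at h1
    exact one_ne_zero h1
  obtain ⟨cb, hcb0, hcb⟩ := redF_const_of_ne_zero W hc'r
  refine ⟨cb, W.redF h', hcb0, hh'r, ?_⟩
  rw [heq, W.redF_mul hc'O (W.O.pow_mem hh'O n), hcb, W.redF_pow hh'O]

end Red

end Fermat.Agent.S36lib.J
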