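/-
S36lib / J / Setup  (helper4)  --  INTERFACE of the `J`-level chain of (C36) (brick B8)

Abstract setting, over a discretely valued base `(K, R, π)` with residue field `k`:

* `F / K`  : the function field of level `M q²` with its THICK datum `D : Thick.ThickDatum R F F₁ F₂ F₃`
  (components `Z₁ + e Z₂ + Z₃`, `e = q - 1`);
* `G / K`  : the function field of level `M q` with its two Gauss data (`LowDatum`: components
  `W₁, W₂`, chart ring `𝓛'`, nodes `(y₁ c', y₂ c')`);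
* the two norm maps `Nα Nβ : F →* G` with their residue maps (`NormData`, `NormCtx`);
* a Kummer system `KS` on `F` (`IsKum z` : "`n ∣ div z`", with the chart families `𝓔 z a b`).

`ChainCtx` collects the hypotheses; the main theorem (`J/Chain.lean`) says: for a Kummer function
`u` with `Nα u, Nβ u ∈ Kˣ · (Gˣ)ⁿ` one has `u ^ ((q²-1)²) ∈ Kˣ · (Fˣ)ⁿ`.
-/
import Fermat.Agent.S36lib.J.ConstPow
import Fermat.Agent.S36lib.J.Arith

set_option autoImplicit false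

noncomputable section

namespace Fermat.Agent.S36lib.J

open AlgebraicCurve Module
open Fermat.Agent.S18lib Fermat.Agent.S36lib.Thick Fermat.Agent.S36lib.Norm
open Fermat.Agent.LSb (HasValueAt)

/-- The level `M q` datum: two Gauss data, the chart "ring" `𝓛'` (functions regular off the
cusps) and the nodes. -/
structure LowDatum {K : Type*} [Field K] (R : ValuationSubring K)
    (G : Type*) [Field G] [Algebra K G]
    (G₁ G₂ : Type*) [Field G₁] [Field G₂]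
    [Algebra (IsLocalRing.ResidueField R) G₁] [Algebra (IsLocalRing.ResidueField R) G₂] where
  /-- the first component (`v₁₀`) -/
  W₁ : GaussDatum R G G₁
  /-- the second component (`v₀₁`) -/
  W₂ : GaussDatum R G G₂
  /-- functions regular off the cusps -/
  𝓛' : Set G
  /-- the number of nodes -/
  s' : ℕ
  /-- the nodes on the two components -/
  y₁ : Fin s' → AlgebraicCurve.Place (IsLocalRing.ResidueField R) G₁
  y₂ : Fin s' → AlgebraicCurve.Place (IsLocalRing.ResidueField R) G₂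

variable {K : Type*} [Field K] {R : ValuationSubring K}
variable {F : Type*} [Field F] [Algebra K F]
variable {F₁ F₂ F₃ : Type*} [Field F₁] [Field F₂] [Field F₃]
variable [Algebra (IsLocalRing.ResidueField R) F₁] [Algebra (IsLocalRing.ResidueField R) F₂]
variable [Algebra (IsLocalRing.ResidueField R) F₃]
variable {G : Type*} [Field G] [Algebra K G]
variable {G₁ G₂ : Type*} [Field G₁] [Field G₂]
variable [Algebra (IsLocalRing.ResidueField R) G₁] [Algebra (IsLocalRing.ResidueField R) G₂]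

/-- A Kummer system: the predicate "`n ∣ div z`" with its chart families. -/
structure KummerSystem (D : ThickDatum R F F₁ F₂ F₃) (g n : ℕ) where
  /-- `z ≠ 0` and `n ∣ div z` -/
  IsKum : F → Prop
  /-- `𝓔 z a b = L(div(z)/n + a P₁ + b P₂)` -/
  𝓔 : F → ℕ → ℕ → Submodule K F
  /-- the Kummer family of a Kummer function -/
  fam : ∀ z, IsKum z → KummerFamily D g n z
  fam_𝓔 : ∀ z (hz : IsKum z), (fam z hz).𝓔 = 𝓔 z
  ne_zero : ∀ z, IsKum z → z ≠ 0
  mul : ∀ z z', IsKum z → IsKum z' → IsKum (z * z')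
  inv : ∀ z, IsKum z → IsKum z⁻¹
  const : ∀ c : K, c ≠ 0 → IsKum (algebraMap K F c)
  npow : ∀ w : F, w ≠ 0 → IsKum (w ^ n)
  /-- `L(E + A) · L(E' + A') ⊆ L(E + E' + A + A')` -/
  𝓔_mul : ∀ z z', IsKum z → IsKum z' → ∀ (a b a' b' : ℕ) (h h' : F),
    h ∈ 𝓔 z a b → h' ∈ 𝓔 z' a' b' → h * h' ∈ 𝓔 (z * z') (a + a') (b + b')

/-- The hypotheses on one norm map `N : F →* G`, in a shape covering both degeneracy maps:
`red_{W₁} (N u) = φ₁ (red₁ u) · φ₂ (red₂ u)`, `red_{W₂} (N u) = ψ₂ (red₂ u) · ψ₃ (red₃ u)`; the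
triple point `c` lies over the node `cN c`, and values at `x₁ c` (`x₃ c`) are raised to the
power `t₁` (`t₃`). -/
structure NormCtx (D : ThickDatum R F F₁ F₂ F₃) (L : LowDatum R G G₁ G₂) (N : F →* G)
    (φ₁ : F₁ →* G₁) (φ₂ : F₂ →* G₁) (ψ₂ : F₂ →* G₂) (ψ₃ : F₃ →* G₂)
    (cN : Fin D.s → Fin L.s') (t₁ t₃ : ℕ) : Prop where
  /-- constants go to constants -/
  const : ∀ c : K, ∃ c' : K, N (algebraMap K F c) = algebraMap K G c'
  mem₁ : ∀ u : F, u ∈ D.O → N u ∈ L.W₁.O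
  mem₂ : ∀ u : F, u ∈ D.O → N u ∈ L.W₂.O
  /-- norm–reduction on the first component -/
  red₁ : ∀ u : F, u ∈ D.O → L.W₁.redF (N u) = φ₁ (D.V₁.redF u) * φ₂ (D.red₂ u)
  /-- norm–reduction on the second component -/
  red₂ : ∀ u : F, u ∈ D.O → L.W₂.redF (N u) = ψ₂ (D.red₂ u) * ψ₃ (D.V₃.redF u)
  /-- norms of functions regular off the cusps are regular off the cusps (only the FIRST chart
  `𝓛 a 0 = L(a P₁)`, `P₁` cuspidal, is used) -/
  chart : ∀ (a : ℕ) (f : F), f ∈ D.𝓛 a 0 → N f ∈ L.𝓛'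
  φ₁_const : ∀ c : IsLocalRing.ResidueField R, c ≠ 0 → ∃ c' : IsLocalRing.ResidueField R,
    c' ≠ 0 ∧ φ₁ (algebraMap _ F₁ c) = algebraMap _ G₁ c'
  φ₂_const : ∀ c : IsLocalRing.ResidueField R, c ≠ 0 → ∃ c' : IsLocalRing.ResidueField R,
    c' ≠ 0 ∧ φ₂ (algebraMap _ F₂ c) = algebraMap _ G₁ c'
  ψ₂_const : ∀ c : IsLocalRing.ResidueField R, c ≠ 0 → ∃ c' : IsLocalRing.ResidueField R,
    c' ≠ 0 ∧ ψ₂ (algebraMap _ F₂ c) = algebraMap _ G₂ c'
  ψ₃_const : ∀ c : IsLocalRing.ResidueField R, c ≠ 0 → ∃ c' : IsLocalRing.ResidueField R,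
    c' ≠ 0 ∧ ψ₃ (algebraMap _ F₃ c) = algebraMap _ G₂ c'
  /-- values at the triple points versus values at the nodes -/
  val₁ : ∀ (c : Fin D.s) (ρ : F₁) (v : IsLocalRing.ResidueField R),
    HasValueAt (D.x₁ c) ρ v → HasValueAt (L.y₁ (cN c)) (φ₁ ρ) (v ^ t₁)
  val₃ : ∀ (c : Fin D.s) (ρ : F₃) (v : IsLocalRing.ResidueField R),
    HasValueAt (D.x₃ c) ρ v → HasValueAt (L.y₂ (cN c)) (ψ₃ ρ) (v ^ t₃)

/-- The two norm maps with their residue maps. -/
structure NormData (D : ThickDatum R F F₁ F₂ F₃) (L : LowDatum R G G₁ G₂) where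
  /-- the norm along `α` -/
  Nα : F →* G
  /-- the norm along `β` -/
  Nβ : F →* G
  /-- residue norm `Z₁ → W₁` along `α` (degree one) -/
  a₁ : F₁ →* G₁
  /-- residue norm `Z₂ → W₁` along `α` (degree one, ramification `e`) -/
  a₂ : F₂ →* G₁
  /-- residue norm `Z₃ → W₂` along `α` (Frobenius type) -/
  a₃ : F₃ →* G₂
  /-- residue norm `Z₁ → W₁` along `β` (Frobenius type) -/
  b₁ : F₁ →* G₁
  /-- residue norm `Z₂ → W₂` along `β` (degree one, ramification `e`) -/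
  b₂ : F₂ →* G₂
  /-- residue norm `Z₃ → W₂` along `β` (degree one) -/
  b₃ : F₃ →* G₂
  /-- the node under a triple point, along `α` -/
  cα : Fin D.s → Fin L.s'
  /-- the node under a triple point, along `β` -/
  cβ : Fin D.s → Fin L.s'

/-- a monoid homomorphism `S` is constant preserving -/
def PreservesConst {R : ValuationSubring K} {A B : Type*} [Field A] [Field B]
    [Algebra (IsLocalRing.ResidueField R) A] [Algebra (IsLocalRing.ResidueField R) B]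
    (S : A →* B) : Prop :=
  ∀ c : IsLocalRing.ResidueField R, c ≠ 0 → ∃ c' : IsLocalRing.ResidueField R,
    c' ≠ 0 ∧ S (algebraMap _ A c) = algebraMap _ B c'

/-- The hypotheses of the chain. -/
structure ChainCtx (D : ThickDatum R F F₁ F₂ F₃) (L : LowDatum R G G₁ G₂)
    (g g₁ g₂ g₃ g₁' g₂' n q : ℕ) (KS : KummerSystem D g n) (ND : NormData D L) : Prop where
  thick : ThickCtx D g g₁ g₂ g₃
  twist : ExistsTwistStatement D g
  nondeg : NondegStatement D g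
  core : ThickCoreStatement D g
  hn : (n : IsLocalRing.ResidueField R) ≠ 0
  hq : 2 ≤ q
  hqn : Nat.Coprime q n
  he : D.e = q - 1
  /-- `L(0) = K` on the generic fibre -/
  const00 : ∀ f : F, f ∈ D.𝓛 0 0 → ∃ c : K, f = algebraMap K F c
  ne₁₂ : D.V₁.O ≠ D.V₂.O
  ne₁₃ : D.V₁.O ≠ D.V₃.O
  ne₂₃ : D.V₂.O ≠ D.V₃.O
  -- level `M q`
  hG₁ : IsCurveOfGenus (IsLocalRing.ResidueField R) G₁ g₁'
  hG₂ : IsCurveOfGenus (IsLocalRing.ResidueField R) G₂ g₂'
  low_smul : ∀ (c : K) (f : G), f ∈ L.𝓛' → algebraMap K G c * f ∈ L.𝓛'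
  low_root : ∀ f : G, f ^ n ∈ L.𝓛' → f ∈ L.𝓛'
  /-- (GLUE) at level `M q` -/
  low_glue : ∀ f : G, f ∈ L.𝓛' → f ∈ L.W₁.O → f ∈ L.W₂.O → ∀ c', ∃ γ : IsLocalRing.ResidueField R,
    HasValueAt (L.y₁ c') (L.W₁.redF f) γ ∧ HasValueAt (L.y₂ c') (L.W₂.redF f) γ
  -- the two norms
  normα : NormCtx D L ND.Nα ND.a₁ (ND.a₂ ^ D.e) 1 ND.a₃ ND.cα 1 q
  normβ : NormCtx D L ND.Nβ ND.b₁ 1 (ND.b₂ ^ D.e) ND.b₃ ND.cβ q 1
  /-- orders of norms: over `W₁` along `α` lie `Z₁` (`e = f = 1`) and `Z₂` (`e = q-1`, `f = 1`) -/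
  ordα₁ : ∀ (u : F) (w₁ w₂ : ℤ), u ≠ 0 →
    D.V₁.O.valuation u = D.V₁.O.valuation (algebraMap K F D.π) ^ w₁ →
    D.V₂.O.valuation u = D.V₂.O.valuation D.ϖ ^ w₂ →
    L.W₁.O.valuation (ND.Nα u) = L.W₁.O.valuation (algebraMap K G D.π) ^ (w₁ + w₂)
  /-- over `W₂` along `α` lies `Z₃` (`e = 1`, `f = q`) -/
  ordα₂ : ∀ (u : F) (w₃ : ℤ), u ≠ 0 →
    D.V₃.O.valuation u = D.V₃.O.valuation (algebraMap K F D.π) ^ w₃ →
    L.W₂.O.valuation (ND.Nα u) = L.W₂.O.valuation (algebraMap K G D.π) ^ ((q : ℤ) * w₃)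
  /-- over `W₁` along `β` lies `Z₁` (`e = 1`, `f = q`) -/
  ordβ₁ : ∀ (u : F) (w₁ : ℤ), u ≠ 0 →
    D.V₁.O.valuation u = D.V₁.O.valuation (algebraMap K F D.π) ^ w₁ →
    L.W₁.O.valuation (ND.Nβ u) = L.W₁.O.valuation (algebraMap K G D.π) ^ ((q : ℤ) * w₁)
  /-- over `W₂` along `β` lie `Z₂` (`e = q-1`, `f = 1`) and `Z₃` (`e = f = 1`) -/
  ordβ₂ : ∀ (u : F) (w₂ w₃ : ℤ), u ≠ 0 →
    D.V₂.O.valuation u = D.V₂.O.valuation D.ϖ ^ w₂ →
    D.V₃.O.valuation u = D.V₃.O.valuation (algebraMap K F D.π) ^ w₃ →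
    L.W₂.O.valuation (ND.Nβ u) = L.W₂.O.valuation (algebraMap K G D.π) ^ (w₂ + w₃)
  /-- `b₁` is of Frobenius type -/
  retr₁ : ∃ ρ : G₁ →* F₁, PreservesConst (R := R) ρ ∧ ∀ y, ρ (ND.b₁ y) = y ^ q
  /-- `a₂` is of degree one -/
  retr₂ : ∃ ρ : G₁ →* F₂, PreservesConst (R := R) ρ ∧ ∀ y, ρ (ND.a₂ y) = y
  /-- `a₃` is of Frobenius type -/
  retr₃ : ∃ ρ : G₂ →* F₃, PreservesConst (R := R) ρ ∧ ∀ y, ρ (ND.a₃ y) = y ^ q

end Fermat.Agent.S36lib.J
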