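/-
S36lib / J / Final  (helper4, architect)  --  THE TARGET OF THE INSTANCE

`InstGoal M q A n` : what the concrete instance has to deliver for a level `M q²` (`q ∤ M`), a
valuation ring `A | q` of `ℚ̄` (inertia group `I`, `K = Kfix A`, `R = Wfix A`, residue function
field `κ = FRes A M` for all five components) and an exponent `n`:
a thick datum on `fixF (M q q) I`, a low datum on `fixF (M q) I`, a Kummer system containing the
Kummer functions, norm data realising the norms along `α`, `β`, and a `ChainCtx`.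

* `smul_eq_zero_of_instGoal` : `InstGoal ⟹` every `q`-new, `I`-fixed `x ∈ J₀(M q²)[n]` has
  `(q² - 1)² x = 0`   (helper3's `Fin.smul_eq_zero_of_chainCtx` + class descent `J/ClassDescentBar`);
* `auxInertiaNewTors_of_instGoal` : `InstGoal` at the auxiliary levels `⟹ Fin.AuxInertiaNewTors p`;
* `inertiaKillTors_of_instGoal`  : `⟹ InertiaKillTors M p g`, the hypothesis of
  `S36lib.s36_statement_of_inertiaKill` (= the frozen S36).
-/
import Fermat.Agent.S36lib.J.ClassDescentBar
import Fermat.Agent.S36lib.Fin.ClassLevel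
import Fermat.Agent.S36lib.Fin.AuxLevel
import Fermat.Agent.S36lib.Inst.Base

set_option autoImplicit false
set_option linter.unusedSectionVars false
set_option linter.unusedVariables false

noncomputable section

namespace Fermat.Agent.S36lib.J

open AlgebraicCurve ModularCurve CuspForm CongruenceSubgroup
open Fermat.Agent.S18lib Fermat.Agent.S29lib Fermat.Agent.S29lib.GH Fermat.Agent.S29lib.D
open Fermat.Agent.S35lib Fermat.Agent.S37lib.HeckeInst
open Fermat.Agent.S36lib.Desc Fermat.Agent.S36lib.Desc2 Fermat.Agent.S36lib.Thick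


local notation "Qb" => AlgebraicClosure ℚ
local notation "GQ" => (AlgebraicClosure ℚ ≃ₐ[ℚ] AlgebraicClosure ℚ)

/-- **the target of the instance** at `(M, q, A, n)`. -/
def InstGoal (M q : ℕ) [NeZero M] [NeZero q] [NeZero (M * q)]
    (A : ValuationSubring (AlgebraicClosure ℚ)) (n : ℕ) : Prop :=
  ∃ (D : ThickDatum (Wfix A) (fixF (M * q * q) (A.inertiaSubgroupIn ℚ))
        (FRes A M) (FRes A M) (FRes A M))
    (L : LowDatum (Wfix A) (fixF (M * q) (A.inertiaSubgroupIn ℚ)) (FRes A M) (FRes A M))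
    (g g₁ g₂ g₃ g₁' g₂' : ℕ) (KS : KummerSystem D g n) (ND : NormData D L),
    ChainCtx D L g g₁ g₂ g₃ g₁' g₂' n q KS ND ∧
    (∀ u : fixF (M * q * q) (A.inertiaSubgroupIn ℚ), u ≠ 0 →
      (∃ E : Divisor Qb (FB (M * q * q)), ∀ v : Place Qb (FB (M * q * q)),
        (n : ℤ) * E v = v.ord (u : FB (M * q * q))) → KS.IsKum u) ∧
    (∀ u : fixF (M * q * q) (A.inertiaSubgroupIn ℚ),
      ((ND.Nα u : fixF (M * q) (A.inertiaSubgroupIn ℚ)) : FB (M * q)) =
        normAlong (heckeAlphaBar Qb (M * q) q) (u : FB (M * q * q))) ∧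
    (∀ u : fixF (M * q * q) (A.inertiaSubgroupIn ℚ),
      ((ND.Nβ u : fixF (M * q) (A.inertiaSubgroupIn ℚ)) : FB (M * q)) =
        normAlong (heckeBetaBar Qb (M * q) q) (u : FB (M * q * q)))

/-- **the class level from the instance.** -/
theorem smul_eq_zero_of_instGoal {M q : ℕ} [NeZero M] [NeZero q] [NeZero (M * q)]
    {A : ValuationSubring (AlgebraicClosure ℚ)} {n : ℕ} (h : InstGoal M q A n)
    {x : JZero (M * q * q)} (hx : x ∈ Tors (M * q * q) n) (hnew : IsQNew (M * q) q x)
    (hfix : ∀ σ ∈ A.inertiaSubgroupIn ℚ, σ • x = x) :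
    (((q ^ 2 - 1) ^ 2 : ℕ) : ℤ) • x = 0 := by
  obtain ⟨D, L, g, g₁, g₂, g₃, g₁', g₂', KS, ND, X, hKum, hNα, hNβ⟩ := h
  exact Fin.smul_eq_zero_of_chainCtx (N := M * q) (q := q) X hKum hNα hNβ
    (hasStableReps (M * q * q) _) (hasFixedGenerators (M * q * q) _)
    (hasFixedGenerators (M * q) _) hx hnew hfix

/-- **(C36) at the auxiliary levels from the instance.** -/
theorem auxInertiaNewTors_of_instGoal (p : ℕ)
    (h : ∀ (M q : ℕ) [NeZero M] [NeZero q] [NeZero (M * q)], q.Prime → ¬ q ∣ M → q ≠ p →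
      Fin.IsAuxLevel M q → ∀ A : ValuationSubring (AlgebraicClosure ℚ), A.LiesOverPrime q →
        ∀ k : ℕ, InstGoal M q A (p ^ k)) : Fin.AuxInertiaNewTors p := by
  intro M q _ _ _ hq hqM hqp haux
  refine Fin.inertiaNewTors_of_forall (N := M * q) (q := q) hq.two_le
    (fun A hA k x hx hnew hfix => ?_)
  exact smul_eq_zero_of_instGoal (h M q hq hqM hqp haux A hA k) hx hnew hfix

/-- **`InertiaKillTors` from the instance** (the hypothesis of the frozen S36 in the form of
`S36lib.s36_statement_of_inertiaKill`). -/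
theorem inertiaKillTors_of_instGoal {M₀ p : ℕ} [NeZero M₀] (hp : p.Prime)
    {g : CuspForm (Gamma0 M₀) 2} (hg : g.IsNewform)
    (h : ∀ (M q : ℕ) [NeZero M] [NeZero q] [NeZero (M * q)], q.Prime → ¬ q ∣ M → q ≠ p →
      Fin.IsAuxLevel M q → ∀ A : ValuationSubring (AlgebraicClosure ℚ), A.LiesOverPrime q →
        ∀ k : ℕ, InstGoal M q A (p ^ k)) : InertiaKillTors M₀ p g :=
  Fin.inertiaKillTors_of_aux hp hg (auxInertiaNewTors_of_instGoal p h)

end Fermat.Agent.S36lib.J
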