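/-
S36lib / J / Goal  (helper4, architect)  --  `InstGoal` FROM THE THREE BIG BRICKS

For the modular thick datum `D = Inst.modThick M q A hqM hA V₁ V₂ V₃` (ANY `K`-rational `V₁ V₂ V₃`; the
datum with a changed uniformizer `Reg.thickWithUnif D ϖ h0 hv` is `modThick V₁ (ramWithUnif V₂ ϖ h0 hv) V₃`
by `rfl`: `thickWithUnif_modThick`) and the modular low datum
`L = Inst.modLow M q A hqM hA (gaussOneK …) (gaussTwoK …)`:

  `ThickCtx D g gM gM gM`  +  `AlphaData D L (alphaFix …) q refl refl (VqR hA)`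
     +  `BetaData D L (betaFix …) q (VqR hA) refl refl`  +  `V₁.O ≠ V₃.O`   ⟹   `InstGoal M q A n`

(`n ≠ 0` prime to `q`).  Everything else of `ChainCtx` (Kummer system, charts of the norms, the level
`M q` fields, residue norm maps, values at the nodes, retractions) is assembled here from the
delivered bricks (helper3 `Fin/ChartFam`, `Fin/ChartInst`; helper5 `Inst/*`; helper7 `Norm/*`;
helper1 `Desc2/Places`; `J/LowMod`).
-/
import Fermat.Agent.S36lib.J.Final
import Fermat.Agent.S36lib.J.LowMod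
import Fermat.Agent.S36lib.Inst.Ctx
import Fermat.Agent.S36lib.Norm.RowsInst
import Fermat.Agent.S36lib.Norm.ChartNorm
import Fermat.Agent.S36lib.Desc2.Places
import Fermat.Agent.S36lib.Thick.Main

set_option autoImplicit false
set_option linter.unusedSectionVars false
set_option linter.unusedVariables false
set_option linter.style.haveILetI false

noncomputable section

namespace Fermat.Agent.S36lib.J

open AlgebraicCurve ModularCurve Module
open Fermat.Agent.S18lib Fermat.Agent.ProgramR Fermat.Agent.LSb Fermat.Agent.LSb.Unit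
open Fermat.Agent.S36lib.Desc Fermat.Agent.S36lib.Desc2 Fermat.Agent.S36lib.Inst
open Fermat.Agent.S36lib.Thick Fermat.Agent.S36lib.Norm
open Fermat.Agent.S37lib.HeckeInst (FB)

local notation "Qb" => AlgebraicClosure ℚ

variable {M q : ℕ} [NeZero M] [NeZero q] [hq : Fact q.Prime]
variable {A : ValuationSubring (AlgebraicClosure ℚ)} {hqM : ¬ q ∣ M} {hA : A.LiesOverPrime q}

/-- the residue field of `Wfix A` has characteristic `q`: a number prime to `q` is nonzero in it -/
theorem natCast_resW_ne_zero (hA : A.LiesOverPrime q) {n : ℕ} (hqn : Nat.Coprime q n) :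
    (n : IsLocalRing.ResidueField (Wfix A)) ≠ 0 := by
  intro h
  have := Old.charP_kRes hA
  have h1 : ((n : ℕ) : IsLocalRing.ResidueField A) = 0 := by
    have := congrArg (resMap A) h
    rwa [map_natCast, map_zero] at this
  have h2 : q ∣ n := (CharP.cast_eq_zero_iff (IsLocalRing.ResidueField A) q n).1 h1
  have h3 : q ∣ 1 := by
    have := Nat.dvd_gcd (dvd_refl q) h2
    rwa [hqn] at this
  exact hq.out.one_lt.ne' (Nat.dvd_one.1 h3)

variable [HasPrincipalDivisors (IsLocalRing.ResidueField (Wfix A)) (FRes A M)]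

/-- changing the uniformizer of the modular thick datum = changing it in `V₂` -/
theorem thickWithUnif_modThick (V₁ V₃ : GaussDatum (Wfix A) (FTop M q A) (FRes A M))
    (V₂ : RamGaussDatum (Wfix A) (FTop M q A) (FRes A M)) (ϖ : FTop M q A)
    (h0 : (modThick M q A hqM hA V₁ V₂ V₃).V₂.unif ≠ 0)
    (hv : (modThick M q A hqM hA V₁ V₂ V₃).V₂.O.valuation ϖ =
      (modThick M q A hqM hA V₁ V₂ V₃).V₂.O.valuation (modThick M q A hqM hA V₁ V₂ V₃).V₂.unif) :
    Reg.thickWithUnif (modThick M q A hqM hA V₁ V₂ V₃) ϖ h0 hv =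
      modThick M q A hqM hA V₁ (Reg.ramWithUnif V₂ ϖ h0 hv) V₃ := rfl

variable [NeZero (M * q)]
variable [HasPrincipalDivisors (AlgebraicClosure ℚ) (FBar M)]
variable [HasPrincipalDivisors (AlgebraicClosure ℚ) (FBar (M * q))]
variable [HasPrincipalDivisors (IsLocalRing.ResidueField A) (FRes A M)]

/-- **`InstGoal` from `ThickCtx`, `AlphaData`, `BetaData`** for the modular data. -/
theorem instGoal_of_bricks {n g gM : ℕ} (hn : n ≠ 0) (hqn : Nat.Coprime q n)
    (hF : IsCurveOfGenus Qb (FB (M * q * q)) g)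
    (hFk : IsCurveOfGenus (IsLocalRing.ResidueField A) (FRes A M) gM)
    (V₁ V₃ : GaussDatum (Wfix A) (FTop M q A) (FRes A M))
    (V₂ : RamGaussDatum (Wfix A) (FTop M q A) (FRes A M))
    (C : ThickCtx (modThick M q A hqM hA V₁ V₂ V₃) g gM gM gM)
    (Xα : AlphaData (modThick M q A hqM hA V₁ V₂ V₃)
      (modLow M q A hqM hA (gaussOneK M q A hqM hA) (gaussTwoK M q A hqM hA))
      (alphaFix M q (HI A)) q (RingEquiv.refl (FRes A M)) (RingEquiv.refl (FRes A M)) (VqR hA))
    (Xβ : BetaData (modThick M q A hqM hA V₁ V₂ V₃)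
      (modLow M q A hqM hA (gaussOneK M q A hqM hA) (gaussTwoK M q A hqM hA))
      (betaFix M q (HI A)) q (VqR hA) (RingEquiv.refl (FRes A M)) (RingEquiv.refl (FRes A M)))
    (ne₁₃ : V₁.O ≠ V₃.O) :
    InstGoal M q A n := by
  haveI := charP_FRes (M := M) hA
  have hFB := S37lib.HeckeInst.hasPrincipalDivisors_FB (M * q * q)
  set D := modThick M q A hqM hA V₁ V₂ V₃ with hD
  set L := modLow M q A hqM hA (gaussOneK M q A hqM hA) (gaussTwoK M q A hqM hA) with hL
  set I := constIso hq.out hA M with hI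
  have CH : Fin.ChartHyp (M * q * q) (HI A) (chartP₁ M q A) (chartP₂ M q A hqM hA) g :=
    Fin.chartHyp_polesOf_zerosOf hF (jTop M q A) ((c0W M q A hqM hA : Wfix A) : Kfix A)
  have HC : Fin.HasCharts D (chartP₁ M q A) (chartP₂ M q A hqM hA) :=
    ⟨fun _ _ => rfl, degree_chartP₁.symm, degree_chartP₂.symm⟩
  -- the charts of the norms
  have hreg : ∀ (a : ℕ) (f : FTop M q A), f ∈ D.𝓛 a 0 →
      ((f : FTop M q A) : FB (M * q * q)) ∈ regAway Qb (Gin0.jF (M * q * q)) := by
    intro a f hf
    have h1 : ((f : FTop M q A) : FB (M * q * q)) ∈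
        riemannRochSpace (LSb.Core.lin2 (chartP₁ M q A) (chartP₂ M q A hqM hA) (a : ℕ) (0 : ℕ)) :=
      Fin.mem_chartL.1 hf
    rw [← coe_jTop (M := M) (q := q) (A := A)]
    apply mem_regAway_of_mem_rr a
    have e : LSb.Core.lin2 (chartP₁ M q A) (chartP₂ M q A hqM hA) ((a : ℕ) : ℤ) ((0 : ℕ) : ℤ) =
        (a : ℤ) • polesOf (K := Qb) ((jTop M q A : FTop M q A) : FB (M * q * q)) := by
      rw [LSb.Core.lin2, Nat.cast_zero, zero_smul, add_zero]
      rfl
    rw [← e]
    exact h1
  refine ⟨D, L, g, gM, gM, gM, gM, gM, Fin.kummerSystem CH HC hn,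
    ⟨normMonoidHom (alphaFix M q (HI A)), normMonoidHom (betaFix M q (HI A)),
      MonoidHom.id _, MonoidHom.id _, frobCoeffM hA, frobCoeffM hA, MonoidHom.id _, MonoidHom.id _,
      nodeα M q A hqM hA, nodeβ M q A hqM hA⟩, ?_, ?_, ?_, ?_⟩
  · exact
    { thick := C
      twist := C.existsTwistStatement
      nondeg := C.nondegStatement
      core := C.thickCoreStatement
      hn := natCast_resW_ne_zero hA hqn
      hq := hq.out.two_le
      hqn := hqn
      he := rfl
      const00 := HC.const00 CH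
      ne₁₂ := Xα.ne₁₂
      ne₁₃ := ne₁₃
      ne₂₃ := Xβ.ne₂₃
      hG₁ := modLow_isCurveOfGenus M q A hA hFk
      hG₂ := modLow_isCurveOfGenus M q A hA hFk
      low_smul := modLow_smul M q A hqM hA _ _
      low_root := modLow_root M q A hqM hA _ _ hn
      low_glue := modLow_glue M q A hqM hA _ _ hFk
        (fun _ => mem_gaussOneK_O M q A hqM hA) (gaussOneK_redF M q A hqM hA)
        (fun _ => mem_gaussTwoK_O M q A hqM hA) (gaussTwoK_redF M q A hqM hA)
      normα := normCtx_alpha I (alphaFix_algebraMap M q (HI A)) hA Xα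
        (fun a f hf => coe_normHom_alphaFix_mem_regAway M q (HI A) hq.out hqM f (hreg a f hf))
        (nodeα M q A hqM hA) (fun c => Fin.append_right _ _ c)
        (ssPt M q A hqM hA) (fun c => rfl) (fun c => Fin.append_right _ _ c)
      normβ := normCtx_beta I (betaFix_algebraMap M q (HI A)) hA Xβ
        (fun a f hf => coe_normHom_betaFix_mem_regAway M q (HI A) hq.out hqM f (hreg a f hf))
        (nodeβ M q A hqM hA) (fun c => Fin.append_left _ _ c)
        (ssPt M q A hqM hA) (fun c => rfl) (fun c => Fin.append_left _ _ c)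
      ordα₁ := Xα.ord₁
      ordα₂ := Xα.ord₂
      ordβ₁ := Xβ.ord₁
      ordβ₂ := Xβ.ord₂
      retr₁ := retr_frobCoeffM I hA
      retr₂ := retr_id
      retr₃ := retr_frobCoeffM I hA }
  · intro u hu hE
    exact ⟨hu, hE⟩
  · intro u
    exact coe_normHom_alphaFix M q (HI A) hq.out hqM u
  · intro u
    exact coe_normHom_betaFix M q (HI A) hq.out hqM u

end Fermat.Agent.S36lib.J
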