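/-
S36lib / J / Top  (helper4, architect)  --  FROM THE THREE MODULAR BRICKS TO `InertiaKillTors`

`ModBricks M q A hqM hA g gM` : there are `K`-rational data `V₁ V₃ : GaussDatum`, `V₂ : RamGaussDatum`
on `fixF (M q²) I` with
  * `ThickCtx (Inst.modThick … V₁ V₂ V₃) g gM gM gM`,
  * `AlphaData (modThick …) (modLow … gaussOneK gaussTwoK) (alphaFix …) q refl refl (VqR hA)`,
  * `BetaData  (modThick …) (modLow … gaussOneK gaussTwoK) (betaFix …)  q (VqR hA) refl refl`,
  * `V₁.O ≠ V₃.O`.

* `count_of_isAuxLevel`        : the field `count` of `ThickCtx` at the auxiliary levels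
                                 (`g + q ≤ (q + 1) (gM + nS)`, helper5's `Count/ModSq`);
* `instGoal_of_modBricks`      : `ModBricks ⟹ InstGoal M q A n` (`n ≠ 0` prime to `q`);
* `inertiaKillTors_of_modBricks` : `ModBricks` at all auxiliary levels `⟹ InertiaKillTors M₀ p f`,
  the hypothesis of `S36lib.s36_statement_of_inertiaKill` (= the frozen S36).
-/
import Fermat.Agent.S36lib.J.Goal
import Fermat.Agent.S36lib.Count.ModSq
import Fermat.Agent.S37lib.B3.InstBase

set_option autoImplicit false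
set_option linter.unusedSectionVars false
set_option linter.unusedVariables false
set_option linter.style.haveILetI false

noncomputable section

namespace Fermat.Agent.S36lib.J

open AlgebraicCurve ModularCurve Module CuspForm CongruenceSubgroup
open Fermat.Agent.S18lib Fermat.Agent.ProgramR Fermat.Agent.LSb Fermat.Agent.LSb.Unit
open Fermat.Agent.S36lib.Desc Fermat.Agent.S36lib.Desc2 Fermat.Agent.S36lib.Inst
open Fermat.Agent.S36lib.Thick Fermat.Agent.S36lib.Norm
open Fermat.Agent.S37lib.HeckeInst (FB)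

local notation "Qb" => AlgebraicClosure ℚ

/-! ### the count at the auxiliary levels -/

/-- **the field `count` of `ThickCtx` at an auxiliary level**: `g + q ≤ (q + 1) (gM + nS)` -/
theorem count_of_isAuxLevel {M q : ℕ} [NeZero M] [NeZero q] [hq : Fact q.Prime]
    {A : ValuationSubring (AlgebraicClosure ℚ)} (hqM : ¬ q ∣ M) (hA : A.LiesOverPrime q)
    (haux : Fin.IsAuxLevel M q) [NeZero (M * q * q)] {g gM : ℕ}
    (hF : IsCurveOfGenus Qb (FBar (M * q * q)) g)
    (hFk : IsCurveOfGenus (IsLocalRing.ResidueField A) (FRes A M) gM) :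
    g + q ≤ (q + 1) * (gM + nS M q A hqM hA) := by
  have h1 := isGaussOne_nodeD1 M q A hqM hA
  rcases Fin.prime_cases hq.out with h2 | h3 | h5
  · subst h2
    exact Count.count_sq_mod_two (Fin.nine_dvd_of_isAuxLevel_two haux) hqM hA h1 hF hFk
  · subst h3
    exact Count.count_sq_mod_three (Fin.four_dvd_of_isAuxLevel_three haux) hqM hA h1 hF hFk
  · exact Count.count_sq_mod_five_le h5 hqM hA (Fin.nuTwo_eq_zero_of_isAuxLevel h5 haux)
      (Fin.nuThree_eq_zero_of_isAuxLevel h5 haux) h1 hF hFk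

/-! ### the three bricks -/

section Bricks

variable (M q : ℕ) [NeZero M] [NeZero q] [hq : Fact q.Prime]
variable (A : ValuationSubring (AlgebraicClosure ℚ)) (hqM : ¬ q ∣ M) (hA : A.LiesOverPrime q)
variable [HasPrincipalDivisors (IsLocalRing.ResidueField (Wfix A)) (FRes A M)]

/-- **what the modular instance has to deliver** at `(M, q, A)` for the genera `g` (of `X₀(M q²)`)
and `gM` (of `X₀(M)` in characteristic `q`). -/
def ModBricks (g gM : ℕ) : Prop :=
  ∃ (V₁ V₃ : GaussDatum (Wfix A) (FTop M q A) (FRes A M))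
    (V₂ : RamGaussDatum (Wfix A) (FTop M q A) (FRes A M)),
    ThickCtx (modThick M q A hqM hA V₁ V₂ V₃) g gM gM gM ∧
    AlphaData (modThick M q A hqM hA V₁ V₂ V₃)
      (modLow M q A hqM hA (gaussOneK M q A hqM hA) (gaussTwoK M q A hqM hA))
      (alphaFix M q (HI A)) q (RingEquiv.refl (FRes A M)) (RingEquiv.refl (FRes A M)) (VqR hA) ∧
    BetaData (modThick M q A hqM hA V₁ V₂ V₃)
      (modLow M q A hqM hA (gaussOneK M q A hqM hA) (gaussTwoK M q A hqM hA))
      (betaFix M q (HI A)) q (VqR hA) (RingEquiv.refl (FRes A M)) (RingEquiv.refl (FRes A M)) ∧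
    V₁.O ≠ V₃.O

variable {M q A hqM hA}
variable [NeZero (M * q)]
variable [HasPrincipalDivisors (AlgebraicClosure ℚ) (FBar M)]
variable [HasPrincipalDivisors (AlgebraicClosure ℚ) (FBar (M * q))]
variable [HasPrincipalDivisors (IsLocalRing.ResidueField A) (FRes A M)]

theorem instGoal_of_modBricks {n g gM : ℕ} (hn : n ≠ 0) (hqn : Nat.Coprime q n)
    (hF : IsCurveOfGenus Qb (FB (M * q * q)) g)
    (hFk : IsCurveOfGenus (IsLocalRing.ResidueField A) (FRes A M) gM)
    (h : ModBricks M q A hqM hA g gM) : InstGoal M q A n := by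
  obtain ⟨V₁, V₃, V₂, C, Xα, Xβ, ne⟩ := h
  exact instGoal_of_bricks hn hqn hF hFk V₁ V₃ V₂ C Xα Xβ ne

end Bricks

/-! ### the top -/

/-- **`InertiaKillTors` from the three bricks at the auxiliary levels.** -/
theorem inertiaKillTors_of_modBricks {M₀ p : ℕ} [NeZero M₀] (hp : p.Prime)
    {f : CuspForm (Gamma0 M₀) 2} (hf : f.IsNewform)
    (h : ∀ (M q : ℕ) [NeZero M] [NeZero q] [Fact q.Prime] [NeZero (M * q)] [NeZero (M * q * q)]
      (hqM : ¬ q ∣ M), Fin.IsAuxLevel M q →
      ∀ (A : ValuationSubring (AlgebraicClosure ℚ)) (hA : A.LiesOverPrime q)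
        [HasPrincipalDivisors (IsLocalRing.ResidueField A) (FRes A M)]
        [HasPrincipalDivisors (IsLocalRing.ResidueField (Wfix A)) (FRes A M)]
        [HasPrincipalDivisors Qb (FBar M)] [HasPrincipalDivisors Qb (FBar (M * q))]
        [HasPrincipalDivisors Qb (FBar (M * q * q))] (g gM : ℕ),
        IsCurveOfGenus Qb (FBar (M * q * q)) g →
        IsCurveOfGenus (IsLocalRing.ResidueField A) (FRes A M) gM →
        g + q ≤ (q + 1) * (gM + nS M q A hqM hA) →
        ModBricks M q A hqM hA g gM) :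
    InertiaKillTors M₀ p f := by
  refine inertiaKillTors_of_instGoal hp hf ?_
  intro M q _ _ _ hq hqM hqp haux A hA k
  haveI : Fact q.Prime := ⟨hq⟩
  haveI : NeZero (M * q * q) := ⟨Nat.mul_ne_zero (NeZero.ne (M * q)) (NeZero.ne q)⟩
  obtain ⟨g, hF, -⟩ := Gin0.exists_isCurveOfGenus_FBar (M * q * q)
  obtain ⟨gM, hFk⟩ := S37lib.B3.exists_isCurveOfGenus_FRes (A := A) M hqM hA
  haveI : HasPrincipalDivisors (IsLocalRing.ResidueField A) (FRes A M) := hFk.hasPrincipalDivisors
  haveI : HasPrincipalDivisors (IsLocalRing.ResidueField (Wfix A)) (FRes A M) :=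
    hasPrincipalDivisors_resW hq hA hFk.hasPrincipalDivisors
  haveI : HasPrincipalDivisors Qb (FBar M) := S37lib.HeckeInst.hasPrincipalDivisors_FB M
  haveI : HasPrincipalDivisors Qb (FBar (M * q)) := S37lib.HeckeInst.hasPrincipalDivisors_FB (M * q)
  haveI : HasPrincipalDivisors Qb (FBar (M * q * q)) :=
    S37lib.HeckeInst.hasPrincipalDivisors_FB (M * q * q)
  have hqn : Nat.Coprime q (p ^ k) :=
    Nat.Coprime.pow_right k ((Nat.coprime_primes hq hp).2 hqp)
  exact instGoal_of_modBricks (pow_ne_zero k hp.ne_zero) hqn hF hFk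
    (h M q hqM haux A hA g gM hF hFk (count_of_isAuxLevel hqM hA haux hF hFk))

end Fermat.Agent.S36lib.J
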