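/-
S36lib / J / TripleOrd  (helper4)  --  ORDERS AT THE TRIPLE POINTS (inputs of `Reg.Rows.regData`,
`Fin.glueAt_of_rows`, `Mid.TowerData`, `Norm.AlphaData/BetaData` for the modular instance)

`κ = FRes A M`, `V = VqR hA` (`t ↦ t^q`), `H = LSb.Unit.H₂ (Inst.nodeD1 M q A hqM hA)`,
`x = Inst.triplePt M q A hqM hA c` (a place over `kW = ResidueField (Wfix A)`).

* `finrankHom_VqR`, `finiteHom_VqR`      : `[κ : V κ] = q`  (fields `finV`, `degV` of `Mid.TowerData`;
                                            `resdeg` of `AlphaData`/`BetaData` is `finrankHom_VqR` by `rfl`);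
* `deg_triplePt`                          : `x.deg = 1`                                   (`hd₁ hd₃`, `hdeg`);
* `H₂_nodeD1_ne_zero`                     : `H ≠ 0`                                       (`hH`);
* `adicValuation_H₂_triplePt_lt_one`      : `x.adicValuation H < 1`                       (`hHx`);
* `ord_H₂_triplePt`                       : `x.ord H = 12` at an auxiliary level          (`hoH₁ hoH₃`);
* `ord_VqR_H₂_triplePt`                   : `x.ord (V H) = ((q - 1 : ℕ) + 1) * 12`        (`hoVH`, `e = q - 1`);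
* `two_le_ord_VqR_VqR_triplePt`           : `0 < x.ord (V (V z)) → 2 ≤ x.ord (V (V z))`    (`hω₁ hω₃`).
-/
import Fermat.Agent.S36lib.Inst.Ctx
import Fermat.Agent.S36lib.Count.FrobNodes
import Fermat.Agent.S36lib.Fin.AuxLevel
import Fermat.Agent.S36lib.Reg.FrobOrd
import Fermat.Agent.S36lib.Norm.Along
import Fermat.Agent.LSc.Inst.DegInst

set_option autoImplicit false
set_option linter.unusedSectionVars false
set_option linter.unusedVariables false
set_option linter.style.haveILetI false

noncomputable section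

namespace Fermat.Agent.S36lib.J

open AlgebraicCurve ModularCurve Module
open Fermat.Agent.S18lib Fermat.Agent.ProgramR Fermat.Agent.LSb Fermat.Agent.LSb.Unit
open Fermat.Agent.S36lib.Desc Fermat.Agent.S36lib.Inst Fermat.Agent.S36lib.Norm

local notation "Qb" => AlgebraicClosure ℚ

variable {M q : ℕ} [NeZero M] [NeZero q] [hq : Fact q.Prime]
variable {A : ValuationSubring (AlgebraicClosure ℚ)}

/-! ### the degree of `V` -/

/-- **`[κ : V κ] = q`** -/
theorem finrankHom_VqR (hqM : ¬ q ∣ M) (hA : A.LiesOverPrime q) :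
    finrankHom (VqR (M := M) hA) = q :=
  LSc.Inst.finrank_Vq_toAlgebra hqM hA (Val.isGaussOne_gaussOne M q A hqM hA)
    (Val.isGaussTwo_gaussTwo M q A hqM hA) (fun x => Val.wq_wq M q hq.out hqM x)

/-- a homomorphism of fields of positive degree is finite -/
theorem finiteHom_of_finrankHom_pos {B C : Type*} [Field B] [Field C] (ψ : B →+* C)
    (h : 0 < finrankHom ψ) : FiniteHom ψ := by
  letI := ψ.toAlgebra
  exact Module.finite_of_finrank_pos h

theorem finiteHom_VqR (hqM : ¬ q ∣ M) (hA : A.LiesOverPrime q) :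
    FiniteHom (VqR (M := M) hA) :=
  finiteHom_of_finrankHom_pos _ (by rw [finrankHom_VqR hqM hA]; exact hq.out.pos)

/-! ### the triple points -/

variable {hqM : ¬ q ∣ M} {hA : A.LiesOverPrime q}

theorem ord_triplePt (c : Fin (nS M q A hqM hA)) (z : FRes A M) :
    (triplePt M q A hqM hA c).ord z = (ssPt M q A hqM hA c).ord z := rfl

/-- the triple points have degree one -/
theorem deg_triplePt {gM : ℕ}
    (hFk : IsCurveOfGenus (IsLocalRing.ResidueField A) (FRes A M) gM)
    (c : Fin (nS M q A hqM hA)) : (triplePt M q A hqM hA c).deg = 1 := by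
  show ((constIso hq.out hA M).place (ssPt M q A hqM hA c)).deg = 1
  rw [(constIso hq.out hA M).deg_place]
  exact hFk.deg_eq_one _

theorem H₂_nodeD1_ne_zero : H₂ (nodeD1 M q A hqM hA) ≠ 0 :=
  H₂_ne_zero (isGaussOne_nodeD1 M q A hqM hA)

/-- `H` vanishes at the triple points -/
theorem adicValuation_H₂_triplePt_lt_one (c : Fin (nS M q A hqM hA)) :
    (triplePt M q A hqM hA c).adicValuation (H₂ (nodeD1 M q A hqM hA)) < 1 := by
  have h := Count.modX₂_mem' (D1 := nodeD1 M q A hqM hA) c
  rw [modNodes, mem_nodeSet] at h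
  exact h.2

/-- **`ord_x H = 12`** at an auxiliary level -/
theorem ord_H₂_triplePt (haux : Fin.IsAuxLevel M q) (c : Fin (nS M q A hqM hA)) :
    (triplePt M q A hqM hA c).ord (H₂ (nodeD1 M q A hqM hA)) = 12 := by
  rw [ord_triplePt]
  have h1 := isGaussOne_nodeD1 M q A hqM hA
  have hx := Count.modX₂_mem' (D1 := nodeD1 M q A hqM hA) c
  rcases Fin.prime_cases hq.out with h2 | h3 | h5
  · subst h2
    exact Count.ord_H₂_eq_twelve_two (Fin.nine_dvd_of_isAuxLevel_two haux) hqM hA h1 hx
  · subst h3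
    exact Count.ord_H₂_eq_twelve_three (Fin.four_dvd_of_isAuxLevel_three haux) hqM hA h1 hx
  · exact Count.ord_H₂_eq_twelve_five_le h5 hqM hA (Fin.nuTwo_eq_zero_of_isAuxLevel h5 haux)
      (Fin.nuThree_eq_zero_of_isAuxLevel h5 haux) h1 hx

/-- **`ord_x (V H) = q · 12`**, in the shape `((e : ℤ) + 1) * m` with `e = q - 1`, `m = 12` -/
theorem ord_VqR_H₂_triplePt (haux : Fin.IsAuxLevel M q) (c : Fin (nS M q A hqM hA)) :
    (triplePt M q A hqM hA c).ord (VqR hA (H₂ (nodeD1 M q A hqM hA))) =
      (((q - 1 : ℕ) : ℤ) + 1) * ((12 : ℕ) : ℤ) := by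
  rw [Count.VqR_H₂ hA (isGaussOne_nodeD1 M q A hqM hA), S18lib.Cech.ord_pow,
    ord_H₂_triplePt haux c, Nat.cast_sub hq.out.one_le]
  push_cast
  ring

/-- `V (V z)` has no simple zeros -/
theorem two_le_ord_VqR_VqR_triplePt (c : Fin (nS M q A hqM hA)) (z : FRes A M)
    (h : 0 < (triplePt M q A hqM hA c).ord (VqR hA (VqR hA z))) :
    2 ≤ (triplePt M q A hqM hA c).ord (VqR hA (VqR hA z)) := by
  rw [ord_triplePt] at h ⊢
  have h1 := Reg.ord_VqR_VqR_ge_of_pos hA (ssPt M q A hqM hA c) h
  have h2 : (2 : ℤ) ≤ q := by exact_mod_cast hq.out.two_le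
  nlinarith

end Fermat.Agent.S36lib.J
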