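/-
S36lib / J / Bricks  (helper4, architect)  --  `J.ModBricks` FROM `RegData` ALONE

For the concrete data of helper5's `Inst/Top` (`topD = modThick topV₁ topV₂ topV₃`, `lowD`), everything
of `J.ModBricks M q A hqM hA g gM` except helper8's `RegData` is assembled here from the delivered
bricks:

* `towerTop`, `rowsTop`          : helper8's `Mid.towerDataK`, `Mid.rowsK` retyped for `topV₁ topV₂ topV₃`;
* `topD_hD`                      : (N1)   = helper1 `Desc2.hasLatticeBases_of_towerData_gaussMK`;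
* `topD_chart₁ ₂ ₃`              : (CHART) = helper7 `Norm.modThick_chart₁ ₂ ₃`;
* `topD_glue`                    : (GLUE)  = helper3 `Fin.modThick_glue`;
* `topD_thickBase_closed`        : `Reg.ThickBase topD g gM gM gM` from `hF hFk hcount` only;
* `finD ϖ h0 hv`                 : the final datum `modThick topV₁ (ramWithUnif topV₂ ϖ h0 hv) topV₃`
                                   (`= Reg.thickWithUnif topD ϖ h0 hv` by `rfl`);
* `finD_alphaData`, `finD_betaData` : (T2), (T3) = helper7 `alphaData_of_rows/betaData_of_rows` on `rowsTop`,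
                                   helper9's `Val.ne₁₂/ne₂₃_ramWithUnif`, `J.finrankHom_VqR`;
* **`modBricks_of_regData`**     : `RegData` at every triple point for SOME `ϖ` (+ chart memberships of
                                   `f₁ f₃ ϖ`) `⟹ J.ModBricks M q A hqM hA g gM`.
-/
import Fermat.Agent.S36lib.Inst.ThickTop
import Fermat.Agent.S36lib.Mid.OverM
import Fermat.Agent.S36lib.Desc2.ThickLatticeInst
import Fermat.Agent.S36lib.Norm.ChartInst
import Fermat.Agent.S36lib.Fin.GlueInst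
import Fermat.Agent.S36lib.J.Top
import Fermat.Agent.S36lib.J.TripleOrd
import Fermat.Agent.S36lib.Val.Triple

set_option autoImplicit false
set_option linter.unusedSectionVars false
set_option linter.unusedVariables false
set_option linter.style.haveILetI false

noncomputable section

namespace Fermat.Agent.S36lib.J

open AlgebraicCurve ModularCurve IsLocalRing
open Fermat.Agent.S18lib Fermat.Agent.ProgramR
open Fermat.Agent.S36lib Fermat.Agent.S36lib.Thick Fermat.Agent.S36lib.Desc Fermat.Agent.S36lib.Desc2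
open Fermat.Agent.S36lib.Inst Fermat.Agent.S36lib.Norm Fermat.Agent.S36lib.Mid
open Fermat.Agent.S37lib.HeckeInst (FB)
open Fermat.Agent.LSb (HasValueAt)

local notation "Qb" => AlgebraicClosure ℚ

variable {M q : ℕ} [NeZero M] [NeZero q] [hq : Fact q.Prime] {A : ValuationSubring Qb}
  {hqM : ¬ q ∣ M} {hA : A.LiesOverPrime q}

variable [HasPrincipalDivisors (IsLocalRing.ResidueField A) (FRes A M)]
variable [HasPrincipalDivisors (IsLocalRing.ResidueField (Wfix A)) (FRes A M)]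
variable [HasPrincipalDivisors Qb (FBar M)]

theorem towerTop : TowerData (alphaFixM M q (HI A)) (betaFixM M q (HI A))
      (alphaFix M q (HI A)) (LSb.Unit.VqR (M := M) hA) q (q - 1)
      (ofGauss (gaussMK M A hqM hA)) (ofGauss (gaussOneK M q A hqM hA))
      (ofGauss (gaussTwoK M q A hqM hA)) (ofGauss (topV₁ M q A hqM hA))
      (ofRamGauss (topV₂ M q A hqM hA)) (ofGauss (topV₃ M q A hqM hA))
      (qFix A q M) (qFix A q (M * q)) (qFix A q (M * q * q)) (topV₂ M q A hqM hA).unif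
      (qFix A q (M * q * q)) := towerDataK M q A hqM hA

theorem topD_hD : (topD M q A hqM hA).HasLatticeBases :=
  hasLatticeBases_of_towerData_gaussMK M A hqM hA (topD M q A hqM hA) (qK_mem A q)
    (qK_ne_zero hq.out) modThick_e_pos (topD_unif_pow M q A hqM hA) (towerTop (hqM := hqM) (hA := hA))
    (fun c => by rw [alphaFixM_algebraMap, alphaFix_algebraMap]) rfl rfl rfl

theorem topD_chart₁ (a b : ℕ) (f : FTop M q A) (hf : f ∈ (topD M q A hqM hA).𝓛 a b)
    (hfO : f ∈ (topD M q A hqM hA).O) :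
    (topD M q A hqM hA).V₁.redF f ∈ riemannRochSpace ((topD M q A hqM hA).chartDiv₁ a b) :=
  modThick_chart₁ (towerTop (hqM := hqM) (hA := hA)) (compat_gaussMK M A hqM hA)
    (fun c => LSb.Unit.VqR_algebraMap hA _) a b f hf hfO

theorem topD_chart₂ (a b : ℕ) (f : FTop M q A) (hf : f ∈ (topD M q A hqM hA).𝓛 a b)
    (hfO : f ∈ (topD M q A hqM hA).O) :
    (topD M q A hqM hA).red₂ f ∈ riemannRochSpace ((topD M q A hqM hA).chartDiv₂ a b) :=
  modThick_chart₂ (towerTop (hqM := hqM) (hA := hA)) (compat_gaussMK M A hqM hA)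
    (fun c => LSb.Unit.VqR_algebraMap hA _) a b f hf hfO

theorem topD_chart₃ (a b : ℕ) (f : FTop M q A) (hf : f ∈ (topD M q A hqM hA).𝓛 a b)
    (hfO : f ∈ (topD M q A hqM hA).O) :
    (topD M q A hqM hA).V₃.redF f ∈ riemannRochSpace ((topD M q A hqM hA).chartDiv₃ a b) :=
  modThick_chart₃ (towerTop (hqM := hqM) (hA := hA)) (compat_gaussMK M A hqM hA)
    (fun c => LSb.Unit.VqR_algebraMap hA _) a b f hf hfO

theorem rowsTop : Reg.Rows (alphaFixM M q (HI A)) (betaFixM M q (HI A))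
      (alphaFix M q (HI A)) (betaFix M q (HI A))
      (LSb.Unit.VqR (M := M) hA) (ofGauss (gaussMK M A hqM hA)) (ofGauss (gaussOneK M q A hqM hA))
      (ofGauss (gaussTwoK M q A hqM hA)) (Reg.pl₁ (topD M q A hqM hA))
      (Reg.pl₂ (topD M q A hqM hA)) (Reg.pl₃ (topD M q A hqM hA)) := rowsK M q A hqM hA

theorem topD_glue {g gM : ℕ} (hF : IsCurveOfGenus Qb (FB (M * q * q)) g)
    (hFk : IsCurveOfGenus (IsLocalRing.ResidueField A) (FRes A M) gM) :
    ∀ (a b : ℕ) (f : FTop M q A), f ∈ (topD M q A hqM hA).𝓛 a b →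
      f ∈ (topD M q A hqM hA).O → ∀ c, ∃ α : IsLocalRing.ResidueField (Wfix A),
      HasValueAt ((topD M q A hqM hA).x₁ c) ((topD M q A hqM hA).V₁.redF f) α ∧
        HasValueAt ((topD M q A hqM hA).x₂ c) ((topD M q A hqM hA).red₂ f) α ∧
        HasValueAt ((topD M q A hqM hA).x₃ c) ((topD M q A hqM hA).V₃.redF f) α :=
  Fin.modThick_glue (WM := ofGauss (gaussMK M A hqM hA)) (W₁ := ofGauss (gaussOneK M q A hqM hA))
    (W₂ := ofGauss (gaussTwoK M q A hqM hA)) hFk hF (redJ_top M q A hqM hA)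
    (fun y => mem_gaussMK_O M A hqM hA) (fun y => gaussMK_redF M A hqM hA y)
    (fun y => gaussOneK_redF M q A hqM hA y) (fun y => gaussTwoK_redF M q A hqM hA y)
    (rowsTop (hqM := hqM) (hA := hA)) topD_chart₁ topD_chart₂ topD_chart₃

theorem topD_thickBase_closed {g gM : ℕ} (hF : IsCurveOfGenus Qb (FB (M * q * q)) g)
    (hFk : IsCurveOfGenus (IsLocalRing.ResidueField A) (FRes A M) gM)
    (hcount : g + q ≤ (q + 1) * (gM + nS M q A hqM hA)) :
    Reg.ThickBase (topD M q A hqM hA) g gM gM gM :=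
  topD_thickBase hF hFk hcount topD_hD topD_chart₁ topD_chart₂ topD_chart₃ (topD_glue hF hFk)


variable [NeZero (M * q)]
variable [HasPrincipalDivisors Qb (FBar (M * q))]

/-- the final datum -/
abbrev finD (ϖ : FTop M q A) (h0 : (topD M q A hqM hA).V₂.unif ≠ 0)
    (hv : (topD M q A hqM hA).V₂.O.valuation ϖ =
      (topD M q A hqM hA).V₂.O.valuation (topD M q A hqM hA).V₂.unif) :=
  modThick M q A hqM hA (topV₁ M q A hqM hA) (Reg.ramWithUnif (topV₂ M q A hqM hA) ϖ h0 hv)
    (topV₃ M q A hqM hA)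

theorem finD_alphaData (ϖ : FTop M q A) (h0 : (topD M q A hqM hA).V₂.unif ≠ 0)
    (hv : (topD M q A hqM hA).V₂.O.valuation ϖ =
      (topD M q A hqM hA).V₂.O.valuation (topD M q A hqM hA).V₂.unif) {g gM : ℕ}
    (C : ThickCtx (finD (hqM := hqM) (hA := hA) ϖ h0 hv) g gM gM gM) :
    AlphaData (finD (hqM := hqM) (hA := hA) ϖ h0 hv) (lowD M q A hqM hA) (alphaFix M q (HI A)) q
      (RingEquiv.refl (FRes A M)) (RingEquiv.refl (FRes A M)) (LSb.Unit.VqR hA) :=
  alphaData_of_rows C (alphaFix_algebraMap M q (HI A)) (finiteHom_alphaFix M q (HI A) hq.out hqM)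
    (finrankHom_alphaFix M q (HI A) hq.out hqM)
    (by show 1 + (q - 1) = q; have := hq.out.one_le; omega)
    (rowsTop (hqM := hqM) (hA := hA)).p₁α (rowsTop (hqM := hqM) (hA := hA)).p₂α
    (rowsTop (hqM := hqM) (hA := hA)).p₃α
    (Val.ne₁₂_ramWithUnif M q A hqM hA ϖ h0 hv) (finrankHom_VqR hqM hA)
    (fun z => ⟨frobCoeffR hA z, VqR_frobCoeffR hA z⟩)

theorem finD_betaData (ϖ : FTop M q A) (h0 : (topD M q A hqM hA).V₂.unif ≠ 0)
    (hv : (topD M q A hqM hA).V₂.O.valuation ϖ =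
      (topD M q A hqM hA).V₂.O.valuation (topD M q A hqM hA).V₂.unif) {g gM : ℕ}
    (C : ThickCtx (finD (hqM := hqM) (hA := hA) ϖ h0 hv) g gM gM gM) :
    BetaData (finD (hqM := hqM) (hA := hA) ϖ h0 hv) (lowD M q A hqM hA) (betaFix M q (HI A)) q
      (LSb.Unit.VqR hA) (RingEquiv.refl (FRes A M)) (RingEquiv.refl (FRes A M)) :=
  betaData_of_rows C (betaFix_algebraMap M q (HI A)) (finiteHom_betaFix M q (HI A) hq.out hqM)
    (finrankHom_betaFix M q (HI A) hq.out hqM)
    (by show (q - 1) + 1 = q; have := hq.out.one_le; omega)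
    (rowsTop (hqM := hqM) (hA := hA)).p₁β (rowsTop (hqM := hqM) (hA := hA)).p₂β
    (rowsTop (hqM := hqM) (hA := hA)).p₃β
    (Val.ne₂₃_ramWithUnif M q A hqM hA ϖ h0 hv) (finrankHom_VqR hqM hA)
    (fun z => ⟨frobCoeffR hA z, VqR_frobCoeffR hA z⟩)


variable [NeZero (M * q * q)]

theorem modBricks_of_regData {g gM : ℕ} (hF : IsCurveOfGenus Qb (FBar (M * q * q)) g)
    (hFk : IsCurveOfGenus (IsLocalRing.ResidueField A) (FRes A M) gM)
    (hcount : g + q ≤ (q + 1) * (gM + nS M q A hqM hA))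
    {S : Subring (FTop M q A)} {m : ℕ} {E₁ E₂ E₃ ϖ : FTop M q A} {a b : ℕ}
    {f₁ f₃ : Fin (topD M q A hqM hA).s → FTop M q A}
    (h : ∀ c, Reg.RegData (k := IsLocalRing.ResidueField (Wfix A)) (Reg.pl₁ (topD M q A hqM hA))
      (Reg.pl₂ (topD M q A hqM hA)) (Reg.pl₃ (topD M q A hqM hA)) ((topD M q A hqM hA).x₁ c)
      ((topD M q A hqM hA).x₂ c) ((topD M q A hqM hA).x₃ c) S
      (algebraMap (Kfix A) (FTop M q A) (topD M q A hqM hA).π) (topD M q A hqM hA).e m E₁ E₂ E₃
      (f₁ c) (f₃ c) ϖ)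
    (hf₁ : ∀ c, f₁ c ∈ (topD M q A hqM hA).𝓛 a b)
    (hf₃ : ∀ c, f₃ c ∈ (topD M q A hqM hA).𝓛 a b)
    (hchart : ∃ a b : ℕ, ϖ ∈ (topD M q A hqM hA).𝓛 a b) :
    ModBricks M q A hqM hA g gM := by
  have h0 : (topD M q A hqM hA).V₂.unif ≠ 0 := topD_unif_ne_zero M q A hqM hA
  obtain ⟨hv, C⟩ := Reg.exists_thickCtx_of_regData (topD_thickBase_closed hF hFk hcount) h0
    (topD_unif_pow M q A hqM hA) h hf₁ hf₃ hchart
  have C' : ThickCtx (finD (hqM := hqM) (hA := hA) ϖ h0 hv) g gM gM gM := C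
  exact ⟨topV₁ M q A hqM hA, topV₃ M q A hqM hA, Reg.ramWithUnif (topV₂ M q A hqM hA) ϖ h0 hv,
    C', finD_alphaData ϖ h0 hv C', finD_betaData ϖ h0 hv C',
    Val.gaussInfK₂_O_ne_gaussZeroK₂_O M q A hqM hA⟩

end Fermat.Agent.S36lib.J
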