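/-
S36lib / J / Close  (helper4, architect)  --  THE MODULAR INSTANCE IS CLOSED

`J.modBricks haux hF hFk hcount : J.ModBricks M q A hqM hA g gM`  (no other hypotheses), from

* `J.topD_thickBase_closed`                      (`J/Bricks`: (N1), CHART, GLUE, COUNT, charts, …);
* helper8's `Reg.exists_thickCtx_modThickK`      ((REG) for `ϖ = β₂β₁τ − α₂α₁τ`), fed with
  - (B1) helper1's `Desc2.exists_tau_triplePt`,
  - (B2) helper3's `Fin.X0K`, `Fin.Y0K` (`Fin/UnitsK`),
  - (B3) `J/TripleOrd`,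
  - (B5) helper2's `Eis/DegRegular` + helper3's `Fin.mem_cuspRing_modThick`,
  - (C)  helper3's `Fin.glueAt_modThick`;
* `J.finD_alphaData`, `J.finD_betaData`, helper9's `Val.gaussInfK₂_O_ne_gaussZeroK₂_O`.

Hence (with `J.inertiaKillTors_of_modBricks`, `J/Top`) `InertiaKillTors M₀ p f` for every newform, the
hypothesis of `S36lib.s36_statement_of_inertiaKill` = the frozen S36:
`J.inertiaKillTors_all hp hf : InertiaKillTors M₀ p f`.
-/
import Fermat.Agent.S36lib.J.Bricks
import Fermat.Agent.S36lib.Reg.ModInst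
import Fermat.Agent.S36lib.Desc2.Tau
import Fermat.Agent.S36lib.Eis.DegRegular
import Fermat.Agent.S36lib.Fin.UnitsK

set_option autoImplicit false
set_option linter.unusedSectionVars false
set_option linter.unusedVariables false
set_option linter.style.haveILetI false

noncomputable section

namespace Fermat.Agent.S36lib.J

open AlgebraicCurve ModularCurve IsLocalRing CuspForm CongruenceSubgroup
open Fermat.Agent.S18lib Fermat.Agent.ProgramR
open Fermat.Agent.S36lib Fermat.Agent.S36lib.Thick Fermat.Agent.S36lib.Desc Fermat.Agent.S36lib.Desc2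
open Fermat.Agent.S36lib.Inst Fermat.Agent.S36lib.Norm Fermat.Agent.S36lib.Mid
open Fermat.Agent.S37lib.HeckeInst (FB)
open Fermat.Agent.LSb (HasValueAt)

local notation "Qb" => AlgebraicClosure ℚ

variable {M q : ℕ} [NeZero M] [NeZero q] [hq : Fact q.Prime] {A : ValuationSubring Qb}
  {hqM : ¬ q ∣ M} {hA : A.LiesOverPrime q}

variable [HasPrincipalDivisors (IsLocalRing.ResidueField A) (FRes A M)]
variable [HasPrincipalDivisors (IsLocalRing.ResidueField (Wfix A)) (FRes A M)]
variable [HasPrincipalDivisors Qb (FBar M)]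
variable [NeZero (M * q)]
variable [HasPrincipalDivisors Qb (FBar (M * q))]
variable [NeZero (M * q * q)]

/-- constants are regular off the cusps -/
theorem qFix_inv_mem_regAway :
    (((qFix A q (M * q * q))⁻¹ : FTop M q A) : FB (M * q * q)) ∈
      LSb.Unit.regAway Qb (Gin0.jF (M * q * q)) := by
  have e : (qFix A q (M * q * q))⁻¹ =
      algebraMap (Kfix A) (FTop M q A) (((q : ℕ) : Kfix A)⁻¹) := by
    rw [map_inv₀]
  rw [e, coe_algebraMap_fixF]
  exact LSb.Unit.algebraMap_mem_regAway _ _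

/-- **THE MODULAR INSTANCE.** -/
theorem modBricks (haux : Fin.IsAuxLevel M q) {g gM : ℕ}
    (hF : IsCurveOfGenus Qb (FBar (M * q * q)) g)
    (hFk : IsCurveOfGenus (IsLocalRing.ResidueField A) (FRes A M) gM)
    (hcount : g + q ≤ (q + 1) * (gM + nS M q A hqM hA)) :
    ModBricks M q A hqM hA g gM := by
  have hS : Fin.CuspRingHyp (topD M q A hqM hA) := Fin.cuspRingHyp_modThick hF
  obtain ⟨τ, τ'', hτ, hτ'', hred, hτS, hτ''S, -, hτ₁⟩ := Desc2.exists_tau_triplePt M q A hqM hA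
  have B := topD_thickBase_closed (hqM := hqM) (hA := hA) hF hFk hcount
  have hXY : Fin.X0K M q (HI A) * Fin.Y0K M q (HI A) = qFix A q (M * q) ^ 12 := by
    rw [qFix_eq_natCast]
    exact Fin.X0K_mul_Y0K M q (HI A)
  have hY₁ : (gaussOneK M q A hqM hA).redF (Fin.Y0K M q (HI A) * (qFix A q (M * q) ^ 12)⁻¹) =
      (LSb.Unit.H₂ (nodeD1 M q A hqM hA))⁻¹ := by
    rw [qFix_eq_natCast]
    exact Fin.gaussOneK_redF_Y0K_div M q A hqM hA
  have hY₂ : (gaussTwoK M q A hqM hA).redF (Fin.Y0K M q (HI A)) =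
      LSb.Unit.H₂ (nodeD1 M q A hqM hA) := Fin.gaussTwoK_redF_Y0K M q A hqM hA
  have hE₁S' : (betaFix M q (HI A) (Fin.Y0K M q (HI A)))⁻¹ ∈ Fin.cuspRing hS := by
    rw [← map_inv₀]
    exact Fin.mem_cuspRing_modThick hS _
      (Eis.coe_betaFix_mem_regAway M q (HI A) (Fin.coe_Y0K_inv_mem_regAway M q (HI A)))
  have hE₃S' : (alphaFix M q (HI A) (Fin.X0K M q (HI A)))⁻¹ ∈ Fin.cuspRing hS := by
    rw [← map_inv₀]
    exact Fin.mem_cuspRing_modThick hS _
      (Eis.coe_alphaFix_mem_regAway M q (HI A) (Fin.coe_X0K_inv_mem_regAway M q (HI A)))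
  obtain ⟨h0, hv, C⟩ := Reg.exists_thickCtx_modThickK (hA := hA) B hS hτ hτ'' hred hτ₁
    (Fin.mem_cuspRing_modThick hS _ (Eis.coe_alpha_alpha_mem_regAway hτS))
    (Fin.mem_cuspRing_modThick hS _ (Eis.coe_beta_beta_mem_regAway hτS))
    (Fin.mem_cuspRing_modThick hS _ (Eis.coe_alpha_beta_mem_regAway hτ''S))
    (fun c => Fin.glueAt_modThick (WM := ofGauss (gaussMK M A hqM hA))
      (W₁ := ofGauss (gaussOneK M q A hqM hA)) (W₂ := ofGauss (gaussTwoK M q A hqM hA))
      hFk (redJ_top M q A hqM hA) hS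
      (fun y => mem_gaussMK_O M A hqM hA) (fun y => gaussMK_redF M A hqM hA y)
      (fun y => gaussOneK_redF M q A hqM hA y) (fun y => gaussTwoK_redF M q A hqM hA y)
      (rowsTop (hqM := hqM) (hA := hA)) topD_chart₁ topD_chart₂ topD_chart₃ c)
    (fun c => deg_triplePt hFk c) (m := 12) (by norm_num)
    (H := LSb.Unit.H₂ (nodeD1 M q A hqM hA)) H₂_nodeD1_ne_zero
    (fun c => ord_H₂_triplePt haux c) (fun c => ord_VqR_H₂_triplePt haux c)
    (fun c => two_le_ord_VqR_VqR_triplePt c _)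
    hXY hY₁ hY₂
    (Fin.mem_cuspRing_modThick hS _ qFix_inv_mem_regAway)
    (Fin.mem_cuspRing_modThick hS _
      (Eis.coe_betaFix_mem_regAway M q (HI A) (Fin.coe_Y0K_mem_regAway M q (HI A))))
    hE₁S'
    (Fin.mem_cuspRing_modThick hS _
      (Eis.coe_alphaFix_mem_regAway M q (HI A) (Fin.coe_X0K_mem_regAway M q (HI A))))
    hE₃S'
  have C' : ThickCtx (finD (hqM := hqM) (hA := hA) _ h0 hv) g gM gM gM := C
  exact ⟨topV₁ M q A hqM hA, topV₃ M q A hqM hA, Reg.ramWithUnif (topV₂ M q A hqM hA) _ h0 hv,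
    C', finD_alphaData _ h0 hv C', finD_betaData _ h0 hv C',
    Val.gaussInfK₂_O_ne_gaussZeroK₂_O M q A hqM hA⟩

omit [NeZero M] [NeZero q] hq [HasPrincipalDivisors (IsLocalRing.ResidueField A) (FRes A M)]
  [HasPrincipalDivisors (IsLocalRing.ResidueField (Wfix A)) (FRes A M)]
  [HasPrincipalDivisors Qb (FBar M)] [NeZero (M * q)] [HasPrincipalDivisors Qb (FBar (M * q))]
  [NeZero (M * q * q)] in
/-- **`InertiaKillTors` for every newform** (the hypothesis of
`S36lib.s36_statement_of_inertiaKill`). -/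
theorem inertiaKillTors_all {M₀ p : ℕ} [NeZero M₀] (hp : p.Prime)
    {f : CuspForm (Gamma0 M₀) 2} (hf : f.IsNewform) : InertiaKillTors M₀ p f :=
  inertiaKillTors_of_modBricks hp hf
    (fun M q _ _ _ _ _ hqM haux A hA _ _ _ _ _ g gM hF hFk hcount =>
      modBricks (hqM := hqM) (hA := hA) haux hF hFk hcount)

end Fermat.Agent.S36lib.J
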