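/-
S36lib / J / Step3  (helper4)

The norm step of the chain: let `z` be a tri-unit with constant reductions and
`N z = c · h_zⁿ`.  Then `h_z` can be chosen a bi-unit of level `M q` with CONSTANT reductions
`κ₁, κ₂`, and for every `h ∈ O` with `hⁿ z ∈ 𝓛 a 0` (regular off the cusps) and `red₂ h = 1`, (GLUE) at
level `M q` applied to `N h · h_z` relates the values of `red₁ h` and `red₃ h` at a triple point:
`μ^t₃ = (κ₁/κ₂) · λ^t₁`.
-/
import Fermat.Agent.S36lib.J.Step2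

set_option autoImplicit false

noncomputable section

namespace Fermat.Agent.S36lib.J

open AlgebraicCurve Module
open Fermat.Agent.S18lib Fermat.Agent.S36lib.Thick Fermat.Agent.S36lib.Norm
open Fermat.Agent.LSb (HasValueAt)
open Fermat.Agent.LSc (IsConstMulPow)

/-- in a function field with field of constants `k`, an `n`-th root of a nonzero constant is a
constant -/
theorem exists_const_of_pow_eq_const {k G₁ : Type*} [Field k] [Field G₁] [Algebra k G₁] {g : ℕ}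
    (hG : IsCurveOfGenus k G₁ g) {y : G₁} {n : ℕ} (hn : n ≠ 0) {c : k} (hc : c ≠ 0)
    (h : y ^ n = algebraMap k G₁ c) : ∃ d : k, d ≠ 0 ∧ y = algebraMap k G₁ d := by
  have hy0 : y ≠ 0 := by
    rintro rfl
    rw [zero_pow hn] at h
    exact (map_ne_zero (algebraMap k G₁)).2 hc h.symm
  refine Fermat.Agent.LSc.exists_const_of_ord_eq_zero hG hy0 fun v => ?_
  have h1 : v.ord (y ^ n) = 0 := by rw [h, S18lib.Cech.ord_const]
  rw [S18lib.Cech.ord_pow] at h1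
  rcases mul_eq_zero.1 h1 with h2 | h2
  · exact absurd (by exact_mod_cast h2) hn
  · exact h2

/-- in a linearly ordered group with zero, `xⁿ = 1` forces `x = 1` -/
theorem eq_one_of_pow_eq_one₀ {Γ : Type*} [LinearOrderedCommGroupWithZero Γ] {x : Γ} {n : ℕ}
    (hn : n ≠ 0) (h : x ^ n = 1) : x = 1 := by
  rcases lt_trichotomy x 1 with h1 | h1 | h1
  · exact absurd h (pow_lt_one₀ zero_le h1 hn).ne
  · exact h1
  · exact absurd h (one_lt_pow₀ h1 hn).ne'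

variable {K : Type*} [Field K] {R : ValuationSubring K}
variable {F : Type*} [Field F] [Algebra K F]
variable {F₁ F₂ F₃ : Type*} [Field F₁] [Field F₂] [Field F₃]
variable [Algebra (IsLocalRing.ResidueField R) F₁] [Algebra (IsLocalRing.ResidueField R) F₂]
variable [Algebra (IsLocalRing.ResidueField R) F₃]
variable {G : Type*} [Field G] [Algebra K G]
variable {G₁ G₂ : Type*} [Field G₁] [Field G₂]
variable [Algebra (IsLocalRing.ResidueField R) G₁] [Algebra (IsLocalRing.ResidueField R) G₂]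
variable {D : ThickDatum R F F₁ F₂ F₃} {L : LowDatum R G G₁ G₂}
variable {g g₁ g₂ g₃ g₁' g₂' n q : ℕ} {KS : KummerSystem D g n} {ND : NormData D L}

/-- a tri-unit lies in the sup-norm unit ball -/
theorem isTriUnit_mem_O {z : F} {b₁ b₂ b₃ : IsLocalRing.ResidueField R}
    (hz : IsTriUnit D z b₁ b₂ b₃) : z ∈ D.O := by
  refine ThickDatum.mem_O.2 ⟨?_, ?_, ?_⟩
  · refine D.V₁.mem_of_redF_ne_zero ?_
    rw [hz.red₁]
    exact (map_ne_zero _).2 hz.b₁_ne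
  · refine (P₂ D).mem_of_redF_ne_zero ?_
    rw [← red₂_eq, hz.red₂]
    exact (map_ne_zero _).2 hz.b₂_ne
  · refine D.V₃.mem_of_redF_ne_zero ?_
    rw [hz.red₃]
    exact (map_ne_zero _).2 hz.b₃_ne

namespace ChainCtx

variable (X : ChainCtx D L g g₁ g₂ g₃ g₁' g₂' n q KS ND)

include X

/-- **Step 3** (the norm step). -/
theorem norm_step {N : F →* G} {φ₁ : F₁ →* G₁} {φ₂ : F₂ →* G₁} {ψ₂ : F₂ →* G₂} {ψ₃ : F₃ →* G₂}
    {cN : Fin D.s → Fin L.s'} {t₁ t₃ : ℕ} (Y : NormCtx D L N φ₁ φ₂ ψ₂ ψ₃ cN t₁ t₃)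
    {z : F} {b₁ b₂ b₃ : IsLocalRing.ResidueField R} (hz : IsTriUnit D z b₁ b₂ b₃)
    (hN : IsConstPow K n (N z)) :
    ∃ A : IsLocalRing.ResidueField R, A ≠ 0 ∧ ∀ (h : F) (a' : ℕ), h ∈ D.O →
      h ^ n * z ∈ D.𝓛 a' 0 → D.red₂ h = 1 → ∀ (c : Fin D.s) (lam mu : IsLocalRing.ResidueField R),
      HasValueAt (D.x₁ c) (D.V₁.redF h) lam → HasValueAt (D.x₃ c) (D.V₃.redF h) mu →
      mu ^ t₃ = A * lam ^ t₁ := by
  have hn0 := X.n_ne_zero
  have hzO := isTriUnit_mem_O hz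
  obtain ⟨cz, hz', hcz, hhz', eNz⟩ := hN
  -- reductions of `N z`
  obtain ⟨β₁, hβ₁, eβ₁⟩ := Y.φ₁_const b₁ hz.b₁_ne
  obtain ⟨β₂, hβ₂, eβ₂⟩ := Y.φ₂_const b₂ hz.b₂_ne
  obtain ⟨β₂', hβ₂', eβ₂'⟩ := Y.ψ₂_const b₂ hz.b₂_ne
  obtain ⟨β₃, hβ₃, eβ₃⟩ := Y.ψ₃_const b₃ hz.b₃_ne
  have rN₁ : L.W₁.redF (N z) = algebraMap _ G₁ (β₁ * β₂) := by
    rw [Y.red₁ z hzO, hz.red₁, hz.red₂, eβ₁, eβ₂, map_mul]
  have rN₂ : L.W₂.redF (N z) = algebraMap _ G₂ (β₂' * β₃) := by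
    rw [Y.red₂ z hzO, hz.red₂, hz.red₃, eβ₂', eβ₃, map_mul]
  have nN₁ : L.W₁.redF (N z) ≠ 0 := by
    rw [rN₁]; exact (map_ne_zero _).2 (mul_ne_zero hβ₁ hβ₂)
  have nN₂ : L.W₂.redF (N z) ≠ 0 := by
    rw [rN₂]; exact (map_ne_zero _).2 (mul_ne_zero hβ₂' hβ₃)
  -- normalise `h_z` to a unit of `W₁`
  obtain ⟨d, hd, hr⟩ := L.W₁.exists_const_mul_redF_ne_zero hhz'
  set hh : G := algebraMap K G d * hz' with hhh
  set c' : K := cz * (d ^ n)⁻¹ with hc'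
  have hc'0 : c' ≠ 0 := mul_ne_zero hcz (inv_ne_zero (pow_ne_zero n hd))
  have hhh0 : hh ≠ 0 := mul_ne_zero ((map_ne_zero _).2 hd) hhz'
  have eNz' : N z = algebraMap K G c' * hh ^ n := by
    rw [eNz, hc', hhh, map_mul, map_inv₀, map_pow, mul_pow]
    have : (algebraMap K G d) ^ n ≠ 0 := pow_ne_zero n ((map_ne_zero _).2 hd)
    field_simp
  -- valuations
  have v1N : L.W₁.O.valuation (N z) = 1 := (gaussPlace L.W₁).valuation_eq_one_of_redF_ne_zero nN₁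
  have v2N : L.W₂.O.valuation (N z) = 1 := (gaussPlace L.W₂).valuation_eq_one_of_redF_ne_zero nN₂
  have v1h : L.W₁.O.valuation hh = 1 := (gaussPlace L.W₁).valuation_eq_one_of_redF_ne_zero hr
  have v1c : L.W₁.O.valuation (algebraMap K G c') = 1 := by
    have := v1N
    rw [eNz', map_mul, map_pow, v1h, one_pow, mul_one] at this
    exact this
  obtain ⟨hc'R, hc'iR⟩ : c' ∈ R ∧ c'⁻¹ ∈ R := by
    obtain ⟨m1, m2⟩ := mem_and_inv_mem_of_valuation_eq_one _ v1c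
    rw [← map_inv₀] at m2
    exact ⟨(L.W₁.algebraMap_mem_iff _).1 m1, (L.W₁.algebraMap_mem_iff _).1 m2⟩
  have v2c : L.W₂.O.valuation (algebraMap K G c') = 1 := by
    refine valuation_eq_one_of_mem_of_inv_mem _ ((map_ne_zero _).2 hc'0)
      ((L.W₂.algebraMap_mem_iff _).2 hc'R) ?_
    rw [← map_inv₀]
    exact (L.W₂.algebraMap_mem_iff _).2 hc'iR
  have v2h : L.W₂.O.valuation hh = 1 := by
    have := v2N
    rw [eNz', map_mul, map_pow, v2c, one_mul] at this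
    exact eq_one_of_pow_eq_one₀ hn0 this
  obtain ⟨hh1, hh1i⟩ := mem_and_inv_mem_of_valuation_eq_one _ v1h
  obtain ⟨hh2, hh2i⟩ := mem_and_inv_mem_of_valuation_eq_one _ v2h
  -- the reductions of the constant
  set cb : IsLocalRing.ResidueField R := IsLocalRing.residue R ⟨c', hc'R⟩ with hcb
  have rc₁ : L.W₁.redF (algebraMap K G c') = algebraMap _ G₁ cb := L.W₁.redF_algebraMap ⟨c', hc'R⟩
  have rc₂ : L.W₂.redF (algebraMap K G c') = algebraMap _ G₂ cb := L.W₂.redF_algebraMap ⟨c', hc'R⟩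
  have hcb0 : cb ≠ 0 := by
    intro h0
    have h1 : L.W₁.redF (algebraMap K G c') ≠ 0 :=
      place_redF_ne_zero_of_valuation_eq_one (gaussPlace L.W₁) v1c
    rw [rc₁, h0, map_zero] at h1
    exact h1 rfl
  -- the reductions of `hh` are constants
  have hcO₁ : algebraMap K G c' ∈ L.W₁.O := (L.W₁.algebraMap_mem_iff _).2 hc'R
  have hcO₂ : algebraMap K G c' ∈ L.W₂.O := (L.W₂.algebraMap_mem_iff _).2 hc'R
  obtain ⟨k₁, hk₁, ek₁⟩ : ∃ k₁ : IsLocalRing.ResidueField R, k₁ ≠ 0 ∧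
      L.W₁.redF hh = algebraMap _ G₁ k₁ := by
    refine exists_const_of_pow_eq_const X.hG₁ hn0 (c := β₁ * β₂ * cb⁻¹)
      (mul_ne_zero (mul_ne_zero hβ₁ hβ₂) (inv_ne_zero hcb0)) ?_
    have h1 := rN₁
    rw [eNz', L.W₁.redF_mul hcO₁ (L.W₁.O.pow_mem hh1 n), rc₁, L.W₁.redF_pow hh1] at h1
    rw [map_mul, ← h1, map_inv₀, mul_comm, ← mul_assoc,
      inv_mul_cancel₀ ((map_ne_zero _).2 hcb0), one_mul]
  obtain ⟨k₂, hk₂, ek₂⟩ : ∃ k₂ : IsLocalRing.ResidueField R, k₂ ≠ 0 ∧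
      L.W₂.redF hh = algebraMap _ G₂ k₂ := by
    refine exists_const_of_pow_eq_const X.hG₂ hn0 (c := β₂' * β₃ * cb⁻¹)
      (mul_ne_zero (mul_ne_zero hβ₂' hβ₃) (inv_ne_zero hcb0)) ?_
    have h1 := rN₂
    rw [eNz', L.W₂.redF_mul hcO₂ (L.W₂.O.pow_mem hh2 n), rc₂, L.W₂.redF_pow hh2] at h1
    rw [map_mul, ← h1, map_inv₀, mul_comm, ← mul_assoc,
      inv_mul_cancel₀ ((map_ne_zero _).2 hcb0), one_mul]
  refine ⟨k₁ / k₂, div_ne_zero hk₁ hk₂, ?_⟩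
  intro h a' hhO hchart hred c lam mu hlam hmu
  -- the function `H = N h · hh`
  set H : G := N h * hh with hH
  have hHn : H ^ n = algebraMap K G c'⁻¹ * N (h ^ n * z) := by
    rw [hH, map_mul, map_pow, eNz', mul_pow, map_inv₀]
    have : algebraMap K G c' ≠ 0 := (map_ne_zero _).2 hc'0
    field_simp
  have hHL : H ∈ L.𝓛' := by
    refine X.low_root H ?_
    rw [hHn]
    exact X.low_smul _ _ (Y.chart a' _ hchart)
  have hNh₁ : N h ∈ L.W₁.O := Y.mem₁ h hhO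
  have hNh₂ : N h ∈ L.W₂.O := Y.mem₂ h hhO
  obtain ⟨γ, hγ₁, hγ₂⟩ := X.low_glue H hHL (L.W₁.O.mul_mem _ _ hNh₁ hh1)
    (L.W₂.O.mul_mem _ _ hNh₂ hh2) (cN c)
  have e₁ : L.W₁.redF H = φ₁ (D.V₁.redF h) * algebraMap _ G₁ k₁ := by
    rw [hH, L.W₁.redF_mul hNh₁ hh1, Y.red₁ h hhO, hred, map_one, mul_one, ek₁]
  have e₂ : L.W₂.redF H = ψ₃ (D.V₃.redF h) * algebraMap _ G₂ k₂ := by
    rw [hH, L.W₂.redF_mul hNh₂ hh2, Y.red₂ h hhO, hred, map_one, one_mul, ek₂]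
  rw [e₁] at hγ₁
  rw [e₂] at hγ₂
  have f₁ := ((Y.val₁ c _ _ hlam).mul (Fermat.Agent.LSb.hasValueAt_const k₁)).unique hγ₁
  have f₂ := ((Y.val₃ c _ _ hmu).mul (Fermat.Agent.LSb.hasValueAt_const k₂)).unique hγ₂
  rw [div_mul_eq_mul_div, eq_div_iff hk₂, f₂, ← f₁, mul_comm]

end ChainCtx

end Fermat.Agent.S36lib.J
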