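/-
S36lib / J / Chain  (helper4)  --  brick B8 (function level)

**Main theorem** (`ChainCtx.chain`): in the abstract setting of `J/Setup.lean`, a Kummer function
`u` of level `M q²` whose two norms `Nα u`, `Nβ u` to level `M q` are trivial Kummer functions
(`∈ Kˣ · (Gˣ)ⁿ`) satisfies `u ^ ((q²-1)²) ∈ Kˣ · (Fˣ)ⁿ`.

Steps: `exists_fibre_unit` (orders), `exists_triUnit` (reductions + lifting of roots),
`norm_step` twice (`μ^q = A λ`, `μ = B λ^q`), `twist_const`, multiplicativity of the twist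
(`NondegStatement`), the thick Čech core (`ThickCoreStatement`), and `L(0) = K`.
-/
import Fermat.Agent.S36lib.J.Step3

set_option autoImplicit false

noncomputable section

namespace Fermat.Agent.S36lib.J

open AlgebraicCurve Module
open Fermat.Agent.S18lib Fermat.Agent.S36lib.Thick Fermat.Agent.S36lib.Norm
open Fermat.Agent.LSb (HasValueAt)

variable {K : Type*} [Field K] {R : ValuationSubring K}
variable {F : Type*} [Field F] [Algebra K F]
variable {F₁ F₂ F₃ : Type*} [Field F₁] [Field F₂] [Field F₃]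
variable [Algebra (IsLocalRing.ResidueField R) F₁] [Algebra (IsLocalRing.ResidueField R) F₂]
variable [Algebra (IsLocalRing.ResidueField R) F₃]
variable {G : Type*} [Field G] [Algebra K G]
variable {G₁ G₂ : Type*} [Field G₁] [Field G₂]
variable [Algebra (IsLocalRing.ResidueField R) G₁] [Algebra (IsLocalRing.ResidueField R) G₂]
variable {D : ThickDatum R F F₁ F₂ F₃} {L : LowDatum R G G₁ G₂}
variable {g g₁ g₂ g₃ g₁' g₂' n q : ℕ} {KS : KummerSystem D g n} {ND : NormData D L}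

theorem sq_sub_one_eq {q : ℕ} (hq : 2 ≤ q) : (q + 1) * (q - 1) = q ^ 2 - 1 := by
  obtain ⟨r, rfl⟩ : ∃ r, q = r + 2 := ⟨q - 2, by omega⟩
  symm
  apply Nat.sub_eq_of_eq_add
  have : r + 2 - 1 = r + 1 := by omega
  rw [this]
  ring

theorem one_le_sq_sub_one {q : ℕ} (hq : 2 ≤ q) : 1 ≤ q ^ 2 - 1 := by
  have : 4 ≤ q ^ 2 := by nlinarith
  omega

/-- powers in the chart families of a Kummer system -/
theorem KummerSystem.pow_mem_𝓔 (KS : KummerSystem D g n) {z h : F} (hz : KS.IsKum z) {a b : ℕ}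
    (hh : h ∈ KS.𝓔 z a b) (m : ℕ) (hm : 1 ≤ m) : h ^ m ∈ KS.𝓔 (z ^ m) (m * a) (m * b) := by
  induction m, hm using Nat.le_induction with
  | base => simpa using hh
  | succ m hm ih =>
    have hzm : KS.IsKum (z ^ m) := ChainCtx.isKum_pow hz m
    have := KS.𝓔_mul _ _ hzm hz _ _ _ _ _ _ ih hh
    rw [← pow_succ, ← pow_succ] at this
    have e1 : (m + 1) * a = m * a + a := by ring
    have e2 : (m + 1) * b = m * b + b := by ring
    rw [e1, e2]
    exact this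

namespace ChainCtx

variable (X : ChainCtx D L g g₁ g₂ g₃ g₁' g₂' n q KS ND)

include X

/-- **Step 4**: a Kummer tri-unit with constant reductions and trivial norms has
`z ^ (q² - 1)` trivial. -/
theorem core_step {z : F} {b₁ b₂ b₃ : IsLocalRing.ResidueField R} (hzK : KS.IsKum z)
    (hz : IsTriUnit D z b₁ b₂ b₃) (hα : IsConstPow K n (ND.Nα z))
    (hβ : IsConstPow K n (ND.Nβ z)) : IsConstPow K n (z ^ (q ^ 2 - 1)) := by
  have hn0 := X.n_ne_zero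
  have hnpos := X.n_pos
  have hQ1 : 1 ≤ q ^ 2 - 1 := one_le_sq_sub_one X.hq
  set Q : ℕ := q ^ 2 - 1 with hQ
  have hz0 : z ≠ 0 := KS.ne_zero z hzK
  have hzO := isTriUnit_mem_O hz
  obtain ⟨hzO₁, hzO₂, hzO₃⟩ := ThickDatum.mem_O.1 hzO
  -- the twist of `z` and a nondegenerate element
  obtain ⟨lam, mu, hlam, hmu, htw⟩ := X.twist n X.hn z (KS.fam z hzK) b₁ b₂ b₃ hz
  obtain ⟨m₀, hm₀⟩ := X.nondeg n X.hn z (KS.fam z hzK) b₁ b₂ b₃ hz
  obtain ⟨h, hE, hO, hred⟩ := hm₀ m₀ 0 (Or.inl le_rfl)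
  obtain ⟨hO₁, hO₂, hO₃⟩ := ThickDatum.mem_O.1 hO
  have hval : ∀ c, HasValueAt (D.x₁ c) (D.V₁.redF h) (lam c) ∧
      HasValueAt (D.x₃ c) (D.V₃.redF h) (mu c) := by
    intro c
    obtain ⟨α, a1, a2, a3⟩ := htw m₀ 0 h hE hO c
    rw [hred] at a2
    have hα1 : α = 1 := a2.unique Fermat.Agent.LSb.hasValueAt_one
    rw [hα1, mul_one] at a1 a3
    exact ⟨a1, a3⟩
  have hchart : h ^ n * z ∈ D.𝓛 (m₀ + (n - 1) * m₀) 0 := by
    have := (KS.fam z hzK).mixed_mem hE hE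
    rwa [← pow_succ', Nat.sub_add_cancel hnpos, Nat.mul_zero, Nat.add_zero] at this
  -- the two norm steps
  obtain ⟨A, hA, hAll⟩ := X.norm_step X.normα hz hα
  obtain ⟨Bc, hB, hBll⟩ := X.norm_step X.normβ hz hβ
  have hrel : ∀ c, mu c ^ q = A * lam c ∧ mu c = Bc * lam c ^ q := by
    intro c
    have r1 := hAll h _ hO hchart hred c (lam c) (mu c) (hval c).1 (hval c).2
    have r2 := hBll h _ hO hchart hred c (lam c) (mu c) (hval c).1 (hval c).2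
    rw [pow_one] at r1 r2
    exact ⟨r1, r2⟩
  have hqpos : 0 < q := by have := X.hq; omega
  have hlamQ : ∀ c, lam c ^ Q = A / Bc ^ q := fun c =>
    twist_const hqpos (hlam c) hB (hrel c).1 (hrel c).2
  have hmuQ : ∀ c, mu c ^ Q = Bc ^ Q * (A / Bc ^ q) ^ q := by
    intro c
    rw [(hrel c).2, mul_pow, ← pow_mul, mul_comm q Q, pow_mul, hlamQ c]
  -- the power `z₂ = z ^ Q`
  have hz₂K : KS.IsKum (z ^ Q) := isKum_pow hzK Q
  have hz₂ : IsTriUnit D (z ^ Q) (b₁ ^ Q) (b₂ ^ Q) (b₃ ^ Q) := by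
    refine ⟨pow_ne_zero _ hz.b₁_ne, pow_ne_zero _ hz.b₂_ne, pow_ne_zero _ hz.b₃_ne, ?_, ?_, ?_⟩
    · rw [D.V₁.redF_pow hzO₁, hz.red₁, map_pow]
    · rw [red₂_eq, (P₂ D).redF_pow hzO₂, ← red₂_eq, hz.red₂, map_pow]
    · rw [D.V₃.redF_pow hzO₃, hz.red₃, map_pow]
  obtain ⟨lam', mu', hlam', hmu', htw'⟩ :=
    X.twist n X.hn (z ^ Q) (KS.fam _ hz₂K) _ _ _ hz₂
  -- `h ^ Q` computes the twist of `z ^ Q`
  have hhQE : h ^ Q ∈ (KS.fam _ hz₂K).𝓔 (Q * m₀) (Q * 0) := by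
    rw [KS.fam_𝓔]
    refine KS.pow_mem_𝓔 hzK ?_ Q hQ1
    rw [← KS.fam_𝓔 z hzK]
    exact hE
  have hhQO : h ^ Q ∈ D.O := D.O.pow_mem hO Q
  have hhQred : D.red₂ (h ^ Q) = 1 := by
    rw [red₂_eq, (P₂ D).redF_pow hO₂, ← red₂_eq, hred, one_pow]
  have hlam'c : ∀ c, lam' c = A / Bc ^ q ∧ mu' c = Bc ^ Q * (A / Bc ^ q) ^ q := by
    intro c
    obtain ⟨α, a1, a2, a3⟩ := htw' (Q * m₀) (Q * 0) (h ^ Q) hhQE hhQO c
    rw [hhQred] at a2
    have hα1 : α = 1 := a2.unique Fermat.Agent.LSb.hasValueAt_one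
    rw [hα1, mul_one, D.V₁.redF_pow hO₁] at a1
    rw [hα1, mul_one, D.V₃.redF_pow hO₃] at a3
    exact ⟨(a1.unique ((hval c).1.pow Q)).trans (hlamQ c),
      (a3.unique ((hval c).2.pow Q)).trans (hmuQ c)⟩
  have hl : lam' = fun _ => A / Bc ^ q := funext fun c => (hlam'c c).1
  have hm : mu' = fun _ => Bc ^ Q * (A / Bc ^ q) ^ q := funext fun c => (hlam'c c).2
  rw [hl, hm] at htw'
  -- the thick Čech core
  obtain ⟨t, ht0, htE⟩ := X.core n X.hn (z ^ Q) (KS.fam _ hz₂K) _ _ _ hz₂ _ _ htw'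
  have hmix := (KS.fam _ hz₂K).mixed_mem htE htE
  rw [← pow_succ', Nat.sub_add_cancel hnpos] at hmix
  have hmix' : t ^ n * z ^ Q ∈ D.𝓛 0 0 := by simpa using hmix
  obtain ⟨c', hc'⟩ := X.const00 _ hmix'
  have htn : t ^ n ≠ 0 := pow_ne_zero n ht0
  have hc'0 : c' ≠ 0 := by
    rintro rfl
    rw [map_zero] at hc'
    exact mul_ne_zero htn (pow_ne_zero Q hz0) hc'
  refine ⟨c', t⁻¹, hc'0, inv_ne_zero ht0, ?_⟩
  rw [← hc', inv_pow, mul_comm, ← mul_assoc, inv_mul_cancel₀ htn, one_mul]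

/-- **The chain (function level).**  A Kummer function of level `M q²` whose norms along both
degeneracy maps are trivial Kummer functions has a trivial `(q²-1)²`-th power. -/
theorem chain {u : F} (hu : KS.IsKum u) (hα : IsConstPow K n (ND.Nα u))
    (hβ : IsConstPow K n (ND.Nβ u)) : IsConstPow K n (u ^ ((q ^ 2 - 1) ^ 2)) := by
  obtain ⟨u', y, hu'K, hα', hβ', v₁, v₂, v₃, hyP, huy⟩ := X.exists_fibre_unit hu hα hβ
  obtain ⟨z, y', b₁, b₂, b₃, hzK, hαz, hβz, hz, hy'P, hu'z⟩ :=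
    X.exists_triUnit hu'K v₁ v₂ v₃ hα' hβ'
  have hzQ := X.core_step hzK hz hαz hβz
  have hexp : (q ^ 2 - 1) ^ 2 = (q + 1) * (D.e * (q ^ 2 - 1)) := by
    rw [X.he, ← mul_assoc, sq_sub_one_eq X.hq, sq]
  have e : u ^ ((q ^ 2 - 1) ^ 2) =
      z ^ (q ^ 2 - 1) * y' ^ (q ^ 2 - 1) * y ^ (D.e * (q ^ 2 - 1)) := by
    rw [hexp, pow_mul, huy, mul_pow, pow_mul, hu'z, mul_pow]
  rw [e]
  exact (hzQ.mul (hy'P.pow _)).mul (hyP.pow _)

end ChainCtx

end Fermat.Agent.S36lib.J
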