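/-
S36lib / J / LowMod  (helper4)  --  the level `M q` fields of `ChainCtx` for helper5's `Inst.modLow`

`Inst.modLow M q A hqM hA W₁ W₂ : J.LowDatum (Wfix A) (fixF (M q) I) κ κ`  (`κ = FRes A M`,
`𝓛' = regAway j ∩ fixF`, the `2 nS` nodes `(Fr P_c, P_c)` [index `castAdd`] and `(P_c, Fr P_c)`
[index `natAdd`]), for ANY `K`-rational Gauss data `W₁ W₂` having the same membership and the same
reduction as LSb's `gaussOne`, `gaussTwo` (e.g. helper1's `gaussOneK`, `gaussTwoK`).

* `modLow_smul`, `modLow_root`, `modLow_glue`, `modLow_isCurveOfGenus` = the fields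
  `low_smul`, `low_root`, `low_glue`, `hG₁ = hG₂` of `J.ChainCtx`.
-/
import Fermat.Agent.S36lib.J.FrobSq
import Fermat.Agent.S36lib.Inst.Datum

set_option autoImplicit false
set_option linter.unusedSectionVars false
set_option linter.unusedVariables false

noncomputable section

namespace Fermat.Agent.S36lib.J

open AlgebraicCurve ModularCurve Module
open Fermat.Agent.S18lib Fermat.Agent.ProgramR Fermat.Agent.LSb Fermat.Agent.LSb.Unit
open Fermat.Agent.S36lib.Desc Fermat.Agent.S36lib.Desc2 Fermat.Agent.S36lib.Inst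
open Fermat.Agent.S37lib.HeckeInst (FB)

local notation "Qb" => AlgebraicClosure ℚ

variable (M q : ℕ) [NeZero M] [NeZero q] [hq : Fact q.Prime]
variable (A : ValuationSubring (AlgebraicClosure ℚ)) (hqM : ¬ q ∣ M) (hA : A.LiesOverPrime q)
variable (W₁ W₂ : GaussDatum (Wfix A) (FMid M q A) (FRes A M))

theorem modLow_smul (c : fixK (HI A)) (f : FMid M q A)
    (hf : f ∈ (modLow M q A hqM hA W₁ W₂).𝓛') :
    algebraMap (fixK (HI A)) (FMid M q A) c * f ∈ (modLow M q A hqM hA W₁ W₂).𝓛' := by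
  show ((algebraMap (fixK (HI A)) (FMid M q A) c * f : FMid M q A) : FB (M * q)) ∈
    regAway Qb (Gin0.jF (M * q))
  rw [Subfield.coe_mul, coe_algebraMap_fixF]
  exact Subring.mul_mem _ (algebraMap_mem_regAway _ _) hf

theorem modLow_root {n : ℕ} (hn : n ≠ 0) (f : FMid M q A)
    (hf : f ^ n ∈ (modLow M q A hqM hA W₁ W₂).𝓛') : f ∈ (modLow M q A hqM hA W₁ W₂).𝓛' := by
  intro Q hQ
  have h1 : ((f ^ n : FMid M q A) : FB (M * q)) ∈ Q.toValuationSubring := hf Q hQ
  rw [SubmonoidClass.coe_pow] at h1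
  rw [← ValuationSubring.valuation_le_one_iff] at h1 ⊢
  rw [map_pow] at h1
  exact (pow_le_one_iff_of_nonneg zero_le hn).1 h1

include hq hA in
/-- the genus of the two components over the residue field of `Wfix A` -/
theorem modLow_isCurveOfGenus {gM : ℕ}
    (hFk : IsCurveOfGenus (IsLocalRing.ResidueField A) (FRes A M) gM) :
    IsCurveOfGenus (IsLocalRing.ResidueField (Wfix A)) (FRes A M) gM :=
  isCurveOfGenus_resW hq.out hA hFk

variable [HasPrincipalDivisors (AlgebraicClosure ℚ) (FBar M)]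
variable [HasPrincipalDivisors (AlgebraicClosure ℚ) (FBar (M * q))]
variable [HasPrincipalDivisors (IsLocalRing.ResidueField A) (FRes A M)]

/-- **(GLUE) at level `M q` over the fixed field**, at both families of nodes -/
theorem modLow_glue {gM : ℕ} (hFk : IsCurveOfGenus (IsLocalRing.ResidueField A) (FRes A M) gM)
    (hm₁ : ∀ x : FMid M q A, x ∈ W₁.O ↔ (x : FB (M * q)) ∈ (Val.gaussOne M q A hqM hA).O)
    (hr₁ : ∀ x : FMid M q A, W₁.redF x = (Val.gaussOne M q A hqM hA).redF (x : FB (M * q)))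
    (hm₂ : ∀ x : FMid M q A, x ∈ W₂.O ↔ (x : FB (M * q)) ∈ (Val.gaussTwo M q A hqM hA).O)
    (hr₂ : ∀ x : FMid M q A, W₂.redF x = (Val.gaussTwo M q A hqM hA).redF (x : FB (M * q)))
    (f : FMid M q A) (hf : f ∈ (modLow M q A hqM hA W₁ W₂).𝓛')
    (hf1 : f ∈ (modLow M q A hqM hA W₁ W₂).W₁.O) (hf2 : f ∈ (modLow M q A hqM hA W₁ W₂).W₂.O)
    (c : Fin (modLow M q A hqM hA W₁ W₂).s') :
    ∃ γ : IsLocalRing.ResidueField (Wfix A),
      LSb.HasValueAt ((modLow M q A hqM hA W₁ W₂).y₁ c) ((modLow M q A hqM hA W₁ W₂).W₁.redF f) γ ∧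
      LSb.HasValueAt ((modLow M q A hqM hA W₁ W₂).y₂ c) ((modLow M q A hqM hA W₁ W₂).W₂.redF f) γ := by
  have h1 := Val.isGaussOne_gaussOne M q A hqM hA
  have h2 := Val.isGaussTwo_gaussTwo M q A hqM hA
  have hF1 := (hm₁ f).1 hf1
  have hF2 := (hm₂ f).1 hf2
  set I := constIso hq.out hA M with hI
  revert c
  refine Fin.addCases (fun c => ?_) (fun c => ?_)
  · -- the pair `(Fr P_c, P_c)`
    obtain ⟨α, hα1, hα2⟩ := mod_glue_regAway hqM hA h1 h2 hFk hf hF1 hF2 c
    refine ⟨I.inv α, ?_, ?_⟩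
    · show LSb.HasValueAt (Fin.append (triplePtF M q A hqM hA) (triplePt M q A hqM hA)
        (Fin.castAdd _ c)) (W₁.redF f) (I.inv α)
      rw [Fin.append_left]
      show LSb.HasValueAt (I.place (modX₁ hA (Val.gaussOne M q A hqM hA) c)) _ _
      rw [I.hasValueAt_place', hr₁]
      exact hα1
    · show LSb.HasValueAt (Fin.append (triplePt M q A hqM hA) (triplePtF M q A hqM hA)
        (Fin.castAdd _ c)) (W₂.redF f) (I.inv α)
      rw [Fin.append_left]
      show LSb.HasValueAt (I.place (modX₂ (Val.gaussOne M q A hqM hA) c)) _ _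
      rw [I.hasValueAt_place', hr₂]
      exact hα2
  · -- the pair `(P_c, Fr P_c)`
    obtain ⟨α, hα1, hα2⟩ := mod_glue_regAway_swap hqM hA h1 h2 hFk hf hF1 hF2 c
    refine ⟨I.inv α, ?_, ?_⟩
    · show LSb.HasValueAt (Fin.append (triplePtF M q A hqM hA) (triplePt M q A hqM hA)
        (Fin.natAdd _ c)) (W₁.redF f) (I.inv α)
      rw [Fin.append_right]
      show LSb.HasValueAt (I.place (modX₂ (Val.gaussOne M q A hqM hA) c)) _ _
      rw [I.hasValueAt_place', hr₁]
      exact hα1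
    · show LSb.HasValueAt (Fin.append (triplePt M q A hqM hA) (triplePtF M q A hqM hA)
        (Fin.natAdd _ c)) (W₂.redF f) (I.inv α)
      rw [Fin.append_right]
      show LSb.HasValueAt (I.place (modX₁ hA (Val.gaussOne M q A hqM hA) c)) _ _
      rw [I.hasValueAt_place', hr₂]
      exact hα2

end Fermat.Agent.S36lib.J
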