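/-
S36lib / J / Three  (helper4)

Approximation for THREE pairwise distinct rank one valuation rings (wrappers around
`Norm.exists_approx`, `Norm.exists_valuation_eq`), and the rank one property of Gauss data and
ramified Gauss data over a discretely valued base.
-/
import Fermat.Agent.S36lib.J.Val

set_option autoImplicit false

noncomputable section

namespace Fermat.Agent.S36lib.J

open Fermat.Agent.S18lib Fermat.Agent.S36lib.Thick Fermat.Agent.S36lib.Norm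

section Three

variable {F : Type*} [Field F] {O₁ O₂ O₃ : ValuationSubring F}

theorem three_incomparable (h₁ : IsArch O₁) (h₂ : IsArch O₂) (h₃ : IsArch O₃)
    (t₁ : O₁ ≠ ⊤) (t₂ : O₂ ≠ ⊤) (t₃ : O₃ ≠ ⊤) (n₁₂ : O₁ ≠ O₂) (n₁₃ : O₁ ≠ O₃) (n₂₃ : O₂ ≠ O₃) :
    ∀ i j : Fin 3, i ≠ j → ¬ (![O₁, O₂, O₃] i) ≤ (![O₁, O₂, O₃] j) := by
  intro i j hij
  fin_cases i <;> fin_cases j
  · exact absurd rfl hij
  · exact not_le_of_isArch h₁ t₂ n₁₂
  · exact not_le_of_isArch h₁ t₃ n₁₃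
  · exact not_le_of_isArch h₂ t₁ (Ne.symm n₁₂)
  · exact absurd rfl hij
  · exact not_le_of_isArch h₂ t₃ n₂₃
  · exact not_le_of_isArch h₃ t₁ (Ne.symm n₁₃)
  · exact not_le_of_isArch h₃ t₂ (Ne.symm n₂₃)
  · exact absurd rfl hij

theorem three_isArch (h₁ : IsArch O₁) (h₂ : IsArch O₂) (h₃ : IsArch O₃) :
    ∀ i : Fin 3, IsArch (![O₁, O₂, O₃] i) := by
  intro i
  fin_cases i
  · exact h₁
  · exact h₂
  · exact h₃

/-- approximation at three places -/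
theorem exists_approx₃ (h₁ : IsArch O₁) (h₂ : IsArch O₂) (h₃ : IsArch O₃)
    (t₁ : O₁ ≠ ⊤) (t₂ : O₂ ≠ ⊤) (t₃ : O₃ ≠ ⊤) (n₁₂ : O₁ ≠ O₂) (n₁₃ : O₁ ≠ O₃) (n₂₃ : O₂ ≠ O₃)
    (a₁ a₂ a₃ : F) :
    ∃ x : F, O₁.valuation (x - a₁) < 1 ∧ O₂.valuation (x - a₂) < 1 ∧ O₃.valuation (x - a₃) < 1 := by
  obtain ⟨x, hx⟩ := exists_approx ![O₁, O₂, O₃]
    (three_incomparable h₁ h₂ h₃ t₁ t₂ t₃ n₁₂ n₁₃ n₂₃) (three_isArch h₁ h₂ h₃)
    ![a₁, a₂, a₃] (fun _ => 1) (fun _ => one_ne_zero)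
  have e₁ : O₁.valuation (x - a₁) < O₁.valuation 1 := hx 0
  have e₂ : O₂.valuation (x - a₂) < O₂.valuation 1 := hx 1
  have e₃ : O₃.valuation (x - a₃) < O₃.valuation 1 := hx 2
  rw [map_one] at e₁ e₂ e₃
  exact ⟨x, e₁, e₂, e₃⟩

/-- prescribed valuations at three places -/
theorem exists_valuation_eq₃ (h₁ : IsArch O₁) (h₂ : IsArch O₂) (h₃ : IsArch O₃)
    (t₁ : O₁ ≠ ⊤) (t₂ : O₂ ≠ ⊤) (t₃ : O₃ ≠ ⊤) (n₁₂ : O₁ ≠ O₂) (n₁₃ : O₁ ≠ O₃) (n₂₃ : O₂ ≠ O₃)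
    {a₁ a₂ a₃ : F} (ha₁ : a₁ ≠ 0) (ha₂ : a₂ ≠ 0) (ha₃ : a₃ ≠ 0) :
    ∃ x : F, x ≠ 0 ∧ O₁.valuation x = O₁.valuation a₁ ∧ O₂.valuation x = O₂.valuation a₂ ∧
      O₃.valuation x = O₃.valuation a₃ := by
  have ha : ∀ i : Fin 3, ![a₁, a₂, a₃] i ≠ 0 := by
    intro i
    fin_cases i
    · exact ha₁
    · exact ha₂
    · exact ha₃
  obtain ⟨x, hx0, hx⟩ := exists_valuation_eq ![O₁, O₂, O₃]
    (three_incomparable h₁ h₂ h₃ t₁ t₂ t₃ n₁₂ n₁₃ n₂₃) (three_isArch h₁ h₂ h₃)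
    ![a₁, a₂, a₃] ha
  exact ⟨x, hx0, hx 0, hx 1, hx 2⟩

end Three

variable {K : Type*} [Field K] {R : ValuationSubring K} {π : K} (B : BaseDVR R π)

section Gauss

variable {G : Type*} [Field G] [Algebra K G]
variable {Gk : Type*} [Field Gk] [Algebra (IsLocalRing.ResidueField R) Gk]
variable (W : GaussDatum R G Gk)

include B in
theorem gauss_isArch : IsArch W.O :=
  isArch_of_uniformizer (algebraMap K G π) (algebraMap_pi_ne_zero B)
    (valuation_algebraMap_pi_lt_one B W.O W.algebraMap_mem_iff)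
    (fun _ hx => gauss_exists_zpow B W hx)

include B in
theorem gauss_ne_top : W.O ≠ ⊤ := by
  intro h
  have h1 : (algebraMap K G π)⁻¹ ∈ W.O := by rw [h]; trivial
  rw [← map_inv₀] at h1
  exact B.π_not_unit ((W.algebraMap_mem_iff _).1 h1)

end Gauss

section Ram

variable {F : Type*} [Field F] [Algebra K F]
variable {Fk : Type*} [Field Fk] [Algebra (IsLocalRing.ResidueField R) Fk]
variable (V : RamGaussDatum R F Fk)

include B in
theorem ram_ne_top : V.O ≠ ⊤ := by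
  intro h
  have h1 : (algebraMap K F π)⁻¹ ∈ V.O := by rw [h]; trivial
  rw [← map_inv₀] at h1
  exact B.π_not_unit ((V.algebraMap_mem_iff _).1 h1)

include B in
theorem ram_unif_ne_zero : V.unif ≠ 0 := by
  intro h0
  apply ram_ne_top B V
  rw [eq_top_iff]
  intro f _
  rcases eq_or_ne f 0 with rfl | hf
  · exact V.O.zero_mem
  obtain ⟨j, u, hu⟩ := V.exists_zpow_mul_isUnit f hf
  rcases eq_or_ne j 0 with rfl | hj
  · rw [zpow_zero, one_mul] at hu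
    rw [hu]
    exact (u : V.O).2
  · rw [h0, zero_zpow j hj, zero_mul] at hu
    exact absurd hu hf

include B in
theorem ram_isArch : IsArch V.O :=
  isArch_of_uniformizer V.unif (ram_unif_ne_zero B V) (valuation_unif_lt_one V)
    (fun _ hx => ram_exists_zpow V hx)

end Ram

end Fermat.Agent.S36lib.J
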