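/-
S36lib / J / Step1  (helper4)

First step of the chain: the orders `(w₁, w₂, w₃)` of a Kummer function `u` with
`Nα u, Nβ u ∈ Kˣ (Gˣ)ⁿ` satisfy `(q+1) (w₁, w₂, w₃) ≡ m (1, q-1, 1) (mod n)`; hence
`u^(q+1) = u' · y` with `u'` a tri-unit and `y = π^m g₀ⁿ` a trivial Kummer function.
-/
import Fermat.Agent.S36lib.J.Setup
import Fermat.Agent.S36lib.J.Three

set_option autoImplicit false

noncomputable section

namespace Fermat.Agent.S36lib.J

open AlgebraicCurve Module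
open Fermat.Agent.S18lib Fermat.Agent.S36lib.Thick Fermat.Agent.S36lib.Norm
open Fermat.Agent.LSb (HasValueAt)

/-! ### generalities -/

theorem zpow_calc {Γ : Type*} [CommGroupWithZero Γ] {a : Γ} (ha : a ≠ 0) (w m w' : ℤ) (N n : ℕ)
    (h : w * N = m + n * w') : (a ^ w) ^ N * (a ^ m * (a ^ w') ^ n)⁻¹ = 1 := by
  rw [← zpow_natCast (a ^ w) N, ← zpow_mul, ← zpow_natCast (a ^ w') n, ← zpow_mul,
    ← zpow_add₀ ha, ← zpow_neg, ← zpow_add₀ ha]
  have e : w * (N : ℤ) + -(m + w' * (n : ℤ)) = 0 := by linarith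
  rw [e, zpow_zero]

section Congr

variable {K : Type*} [Field K] {R : ValuationSubring K} {π : K} (B : BaseDVR R π)
variable {G : Type*} [Field G] [Algebra K G]
variable {G₁ G₂ : Type*} [Field G₁] [Field G₂]
variable [Algebra (IsLocalRing.ResidueField R) G₁] [Algebra (IsLocalRing.ResidueField R) G₂]

include B in
/-- the order of `y = c hⁿ` at a Gauss datum is `ord c` modulo `n` -/
theorem exists_ord_of_isConstPow (W : GaussDatum R G G₁) {n : ℕ} {c : K} {h : G} (hc : c ≠ 0)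
    (hh : h ≠ 0) {N : ℤ}
    (hN : W.O.valuation (algebraMap K G c * h ^ n) = W.O.valuation (algebraMap K G π) ^ N) :
    ∃ m : ℤ, N = B.ord c + n * m := by
  obtain ⟨m, hm⟩ := gauss_exists_zpow B W hh
  refine ⟨m, ?_⟩
  have hπ0 : algebraMap K G π ≠ 0 := algebraMap_pi_ne_zero B
  have hπlt := valuation_algebraMap_pi_lt_one B W.O W.algebraMap_mem_iff
  rw [map_mul, map_pow, valuation_algebraMap B W.O W.algebraMap_mem_iff hc, hm, ← zpow_natCast,
    ← zpow_mul, ← zpow_add₀ ((map_ne_zero _).2 hπ0)] at hN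
  have := zpow_valuation_injective W.O hπ0 hπlt hN
  linarith

include B in
/-- the orders of a trivial Kummer function at two Gauss data are congruent modulo `n` -/
theorem ord_congr_of_isConstPow (W₁ : GaussDatum R G G₁) (W₂ : GaussDatum R G G₂) {n : ℕ} {y : G}
    (hy : IsConstPow K n y) {N₁ N₂ : ℤ}
    (h₁ : W₁.O.valuation y = W₁.O.valuation (algebraMap K G π) ^ N₁)
    (h₂ : W₂.O.valuation y = W₂.O.valuation (algebraMap K G π) ^ N₂) :
    N₁ ≡ N₂ [ZMOD n] := by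
  obtain ⟨c, h, hc, hh, rfl⟩ := hy
  obtain ⟨m₁, e₁⟩ := exists_ord_of_isConstPow B W₁ hc hh h₁
  obtain ⟨m₂, e₂⟩ := exists_ord_of_isConstPow B W₂ hc hh h₂
  rw [e₁, e₂]
  refine (Int.modEq_iff_dvd).2 ⟨m₂ - m₁, ?_⟩
  ring

end Congr

variable {K : Type*} [Field K] {R : ValuationSubring K}
variable {F : Type*} [Field F] [Algebra K F]
variable {F₁ F₂ F₃ : Type*} [Field F₁] [Field F₂] [Field F₃]
variable [Algebra (IsLocalRing.ResidueField R) F₁] [Algebra (IsLocalRing.ResidueField R) F₂]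
variable [Algebra (IsLocalRing.ResidueField R) F₃]
variable {G : Type*} [Field G] [Algebra K G]
variable {G₁ G₂ : Type*} [Field G₁] [Field G₂]
variable [Algebra (IsLocalRing.ResidueField R) G₁] [Algebra (IsLocalRing.ResidueField R) G₂]
variable {D : ThickDatum R F F₁ F₂ F₃} {L : LowDatum R G G₁ G₂}
variable {g g₁ g₂ g₃ g₁' g₂' n q : ℕ} {KS : KummerSystem D g n} {ND : NormData D L}

namespace ChainCtx

variable (X : ChainCtx D L g g₁ g₂ g₃ g₁' g₂' n q KS ND)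

include X

theorem base : BaseDVR R D.π :=
  ⟨X.thick.π_mem, X.thick.π_not_unit, X.thick.exists_zpow_mul_unit⟩

theorem n_ne_zero : n ≠ 0 := by
  rintro rfl
  exact X.hn Nat.cast_zero

theorem n_pos : 0 < n := Nat.pos_of_ne_zero X.n_ne_zero

theorem e_cast : ((D.e : ℕ) : ℤ) = (q : ℤ) - 1 := by
  rw [X.he, Nat.cast_sub (by have := X.hq; omega)]
  simp

theorem πF_ne_zero : algebraMap K F D.π ≠ 0 := algebraMap_pi_ne_zero X.base

theorem ϖ_ne_zero : D.ϖ ≠ 0 := ram_unif_ne_zero X.base D.V₂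

theorem val₂_π : D.V₂.O.valuation (algebraMap K F D.π) = D.V₂.O.valuation D.ϖ ^ D.e := by
  obtain ⟨u, hu⟩ := X.thick.unif_pow
  have := congrArg D.V₂.O.valuation hu
  rw [map_mul, valuation_unit, mul_one, map_pow] at this
  exact this.symm

theorem arch₁ : IsArch D.V₁.O := gauss_isArch X.base D.V₁
theorem arch₂ : IsArch D.V₂.O := ram_isArch X.base D.V₂
theorem arch₃ : IsArch D.V₃.O := gauss_isArch X.base D.V₃
theorem top₁ : D.V₁.O ≠ ⊤ := gauss_ne_top X.base D.V₁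
theorem top₂ : D.V₂.O ≠ ⊤ := ram_ne_top X.base D.V₂
theorem top₃ : D.V₃.O ≠ ⊤ := gauss_ne_top X.base D.V₃

omit X in
/-- closure of `IsKum` under powers -/
theorem isKum_pow {z : F} (hz : KS.IsKum z) (m : ℕ) : KS.IsKum (z ^ m) := by
  induction m with
  | zero =>
    rw [pow_zero]
    have := KS.const 1 one_ne_zero
    rwa [map_one] at this
  | succ m ih =>
    rw [pow_succ]
    exact KS.mul _ _ ih hz

omit X in
/-- a trivial Kummer function is Kummer -/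
theorem isKum_of_isConstPow {y : F} (hy : IsConstPow K n y) : KS.IsKum y := by
  obtain ⟨c, h, hc, hh, rfl⟩ := hy
  exact KS.mul _ _ (KS.const c hc) (KS.npow h hh)

/-- **Step 1.** -/
theorem exists_fibre_unit {u : F} (hu : KS.IsKum u) (hα : IsConstPow K n (ND.Nα u))
    (hβ : IsConstPow K n (ND.Nβ u)) :
    ∃ u' y : F, KS.IsKum u' ∧ IsConstPow K n (ND.Nα u') ∧ IsConstPow K n (ND.Nβ u') ∧
      D.V₁.O.valuation u' = 1 ∧ D.V₂.O.valuation u' = 1 ∧ D.V₃.O.valuation u' = 1 ∧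
      IsConstPow K n y ∧ u ^ (q + 1) = u' * y := by
  have B := X.base
  have hu0 : u ≠ 0 := KS.ne_zero u hu
  have hπF := X.πF_ne_zero
  have hϖ := X.ϖ_ne_zero
  obtain ⟨w₁, hw₁⟩ := gauss_exists_zpow B D.V₁ hu0
  obtain ⟨w₂, hw₂⟩ := ram_exists_zpow D.V₂ hu0
  obtain ⟨w₃, hw₃⟩ := gauss_exists_zpow B D.V₃ hu0
  -- the two congruences
  have cα : w₁ + w₂ ≡ (q : ℤ) * w₃ [ZMOD n] :=
    ord_congr_of_isConstPow B L.W₁ L.W₂ hα (X.ordα₁ u w₁ w₂ hu0 hw₁ hw₂) (X.ordα₂ u w₃ hu0 hw₃)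
  have cβ : (q : ℤ) * w₁ ≡ w₂ + w₃ [ZMOD n] :=
    ord_congr_of_isConstPow B L.W₁ L.W₂ hβ (X.ordβ₁ u w₁ hu0 hw₁) (X.ordβ₂ u w₂ w₃ hu0 hw₂ hw₃)
  obtain ⟨m, w₁', w₂', w₃', e₁, e₂, e₃⟩ := exists_fibre_decomp cα cβ
  -- a function with orders `(w₁', w₂', w₃')`
  obtain ⟨g₀, hg₀, hg₁, hg₂, hg₃⟩ := exists_valuation_eq₃ X.arch₁ X.arch₂ X.arch₃ X.top₁ X.top₂
    X.top₃ X.ne₁₂ X.ne₁₃ X.ne₂₃ (zpow_ne_zero w₁' hπF) (zpow_ne_zero w₂' hϖ) (zpow_ne_zero w₃' hπF)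
  have hπm : D.π ^ m ≠ 0 := zpow_ne_zero m B.π_ne_zero
  set y : F := algebraMap K F D.π ^ m * g₀ ^ n with hy
  have hyP : IsConstPow K n y := ⟨D.π ^ m, g₀, hπm, hg₀, by rw [hy, map_zpow₀]⟩
  have hy0 : y ≠ 0 := hyP.ne_zero
  set u' : F := u ^ (q + 1) * y⁻¹ with hu'
  have huy : u ^ (q + 1) = u' * y := by
    rw [hu', mul_assoc, inv_mul_cancel₀ hy0, mul_one]
  have hyK : KS.IsKum y := isKum_of_isConstPow hyP
  have hu'K : KS.IsKum u' := KS.mul _ _ (isKum_pow hu (q + 1)) (KS.inv _ hyK)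
  have hNα : IsConstPow K n (ND.Nα u') := by
    rw [hu', map_mul, map_pow]
    exact (hα.pow (q + 1)).mul (IsConstPow.map ND.Nα X.normα.const hyP.inv)
  have hNβ : IsConstPow K n (ND.Nβ u') := by
    rw [hu', map_mul, map_pow]
    exact (hβ.pow (q + 1)).mul (IsConstPow.map ND.Nβ X.normβ.const hyP.inv)
  refine ⟨u', y, hu'K, hNα, hNβ, ?_, ?_, ?_, hyP, huy⟩
  · -- `V₁`
    rw [hu', map_mul, map_pow, map_inv₀, hy, map_mul, map_pow, map_zpow₀ D.V₁.O.valuation, hg₁,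
      map_zpow₀ D.V₁.O.valuation, hw₁]
    refine zpow_calc ((map_ne_zero _).2 hπF) w₁ m w₁' (q + 1) n ?_
    push_cast
    linarith
  · -- `V₂`
    rw [hu', map_mul, map_pow, map_inv₀, hy, map_mul, map_pow, map_zpow₀ D.V₂.O.valuation, hg₂,
      map_zpow₀ D.V₂.O.valuation, hw₂, X.val₂_π, ← zpow_natCast (D.V₂.O.valuation D.ϖ) D.e,
      ← zpow_mul]
    refine zpow_calc ((map_ne_zero _).2 hϖ) w₂ ((D.e : ℤ) * m) w₂' (q + 1) n ?_
    rw [X.e_cast]
    push_cast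
    linarith
  · -- `V₃`
    rw [hu', map_mul, map_pow, map_inv₀, hy, map_mul, map_pow, map_zpow₀ D.V₃.O.valuation, hg₃,
      map_zpow₀ D.V₃.O.valuation, hw₃]
    refine zpow_calc ((map_ne_zero _).2 hπF) w₃ m w₃' (q + 1) n ?_
    push_cast
    linarith

end ChainCtx

end Fermat.Agent.S36lib.J
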