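/-
S36lib / J / Step2  (helper4)

Second step of the chain: for a Kummer tri-unit `u'` with `Nα u', Nβ u' ∈ Kˣ (Gˣ)ⁿ` the
reductions `r₁, r₂^e, r₃` lie in `kˣ (Fᵢˣ)ⁿ` (norm–reduction + the Frobenius type of `a₃`, `b₁`);
lifting the `n`-th roots one gets `u'^e = z · gⁿ` with `z` a tri-unit with CONSTANT reductions.
-/
import Fermat.Agent.S36lib.J.Step1

set_option autoImplicit false

noncomputable section

namespace Fermat.Agent.S36lib.J

open AlgebraicCurve Module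
open Fermat.Agent.S18lib Fermat.Agent.S36lib.Thick Fermat.Agent.S36lib.Norm
open Fermat.Agent.LSb (HasValueAt)
open Fermat.Agent.LSc (IsConstMulPow)

variable {K : Type*} [Field K] {R : ValuationSubring K}
variable {F : Type*} [Field F] [Algebra K F]
variable {F₁ F₂ F₃ : Type*} [Field F₁] [Field F₂] [Field F₃]
variable [Algebra (IsLocalRing.ResidueField R) F₁] [Algebra (IsLocalRing.ResidueField R) F₂]
variable [Algebra (IsLocalRing.ResidueField R) F₃]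

/-! ### the middle reduction as a bare place -/

section Red₂

variable (D : ThickDatum R F F₁ F₂ F₃)

/-- the three bare places of a thick datum -/
abbrev P₁ : Norm.Place F F₁ := gaussPlace D.V₁
abbrev P₂ : Norm.Place F F₂ := ramPlace D.V₂
abbrev P₃ : Norm.Place F F₃ := gaussPlace D.V₃

theorem red₂_eq (y : F) : D.red₂ y = (P₂ D).redF y := rfl

theorem red₁_eq (y : F) : D.V₁.redF y = (P₁ D).redF y := rfl

theorem red₃_eq (y : F) : D.V₃.redF y = (P₃ D).redF y := rfl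

end Red₂

/-! ### units of a bare place -/

section PlaceUnit

variable {F : Type*} [Field F] {κ : Type*} [Field κ] (P : Norm.Place F κ)

theorem place_redF_ne_zero_of_valuation_eq_one {x : F} (h : P.O.valuation x = 1) :
    P.redF x ≠ 0 :=
  (P.redF_ne_zero_iff (mem_and_inv_mem_of_valuation_eq_one P.O h).1).2 h

/-- reduction of `x^m · (yⁿ)⁻¹` for units `x, y` -/
theorem place_redF_pow_mul_inv_pow {x y : F} (hx : P.redF x ≠ 0) (hy : P.redF y ≠ 0) (m n : ℕ) :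
    P.redF (x ^ m * (y ^ n)⁻¹) = P.redF x ^ m * (P.redF y ^ n)⁻¹ := by
  have hxO := P.mem_of_redF_ne_zero hx
  have hyO := P.mem_of_redF_ne_zero hy
  have hyn : P.redF (y ^ n) ≠ 0 := by
    rw [P.redF_pow hyO]
    exact pow_ne_zero n hy
  rw [P.redF_mul (P.O.pow_mem hxO m) (P.inv_mem_of_redF_ne_zero hyn), P.redF_pow hxO,
    P.redF_inv hyn, P.redF_pow hyO]

end PlaceUnit

variable {G : Type*} [Field G] [Algebra K G]
variable {G₁ G₂ : Type*} [Field G₁] [Field G₂]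
variable [Algebra (IsLocalRing.ResidueField R) G₁] [Algebra (IsLocalRing.ResidueField R) G₂]
variable {D : ThickDatum R F F₁ F₂ F₃} {L : LowDatum R G G₁ G₂}
variable {g g₁ g₂ g₃ g₁' g₂' n q : ℕ} {KS : KummerSystem D g n} {ND : NormData D L}

namespace ChainCtx

variable (X : ChainCtx D L g g₁ g₂ g₃ g₁' g₂' n q KS ND)

include X

/-- **Step 2a**: the reductions of a tri-unit with trivial norms are trivial Kummer functions. -/
theorem red_isConstMulPow {u' : F} (h₁ : D.V₁.O.valuation u' = 1)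
    (h₂ : D.V₂.O.valuation u' = 1) (h₃ : D.V₃.O.valuation u' = 1)
    (hα : IsConstPow K n (ND.Nα u')) (hβ : IsConstPow K n (ND.Nβ u')) :
    IsConstMulPow (A := R) n (D.V₁.redF u') ∧ IsConstMulPow (A := R) n (D.red₂ u' ^ D.e) ∧
      IsConstMulPow (A := R) n (D.V₃.redF u') := by
  have B := X.base
  have hO : u' ∈ D.O := ThickDatum.mem_O.2
    ⟨(mem_and_inv_mem_of_valuation_eq_one _ h₁).1, (mem_and_inv_mem_of_valuation_eq_one _ h₂).1,
      (mem_and_inv_mem_of_valuation_eq_one _ h₃).1⟩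
  have hr₁ : D.V₁.redF u' ≠ 0 := place_redF_ne_zero_of_valuation_eq_one (P₁ D) h₁
  have hr₂ : D.red₂ u' ≠ 0 := place_redF_ne_zero_of_valuation_eq_one (P₂ D) h₂
  have hr₃ : D.V₃.redF u' ≠ 0 := place_redF_ne_zero_of_valuation_eq_one (P₃ D) h₃
  -- the four norm–reduction relations
  have eα₁ := X.normα.red₁ u' hO
  have eα₂ := X.normα.red₂ u' hO
  have eβ₁ := X.normβ.red₁ u' hO
  have eβ₂ := X.normβ.red₂ u' hO
  rw [MonoidHom.pow_apply] at eα₁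
  rw [MonoidHom.one_apply, one_mul] at eα₂
  rw [MonoidHom.one_apply, mul_one] at eβ₁
  have hα₁ : IsConstMulPow (A := R) n (ND.a₁ (D.V₁.redF u') * ND.a₂ (D.red₂ u') ^ D.e) := by
    rw [← eα₁]
    refine isConstMulPow_redF_of_isConstPow B L.W₁ hα ?_
    rw [eα₁]
    exact mul_ne_zero (monoidHom_ne_zero _ hr₁) (pow_ne_zero _ (monoidHom_ne_zero _ hr₂))
  have hα₂ : IsConstMulPow (A := R) n (ND.a₃ (D.V₃.redF u')) := by
    rw [← eα₂]
    refine isConstMulPow_redF_of_isConstPow B L.W₂ hα ?_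
    rw [eα₂]
    exact monoidHom_ne_zero _ hr₃
  have hβ₁ : IsConstMulPow (A := R) n (ND.b₁ (D.V₁.redF u')) := by
    rw [← eβ₁]
    refine isConstMulPow_redF_of_isConstPow B L.W₁ hβ ?_
    rw [eβ₁]
    exact monoidHom_ne_zero _ hr₁
  -- `r₁`
  have c₁ : IsConstMulPow (A := R) n (D.V₁.redF u') := by
    obtain ⟨ρ, hρ, hρb⟩ := X.retr₁
    have := isConstMulPow_map ρ hρ hβ₁
    rw [hρb] at this
    exact isConstMulPow_of_pow X.hqn hr₁ this
  -- `r₃`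
  have c₃ : IsConstMulPow (A := R) n (D.V₃.redF u') := by
    obtain ⟨ρ, hρ, hρa⟩ := X.retr₃
    have := isConstMulPow_map ρ hρ hα₂
    rw [hρa] at this
    exact isConstMulPow_of_pow X.hqn hr₃ this
  -- `r₂ ^ e`
  have c₂ : IsConstMulPow (A := R) n (D.red₂ u' ^ D.e) := by
    obtain ⟨ρ, hρ, hρa⟩ := X.retr₂
    have h1 : IsConstMulPow (A := R) n (ND.a₁ (D.V₁.redF u')) :=
      isConstMulPow_map ND.a₁ X.normα.φ₁_const c₁
    have h2 := hα₁.div h1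
    rw [mul_div_cancel_left₀ _ (monoidHom_ne_zero _ hr₁), ← map_pow] at h2
    have := isConstMulPow_map ρ hρ h2
    rwa [hρa] at this
  exact ⟨c₁, c₂, c₃⟩

/-- **Step 2b**: `u'^e = z · gⁿ` with `z` a tri-unit with constant reductions. -/
theorem exists_triUnit {u' : F} (hK : KS.IsKum u') (h₁ : D.V₁.O.valuation u' = 1)
    (h₂ : D.V₂.O.valuation u' = 1) (h₃ : D.V₃.O.valuation u' = 1)
    (hα : IsConstPow K n (ND.Nα u')) (hβ : IsConstPow K n (ND.Nβ u')) :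
    ∃ (z y : F) (b₁ b₂ b₃ : IsLocalRing.ResidueField R), KS.IsKum z ∧
      IsConstPow K n (ND.Nα z) ∧ IsConstPow K n (ND.Nβ z) ∧ IsTriUnit D z b₁ b₂ b₃ ∧
      IsConstPow K n y ∧ u' ^ D.e = z * y := by
  obtain ⟨⟨c₁, s₁, hc₁, hs₁, e₁⟩, ⟨c₂, s₂, hc₂, hs₂, e₂⟩, ⟨c₃, s₃, hc₃, hs₃, e₃⟩⟩ :=
    X.red_isConstMulPow h₁ h₂ h₃ hα hβ
  have hr₁ : (P₁ D).redF u' ≠ 0 := place_redF_ne_zero_of_valuation_eq_one (P₁ D) h₁
  have hr₂ : (P₂ D).redF u' ≠ 0 := place_redF_ne_zero_of_valuation_eq_one (P₂ D) h₂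
  have hr₃ : (P₃ D).redF u' ≠ 0 := place_redF_ne_zero_of_valuation_eq_one (P₃ D) h₃
  -- lifts of the roots
  obtain ⟨A₁, hA₁, rA₁⟩ := (P₁ D).exists_redF_eq (s₁ ^ D.e)
  obtain ⟨A₂, hA₂, rA₂⟩ := (P₂ D).exists_redF_eq s₂
  obtain ⟨A₃, hA₃, rA₃⟩ := (P₃ D).exists_redF_eq (s₃ ^ D.e)
  obtain ⟨x, hx₁, hx₂, hx₃⟩ := exists_approx₃ X.arch₁ X.arch₂ X.arch₃ X.top₁ X.top₂ X.top₃
    X.ne₁₂ X.ne₁₃ X.ne₂₃ A₁ A₂ A₃
  have rx₁ : (P₁ D).redF x = s₁ ^ D.e := by rw [(P₁ D).redF_eq_of_sub_lt hA₁ hx₁, rA₁]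
  have rx₂ : (P₂ D).redF x = s₂ := by rw [(P₂ D).redF_eq_of_sub_lt hA₂ hx₂, rA₂]
  have rx₃ : (P₃ D).redF x = s₃ ^ D.e := by rw [(P₃ D).redF_eq_of_sub_lt hA₃ hx₃, rA₃]
  have nx₁ : (P₁ D).redF x ≠ 0 := by rw [rx₁]; exact pow_ne_zero _ hs₁
  have nx₂ : (P₂ D).redF x ≠ 0 := by rw [rx₂]; exact hs₂
  have nx₃ : (P₃ D).redF x ≠ 0 := by rw [rx₃]; exact pow_ne_zero _ hs₃
  have hx0 : x ≠ 0 := by
    rintro rfl
    exact nx₁ (P₁ D).redF_zero
  have hyP : IsConstPow K n (x ^ n) := isConstPow_npow hx0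
  have hy0 : x ^ n ≠ 0 := pow_ne_zero n hx0
  set z : F := u' ^ D.e * (x ^ n)⁻¹ with hz
  have huz : u' ^ D.e = z * x ^ n := by
    rw [hz, mul_assoc, inv_mul_cancel₀ hy0, mul_one]
  have hzK : KS.IsKum z := KS.mul _ _ (isKum_pow hK D.e) (KS.inv _ (KS.npow x hx0))
  have hNα : IsConstPow K n (ND.Nα z) := by
    rw [hz, map_mul, map_pow]
    exact (hα.pow D.e).mul (IsConstPow.map ND.Nα X.normα.const hyP.inv)
  have hNβ : IsConstPow K n (ND.Nβ z) := by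
    rw [hz, map_mul, map_pow]
    exact (hβ.pow D.e).mul (IsConstPow.map ND.Nβ X.normβ.const hyP.inv)
  refine ⟨z, x ^ n, c₁ ^ D.e, c₂, c₃ ^ D.e, hzK, hNα, hNβ,
    ⟨pow_ne_zero _ hc₁, hc₂, pow_ne_zero _ hc₃, ?_, ?_, ?_⟩, hyP, huz⟩
  · rw [red₁_eq, hz, place_redF_pow_mul_inv_pow (P₁ D) hr₁ nx₁, rx₁, ← red₁_eq, e₁, map_pow, mul_pow,
      ← pow_mul, ← pow_mul, mul_comm n D.e, mul_inv_cancel_right₀ (pow_ne_zero _ hs₁)]
  · rw [red₂_eq, hz, place_redF_pow_mul_inv_pow (P₂ D) hr₂ nx₂, rx₂, ← red₂_eq, e₂,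
      mul_inv_cancel_right₀ (pow_ne_zero _ hs₂)]
  · rw [red₃_eq, hz, place_redF_pow_mul_inv_pow (P₃ D) hr₃ nx₃, rx₃, ← red₃_eq, e₃, map_pow, mul_pow,
      ← pow_mul, ← pow_mul, mul_comm n D.e, mul_inv_cancel_right₀ (pow_ne_zero _ hs₃)]

end ChainCtx

end Fermat.Agent.S36lib.J
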